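import Mathlib
import Fermat.Prelude.Def_ModularCurve_ArithmeticGalois

/-!
# Galois descent to the fixed field of a subgroup: definitions

For `I` a group of automorphisms of `ℚ̄` (inertia in the application) `fixedK I` is its fixed
field, `fixedF F₀ I` the functions whose expansions have all coefficients fixed by `I`, and
`baseW A I` the valuation ring `A ∩ fixedK I`, the base of the two-chart models.
-/

set_option autoImplicit false

noncomputable section

open AlgebraicCurve ModularCurve

namespace FLTAgent.TwoChart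

local notation "ℚ̄" => AlgebraicClosure ℚ
local notation "Γℚ" => (AlgebraicClosure ℚ ≃ₐ[ℚ] AlgebraicClosure ℚ)

/-- The fixed field of `I` in `ℚ̄`. -/
abbrev fixedK (I : Subgroup Γℚ) : IntermediateField ℚ ℚ̄ := IntermediateField.fixedField I

theorem mem_fixedK {I : Subgroup Γℚ} {a : ℚ̄} : a ∈ fixedK I ↔ ∀ σ ∈ I, σ a = a :=
  IntermediateField.mem_fixedField_iff I a

variable (F₀ : IntermediateField ℚ (LaurentSeries ℚ)) (I : Subgroup Γℚ)

/-- The functions fixed by `I`, acting on the coefficients of the expansions. -/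
def fixedF : IntermediateField (fixedK I) (laurentBaseChange ℚ̄ F₀) where
  carrier := {f | ∀ σ ∈ I, arithmeticGalois F₀ σ • f = f}
  mul_mem' hf hg σ hσ := by rw [smul_mul', hf σ hσ, hg σ hσ]
  one_mem' σ _ := smul_one _
  add_mem' hf hg σ hσ := by rw [smul_add, hf σ hσ, hg σ hσ]
  zero_mem' σ _ := smul_zero _
  inv_mem' f hf σ hσ := by rw [smul_inv'', hf σ hσ]
  algebraMap_mem' a σ hσ := by
    rw [IsScalarTower.algebraMap_apply (fixedK I) ℚ̄ (laurentBaseChange ℚ̄ F₀),
      SemilinearAut.smul_algebraMap]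
    congr 1
    exact mem_fixedK.1 a.2 σ hσ

variable {F₀ I}

theorem mem_fixedF {f : laurentBaseChange ℚ̄ F₀} :
    f ∈ fixedF F₀ I ↔ ∀ σ ∈ I, arithmeticGalois F₀ σ • f = f := Iff.rfl

/-- Membership by coefficients. -/
theorem mem_fixedF_iff_coeff {f : laurentBaseChange ℚ̄ F₀} :
    f ∈ fixedF F₀ I ↔ ∀ k : ℤ, (f : LaurentSeries ℚ̄).coeff k ∈ fixedK I := by
  constructor
  · intro hf k
    rw [mem_fixedK]
    intro σ hσ
    have := congrArg (fun g : laurentBaseChange ℚ̄ F₀ => (g : LaurentSeries ℚ̄).coeff k) (hf σ hσ)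
    simpa using this
  · intro hf σ hσ
    refine Subtype.ext (HahnSeries.ext (funext fun k => ?_))
    exact mem_fixedK.1 (hf k) σ hσ

/-- `A ∩ fixedK I`. -/
abbrev baseW (A : ValuationSubring ℚ̄) (I : Subgroup Γℚ) : ValuationSubring (fixedK I) :=
  A.comap (algebraMap (fixedK I) ℚ̄)

/-- The canonical base algebra structure on the descended function field. -/
instance instAlgebraBaseW (A : ValuationSubring ℚ̄) : Algebra (baseW A I) (fixedF F₀ I) :=
  ((algebraMap (fixedK I) (fixedF F₀ I)).comp (baseW A I).subtype).toAlgebra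

instance instIsScalarTowerBaseW (A : ValuationSubring ℚ̄) :
    IsScalarTower (baseW A I) (fixedK I) (fixedF F₀ I) :=
  IsScalarTower.of_algebraMap_eq fun _ => rfl

end FLTAgent.TwoChart
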