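import Fermat.Agent.TwoChart.Finite

/-!
# Two-chart models: formal roots which glue come from a global root

`exists_glue_root`: if `f` has on both charts roots modulo the radical of `π` which agree on the
overlap, then there is one `g` in both root modules congruent to them. The roots are lifted
modulo a power of `π` beyond the torsion bound of `H¹` (`exists_root_mod_pow`, `sub_eq_pow_mul`)
and their difference is split between the charts. `eq_const_mul_pow_of_glue` deduces that `f` is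
a constant times an `n`-th power.
-/

set_option autoImplicit false

namespace FLTAgent.TwoChart

variable {W : Type*} [CommRing W] {F : Type*} [Field F] [Algebra W F]

theorem mixed_pow {n : ℕ} (g h f : F) {i : ℕ} (hi : i ≤ n) :
    (g ^ i * h ^ (n - i) * f⁻¹) ^ n = (g ^ n * f⁻¹) ^ i * (h ^ n * f⁻¹) ^ (n - i) := by
  obtain ⟨j, rfl⟩ : ∃ j, n = i + j := ⟨n - i, by omega⟩
  rw [Nat.add_sub_cancel_left]
  ring

theorem Small.of_pow {π : W} {s : Set F} {r : F} {n : ℕ} (h : Small W π s (r ^ n)) :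
    Small W π s r :=
  let ⟨m, b, hb, hm⟩ := h
  ⟨n * m, b, hb, by rw [pow_mul]; exact hm⟩

theorem Small.mul {π : W} {s : Set F} {r x : F} (h : Small W π s r) (hx : x ∈ intCl W s) :
    Small W π s (x * r) := by
  obtain ⟨m, b, hb, hm⟩ := h
  exact ⟨m, x ^ m * b, mul_mem (pow_mem hx m) hb, by rw [mul_pow, hm]; ring⟩

theorem small_iff_mem_radical {π : W} {s : Set F} {r : F} (hr : r ∈ intCl W s) :
    Small W π s r ↔
      (⟨r, hr⟩ : intCl W s) ∈ (Ideal.span {algebraMap W (intCl W s) π}).radical := by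
  rw [Ideal.mem_radical_iff]
  constructor
  · rintro ⟨m, b, hb, hm⟩
    refine ⟨m, Ideal.mem_span_singleton'.2 ⟨⟨b, hb⟩, Subtype.ext ?_⟩⟩
    show b * algebraMap W F π = r ^ m
    rw [hm, mul_comm]
  · rintro ⟨m, hm⟩
    obtain ⟨b, hb⟩ := Ideal.mem_span_singleton'.1 hm
    refine ⟨m, b, b.2, ?_⟩
    have : (b : F) * algebraMap W F π = r ^ m := congrArg Subtype.val hb
    rw [← this, mul_comm]

theorem Small.sum {π : W} {s : Set F} {ι : Type*} (S : Finset ι) (g : ι → F)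
    (hg : ∀ i ∈ S, g i ∈ intCl W s ∧ Small W π s (g i)) : Small W π s (∑ i ∈ S, g i) := by
  classical
  rw [small_iff_mem_radical (sum_mem fun i hi => (hg i hi).1)]
  have : (⟨∑ i ∈ S, g i, sum_mem fun i hi => (hg i hi).1⟩ : intCl W s) =
      ∑ i ∈ S.attach, (⟨g i, (hg i i.2).1⟩ : intCl W s) := by
    refine Subtype.ext ?_
    rw [AddSubmonoidClass.coe_finsetSum]
    exact (Finset.sum_attach S g).symm
  rw [this]
  exact Ideal.sum_mem _ fun i _ => (small_iff_mem_radical _).1 (hg i i.2).2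

/-- Mixed terms with a small factor are small. -/
theorem small_mixed {π : W} {s : Set F} {n : ℕ} [NeZero n] {f g h : F}
    (hg : g ∈ rootModule W n f s) (hh : h ∈ rootModule W n f s)
    (hgs : Small W π s (g ^ n * f⁻¹)) {i : ℕ} (hi0 : 0 < i) (hi : i ≤ n) :
    g ^ i * h ^ (n - i) * f⁻¹ ∈ intCl W s ∧ Small W π s (g ^ i * h ^ (n - i) * f⁻¹) := by
  constructor
  · refine mem_intCl_of_pow_mem (Nat.pos_of_ne_zero (NeZero.ne n)) ?_
    rw [mixed_pow g h f hi]
    exact mul_mem (pow_mem (mem_rootModule.1 hg) _) (pow_mem (mem_rootModule.1 hh) _)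
  · refine Small.of_pow (n := n) ?_
    rw [mixed_pow g h f hi]
    obtain ⟨j, rfl⟩ : ∃ j, i = j + 1 := ⟨i - 1, by omega⟩
    rw [pow_succ (g ^ n * f⁻¹), mul_comm ((g ^ n * f⁻¹) ^ j), mul_assoc,
      mul_comm (g ^ n * f⁻¹)]
    exact hgs.mul (mul_mem (pow_mem (mem_rootModule.1 hg) _) (pow_mem (mem_rootModule.1 hh) _))

/-- Congruent sections have congruent `n`-th powers. -/
theorem small_pow_sub {π : W} {s : Set F} {n : ℕ} [NeZero n] {f g h : F}
    (hh : h ∈ rootModule W n f s) (hd : g - h ∈ rootModule W n f s)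
    (hds : Small W π s ((g - h) ^ n * f⁻¹)) :
    Small W π s (g ^ n * f⁻¹ - h ^ n * f⁻¹) := by
  have : g ^ n * f⁻¹ - h ^ n * f⁻¹ =
      ∑ i ∈ Finset.Icc 1 n, (g - h) ^ i * h ^ (n - i) * f⁻¹ * (n.choose i : F) := by
    conv_lhs => rw [show g = (g - h) + h by ring, add_pow]
    rw [Finset.range_eq_Ico, Finset.sum_eq_sum_Ico_succ_bot (Nat.succ_pos n),
      show Finset.Ico (0 + 1) (n + 1) = Finset.Icc 1 n by ext; simp, add_mul, Finset.sum_mul]
    simp only [pow_zero, one_mul, Nat.sub_zero, Nat.choose_zero_right, Nat.cast_one, mul_one,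
      add_sub_cancel_left]
    exact Finset.sum_congr rfl fun i _ => by ring
  rw [this]
  refine Small.sum _ _ fun i hi => ?_
  obtain ⟨h1, h2⟩ := small_mixed hd hh hds (i := i) (by simp at hi; omega) (by simp at hi; omega)
  exact ⟨mul_mem h1 (natCast_mem _ _), by rw [mul_comm]; exact h2.mul (natCast_mem _ _)⟩

/-- The elements congruent to `0` form a subgroup. -/
theorem small_rootModule_add {π : W} {s : Set F} {n : ℕ} [NeZero n] {f g h : F}
    (hg : g ∈ rootModule W n f s) (hh : h ∈ rootModule W n f s)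
    (hgs : Small W π s (g ^ n * f⁻¹)) (hhs : Small W π s (h ^ n * f⁻¹)) :
    Small W π s ((g + h) ^ n * f⁻¹) := by
  rw [add_pow, Finset.sum_mul]
  refine Small.sum _ _ fun i hi => ?_
  have hin : i ≤ n := Nat.lt_succ_iff.1 (Finset.mem_range.1 hi)
  rw [mul_right_comm]
  rcases Nat.eq_zero_or_pos i with rfl | hi0
  · simpa using ⟨hh, hhs⟩
  · obtain ⟨h1, h2⟩ := small_mixed hg hh hgs hi0 hin
    exact ⟨mul_mem h1 (natCast_mem _ _), by rw [mul_comm]; exact h2.mul (natCast_mem _ _)⟩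

/-- A root modulo the radical lifts to a root modulo `π ^ k`. -/
theorem exists_root_mod_pow {π : W} {s : Set F} {n : ℕ} [NeZero n] (hn : IsUnit (n : W)) {f w : F}
    (hw : w ∈ rootModule W n f s) (hws : Small W π s (w ^ n * f⁻¹ - 1)) {k : ℕ} (hk : 0 < k) :
    ∃ r ∈ rootModule W n f s, Small W π s ((r - w) ^ n * f⁻¹) ∧
      ∃ b ∈ intCl W s, r ^ n * f⁻¹ = 1 + algebraMap W F π ^ k * b := by
  let A := intCl W s
  set I : Ideal A := Ideal.span {algebraMap W A π ^ k} with hI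
  have hε : (w ^ n * f⁻¹ - 1) ∈ A := sub_mem hw (one_mem _)
  have hnil : IsNilpotent (Ideal.Quotient.mk I (⟨_, hε⟩ : A)) := by
    obtain ⟨m, b, hb, hm⟩ := hws
    refine ⟨m * k, ?_⟩
    rw [← map_pow, Ideal.Quotient.eq_zero_iff_mem, hI, Ideal.mem_span_singleton']
    refine ⟨⟨b, hb⟩ ^ k, Subtype.ext ?_⟩
    show b ^ k * algebraMap W F π ^ k = (w ^ n * f⁻¹ - 1) ^ (m * k)
    rw [pow_mul, hm]
    ring
  have hnu : IsUnit (n : A ⧸ I) := by
    rw [← map_natCast ((Ideal.Quotient.mk I).comp (algebraMap W A))]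
    exact hn.map _
  obtain ⟨δq, hδnil, hδ⟩ := exists_pow_mul_eq_one hnu hnil
  obtain ⟨δ, rfl⟩ := Ideal.Quotient.mk_surjective δq
  refine ⟨(δ : F) * w, mul_mem_rootModule δ.2 hw, ?_, ?_⟩
  · obtain ⟨m, hm⟩ := hδnil
    have hsmall : Small W π s ((δ : F) - 1) := by
      rw [← map_one (Ideal.Quotient.mk I), ← map_sub, ← map_pow, Ideal.Quotient.eq_zero_iff_mem,
        hI, Ideal.mem_span_singleton'] at hm
      obtain ⟨b, hb⟩ := hm
      obtain ⟨j, rfl⟩ : ∃ j, k = j + 1 := ⟨k - 1, by omega⟩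
      refine ⟨m, (b : F) * algebraMap W F π ^ j, mul_mem b.2 (pow_mem (Subalgebra.algebraMap_mem _ π) _), ?_⟩
      have : (b : F) * algebraMap W F π ^ (j + 1) = ((δ : F) - 1) ^ m := congrArg Subtype.val hb
      rw [← this]
      ring
    have : ((δ : F) * w - w) ^ n * f⁻¹ =
        ((w ^ n * f⁻¹) * ((δ : F) - 1) ^ (n - 1)) * ((δ : F) - 1) := by
      rw [show (δ : F) * w - w = ((δ : F) - 1) * w by ring, mul_pow]
      conv_lhs => rw [show n = (n - 1) + 1 by have := NeZero.ne n; omega]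
      conv_rhs => rw [show n = (n - 1) + 1 by have := NeZero.ne n; omega, Nat.add_sub_cancel]
      ring
    rw [this]
    exact hsmall.mul (mul_mem hw (pow_mem (sub_mem δ.2 (one_mem _)) _))
  · rw [← map_one (Ideal.Quotient.mk I), ← map_add, ← map_pow, ← map_mul,
      Ideal.Quotient.eq, hI, Ideal.mem_span_singleton'] at hδ
    obtain ⟨b, hb⟩ := hδ
    refine ⟨b, b.2, ?_⟩
    have : (b : F) * algebraMap W F π ^ k =
        (δ : F) ^ n * (1 + (w ^ n * f⁻¹ - 1)) - 1 := congrArg Subtype.val hb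
    linear_combination -this

/-- Two roots modulo `π ^ k` congruent modulo the radical are congruent modulo `π ^ k`. -/
theorem sub_eq_pow_mul {π : W} {s : Set F} {n : ℕ} [NeZero n] (hn : IsUnit (n : W)) {f r₀ r₁ : F}
    (h₀ : r₀ ∈ rootModule W n f s) (h₁ : r₁ ∈ rootModule W n f s)
    (hsm : Small W π s ((r₀ - r₁) ^ n * f⁻¹)) {k : ℕ} {b₀ b₁ : F} (hb₀ : b₀ ∈ intCl W s)
    (hb₁ : b₁ ∈ intCl W s) (e₀ : r₀ ^ n * f⁻¹ = 1 + algebraMap W F π ^ k * b₀)
    (e₁ : r₁ ^ n * f⁻¹ = 1 + algebraMap W F π ^ k * b₁) :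
    ∃ δ ∈ rootModule W n f s, r₀ - r₁ = algebraMap W F π ^ k * δ := by
  let A := intCl W s
  set I : Ideal A := Ideal.span {algebraMap W A π ^ k} with hI
  have hρ : r₀ * r₁ ^ (n - 1) * f⁻¹ ∈ A := mul_mem_intCl_of_mem_rootModule h₀ h₁
  have hnu : IsUnit (n : A ⧸ I) := by
    rw [← map_natCast ((Ideal.Quotient.mk I).comp (algebraMap W A))]
    exact hn.map _
  have hone : ∀ (r b : F) (hr : r ^ n * f⁻¹ ∈ A), b ∈ A →
      r ^ n * f⁻¹ = 1 + algebraMap W F π ^ k * b → Ideal.Quotient.mk I ⟨_, hr⟩ = 1 := by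
    intro r b hr hb he
    rw [← map_one (Ideal.Quotient.mk I), Ideal.Quotient.eq, hI, Ideal.mem_span_singleton']
    refine ⟨⟨b, hb⟩, Subtype.ext ?_⟩
    show b * algebraMap W F π ^ k = r ^ n * f⁻¹ - 1
    rw [he]; ring
  have hpow : (Ideal.Quotient.mk I ⟨_, hρ⟩) ^ n = 1 := by
    have : (⟨_, hρ⟩ : A) ^ n = ⟨_, mem_rootModule.1 h₀⟩ * (⟨_, mem_rootModule.1 h₁⟩ : A) ^ (n - 1) := by
      refine Subtype.ext ?_
      have := mixed_pow (n := n) r₀ r₁ f (i := 1) (Nat.one_le_iff_ne_zero.2 (NeZero.ne n))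
      simpa using this
    rw [← map_pow, this, map_mul, map_pow, hone r₀ b₀ _ hb₀ e₀, hone r₁ b₁ _ hb₁ e₁]
    simp
  have hnil : IsNilpotent (Ideal.Quotient.mk I ⟨_, hρ⟩ - 1) := by
    rw [← hone r₁ b₁ (mem_rootModule.1 h₁) hb₁ e₁, ← map_sub]
    have hd : (r₀ - r₁) * r₁ ^ (n - 1) * f⁻¹ ∈ A ∧
        Small W π s ((r₀ - r₁) * r₁ ^ (n - 1) * f⁻¹) := by
      simpa using small_mixed (Submodule.sub_mem _ h₀ h₁) h₁ hsm (i := 1) one_pos
        (Nat.one_le_iff_ne_zero.2 (NeZero.ne n))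
    obtain ⟨m, b, hb, hm⟩ := hd.2
    refine ⟨m * k, ?_⟩
    rw [← map_pow, Ideal.Quotient.eq_zero_iff_mem, hI, Ideal.mem_span_singleton']
    refine ⟨⟨b, hb⟩ ^ k, Subtype.ext ?_⟩
    show b ^ k * algebraMap W F π ^ k = (r₀ * r₁ ^ (n - 1) * f⁻¹ - r₁ ^ n * f⁻¹) ^ (m * k)
    have : r₁ ^ n = r₁ * r₁ ^ (n - 1) := by
      rw [← pow_succ']; congr 1; have := NeZero.ne n; omega
    rw [this, show r₀ * r₁ ^ (n - 1) * f⁻¹ - r₁ * r₁ ^ (n - 1) * f⁻¹ =
      (r₀ - r₁) * r₁ ^ (n - 1) * f⁻¹ by ring, pow_mul, hm]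
    ring
  have h1 := eq_one_of_pow_eq_one_of_isNilpotent hnu hpow hnil
  rw [← map_one (Ideal.Quotient.mk I), Ideal.Quotient.eq, hI, Ideal.mem_span_singleton'] at h1
  obtain ⟨b, hb⟩ := h1
  have hbe : (b : F) * algebraMap W F π ^ k = r₀ * r₁ ^ (n - 1) * f⁻¹ - 1 :=
    congrArg Subtype.val hb
  refine ⟨((b : F) - b₁) * r₁ - b₁ * (r₀ - r₁), Submodule.sub_mem _
    (mul_mem_rootModule (sub_mem b.2 hb₁) h₁) (mul_mem_rootModule hb₁ (Submodule.sub_mem _ h₀ h₁)),
    ?_⟩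
  have h2 : r₁ ^ n = r₁ * r₁ ^ (n - 1) := by
    rw [← pow_succ']; congr 1; have := NeZero.ne n; omega
  rw [h2] at e₁
  linear_combination (-r₁) * hbe - r₀ * e₁

/-- Main theorem: if `f` has, on both charts, roots modulo the radical of `π` which agree on the
overlap, then `f` is a constant times an `n`-th power. -/
theorem exists_glue_root [IsNoetherianRing W]
    {t : F} (ht : t ≠ 0) (halg : Algebra.IsAlgebraic (Algebra.adjoin W ({t} : Set F)) F)
    (hfin : Module.Finite (Algebra.adjoin W ({t} : Set F))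
      (integralClosure (Algebra.adjoin W ({t} : Set F)) F))
    {π : W} {n : ℕ} [NeZero n] (hn : IsUnit (n : W))
    {f : F} (hf : f ≠ 0) {w₀ w₁ : F}
    (hw₀ : w₀ ∈ rootModule W n f {t}) (hw₀s : Small W π {t} (w₀ ^ n * f⁻¹ - 1))
    (hw₁ : w₁ ∈ rootModule W n f {t⁻¹}) (hw₁s : Small W π {t⁻¹} (w₁ ^ n * f⁻¹ - 1))
    (hw : Small W π {t, t⁻¹} ((w₀ - w₁) ^ n * f⁻¹)) :
    ∃ g : F, g ∈ rootModule W n f {t} ∧ g ∈ rootModule W n f {t⁻¹} ∧
      Small W π {t} ((g - w₀) ^ n * f⁻¹) ∧ Small W π {t} (g ^ n * f⁻¹ - 1) := by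
  obtain ⟨c, hc⟩ := exists_torsion_bound (n := n) hf ht halg hfin π
  obtain ⟨r₀, hr₀, hrw₀, b₀, hb₀, e₀⟩ := exists_root_mod_pow hn hw₀ hw₀s (Nat.succ_pos c)
  obtain ⟨r₁, hr₁, hrw₁, b₁, hb₁, e₁⟩ := exists_root_mod_pow hn hw₁ hw₁s (Nat.succ_pos c)
  have hL := rootModule_mono (n := n) f (intCl_le_pair_left (W := W) t)
  have hR := rootModule_mono (n := n) f (intCl_le_pair_right (W := W) t)
  have hsm : Small W π {t, t⁻¹} ((r₀ - r₁) ^ n * f⁻¹) := by
    have m1 := hL (Submodule.sub_mem _ hr₀ hw₀)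
    have m2 := Submodule.sub_mem _ (hL hw₀) (hR hw₁)
    have m3 : w₁ - r₁ ∈ rootModule W n f {t, t⁻¹} := hR (Submodule.sub_mem _ hw₁ hr₁)
    have s3 : Small W π {t, t⁻¹} ((w₁ - r₁) ^ n * f⁻¹) := by
      have h := Small.mono (intCl_le_pair_right (W := W) t) hrw₁
      have : (w₁ - r₁) ^ n * f⁻¹ = (-1) ^ n * ((r₁ - w₁) ^ n * f⁻¹) := by
        rw [show w₁ - r₁ = -1 * (r₁ - w₁) by ring, mul_pow]
        ring
      rw [this]
      exact h.mul (pow_mem (neg_mem (one_mem _)) n)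
    have := small_rootModule_add (Submodule.add_mem _ m1 m2) m3
      (small_rootModule_add m1 m2 (Small.mono (intCl_le_pair_left (W := W) t) hrw₀) hw) s3
    rwa [show r₀ - w₀ + (w₀ - w₁) + (w₁ - r₁) = r₀ - r₁ by ring] at this
  obtain ⟨δ, hδ, hδe⟩ := sub_eq_pow_mul hn (hL hr₀) (hR hr₁) hsm
    (intCl_le_pair_left t hb₀) (intCl_le_pair_right t hb₁) e₀ e₁
  rw [Nat.succ_eq_add_one] at hδe
  have hsup : π ^ (c + 1) • δ ∈ rootModule W n f {t} ⊔ rootModule W n f {t⁻¹} := by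
    rw [Algebra.smul_def, map_pow, ← hδe, sub_eq_add_neg]
    exact Submodule.add_mem_sup hr₀ (Submodule.neg_mem _ hr₁)
  obtain ⟨l₀, hl₀, l₁, hl₁, hl⟩ := Submodule.mem_sup.1 (hc _ δ hδ hsup)
  rw [Algebra.smul_def, map_pow] at hl
  set g := r₀ - algebraMap W F π * l₀ with hg
  have hg₀ : g ∈ rootModule W n f {t} :=
    Submodule.sub_mem _ hr₀ (mul_mem_rootModule (Subalgebra.algebraMap_mem _ π) hl₀)
  have hg₁ : g ∈ rootModule W n f {t⁻¹} := by
    have : g = r₁ + algebraMap W F π * l₁ := by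
      rw [hg]
      linear_combination hδe - (algebraMap W F π) * hl
    rw [this]
    exact Submodule.add_mem _ hr₁ (mul_mem_rootModule (Subalgebra.algebraMap_mem _ π) hl₁)
  have hsmall : Small W π {t} (g ^ n * f⁻¹ - 1) := by
    have hd : g - r₀ ∈ rootModule W n f {t} := Submodule.sub_mem _ hg₀ hr₀
    have hds : Small W π {t} ((g - r₀) ^ n * f⁻¹) := by
      refine ⟨1, (-1) ^ n * (algebraMap W F π) ^ (n - 1) * (l₀ ^ n * f⁻¹),
        mul_mem (mul_mem (pow_mem (neg_mem (one_mem _)) _)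
          (pow_mem (Subalgebra.algebraMap_mem _ π) _)) hl₀, ?_⟩
      rw [pow_one, show g - r₀ = -1 * (algebraMap W F π * l₀) by simp only [hg]; ring, mul_pow, mul_pow]
      conv_lhs => rw [show (algebraMap W F π) ^ n =
        algebraMap W F π * algebraMap W F π ^ (n - 1) by
          rw [← pow_succ']; congr 1; have := NeZero.ne n; omega]
      ring
    have h1 := small_pow_sub hr₀ hd hds
    have h2 : Small W π {t} (r₀ ^ n * f⁻¹ - 1) := by
      refine ⟨1, algebraMap W F π ^ c * b₀,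
        mul_mem (pow_mem (Subalgebra.algebraMap_mem _ π) _) hb₀, ?_⟩
      rw [e₀, Nat.succ_eq_add_one]; ring
    have := (small_iff_mem_radical (sub_mem (mem_rootModule.1 hg₀) (mem_rootModule.1 hr₀))).1 h1
    have hh := Ideal.add_mem _ this
      ((small_iff_mem_radical (sub_mem (mem_rootModule.1 hr₀) (one_mem _))).1 h2)
    rw [small_iff_mem_radical (sub_mem (mem_rootModule.1 hg₀) (one_mem _))]
    convert hh using 1
    exact Subtype.ext (by simp)
  refine ⟨g, hg₀, hg₁, ?_, hsmall⟩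
  have hd' : g - r₀ ∈ rootModule W n f {t} := Submodule.sub_mem _ hg₀ hr₀
  have hds' : Small W π {t} ((g - r₀) ^ n * f⁻¹) := by
    refine ⟨1, (-1) ^ n * (algebraMap W F π) ^ (n - 1) * (l₀ ^ n * f⁻¹),
      mul_mem (mul_mem (pow_mem (neg_mem (one_mem _)) _)
        (pow_mem (Subalgebra.algebraMap_mem _ π) _)) hl₀, ?_⟩
    rw [pow_one, show g - r₀ = -1 * (algebraMap W F π * l₀) by simp only [hg]; ring, mul_pow,
      mul_pow]
    conv_lhs => rw [show (algebraMap W F π) ^ n =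
      algebraMap W F π * algebraMap W F π ^ (n - 1) by
        rw [← pow_succ']; congr 1; have := NeZero.ne n; omega]
    ring
  have := small_rootModule_add hd' (Submodule.sub_mem _ hr₀ hw₀) hds' hrw₀
  rwa [show g - r₀ + (r₀ - w₀) = g - w₀ by ring] at this

/-- The glued root shows that `f` is a constant times an `n`-th power. -/
theorem eq_const_mul_pow_of_glue [IsNoetherianRing W] {K : Type*} [Field K] [Algebra W K]
    [Algebra K F] [IsScalarTower W K F]
    (hconst : ∀ x : F, IsIntegral K x → x ∈ (algebraMap K F).range)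
    {t : F} (ht : t ≠ 0) (halg : Algebra.IsAlgebraic (Algebra.adjoin W ({t} : Set F)) F)
    (hfin : Module.Finite (Algebra.adjoin W ({t} : Set F))
      (integralClosure (Algebra.adjoin W ({t} : Set F)) F))
    {π : W} (hπ : ¬ Small W π ({t} : Set F) 1) {n : ℕ} [NeZero n] (hn : IsUnit (n : W))
    {f : F} (hf : f ≠ 0) {w₀ w₁ : F}
    (hw₀ : w₀ ∈ rootModule W n f {t}) (hw₀s : Small W π {t} (w₀ ^ n * f⁻¹ - 1))
    (hw₁ : w₁ ∈ rootModule W n f {t⁻¹}) (hw₁s : Small W π {t⁻¹} (w₁ ^ n * f⁻¹ - 1))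
    (hw : Small W π {t, t⁻¹} ((w₀ - w₁) ^ n * f⁻¹)) :
    ∃ (c : K) (g : F), c ≠ 0 ∧ f = algebraMap K F c * g ^ n := by
  obtain ⟨g, hg₀, hg₁, -, hsmall⟩ := exists_glue_root (π := π) ht halg hfin hn hf hw₀ hw₀s hw₁ hw₁s hw
  obtain ⟨a, ha⟩ := hconst _ (isIntegral_of_mem_both (K := K)
    (mem_rootModule.1 hg₀) (mem_rootModule.1 hg₁))
  have hne : g ^ n * f⁻¹ ≠ 0 := by
    intro h
    rw [h, zero_sub] at hsmall
    exact hπ (by simpa using hsmall.mul (neg_mem (one_mem _)))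
  have ha0 : a ≠ 0 := fun h => hne (by rw [← ha, h, map_zero])
  refine ⟨a⁻¹, g, inv_ne_zero ha0, ?_⟩
  rw [map_inv₀, ha]
  have hg0 : g ^ n ≠ 0 := fun h => hne (by rw [h, zero_mul])
  field_simp

end FLTAgent.TwoChart
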