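import Fermat.Agent.TwoChart.Model
import Fermat.Agent.TwoChart.Glue
import Fermat.Agent.FF.Defs

/-!
# Two-chart models: vertical multiplicities and Kummer classes

Definitions only: `Model.mult M i f` is the order of `f` along the component `i`, and
`IsKummer K n f` says that every order of the nonzero function `f` on the generic fibre is
divisible by `n`. The bounds on such classes are `vertical_congr` (`VerticalCongr.lean`) and
`card_vertTrivial_le` (`CardBound.lean`).
-/

set_option autoImplicit false

open AlgebraicCurve WithZero

namespace FLTAgent.TwoChart

variable {W : Type*} [CommRing W] [IsNoetherianRing W] {k : Type*} [Field k] [IsAlgClosed k]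
  {res : W →+* k} {F : Type*} [Field F] [Algebra W F] {π : W} {t : F} {ι : Type*} [Fintype ι]
  {E : ι → Type*} [∀ i, Field (E i)] [∀ i, Algebra k (E i)] {X : Type*} [Fintype X]
  {K : Type*} [Field K] [Algebra W K] [Algebra K F] [IsScalarTower W K F]

/-- The vertical multiplicity of `f` along the component `i`. -/
noncomputable def Model.mult (M : Model W k res F π t ι E X) (i : ι) (f : F) : ℤ :=
  -(WithZero.log (M.val i f))

/-- Kummer classes: all horizontal multiplicities divisible by `n`. -/
def IsKummer (K : Type*) [Field K] {F : Type*} [Field F] [Algebra K F] (n : ℕ) (f : F) : Prop :=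
  f ≠ 0 ∧ ∀ v : Place K F, (n : ℤ) ∣ v.ord f

end FLTAgent.TwoChart
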