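import Fermat.Agent.TwoChart.DescentDefs
import Fermat.Agent.FF.RiemannRoch
import Fermat.Agent.FF.PlacesMain

/-!
# Galois descent: places of the fixed field are unramified

For a function field over `ℚ̄` defined by expansions and a group `I` of automorphisms of `ℚ̄`,
we show that every function is fixed at a finite level (`exists_finite_field_fixing`), that a
function of minimal order in its orbit can be replaced by a fixed one of the same order
(`exists_fixed_ord_eq`, by averaging and independence of characters), and hence that every place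
of the fixed field lies below a place of the big field with ramification index one
(`exists_fixed_ord_one`, `exists_place_above`).
-/

set_option autoImplicit false
set_option linter.unusedSectionVars false

noncomputable section

open AlgebraicCurve ModularCurve

namespace FLTAgent.TwoChart

local notation "ℚ̄" => AlgebraicClosure ℚ
local notation "Γℚ" => (AlgebraicClosure ℚ ≃ₐ[ℚ] AlgebraicClosure ℚ)

variable {F₀ : IntermediateField ℚ (LaurentSeries ℚ)} {I : Subgroup Γℚ}

local notation "F'" => laurentBaseChange ℚ̄ F₀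

local instance instIsAlgebraicQbar : Algebra.IsAlgebraic ℚ ℚ̄ := AlgebraicClosure.isAlgebraic ℚ

local instance instIsAlgClosureQbar : IsAlgClosure ℚ ℚ̄ := ⟨inferInstance, inferInstance⟩

local instance instNormalQbar : Normal ℚ ℚ̄ := IsAlgClosure.normal ℚ ℚ̄

theorem isIntegral_fixedK (a : ℚ̄) : IsIntegral (fixedK I) a :=
  (Algebra.IsIntegral.isIntegral (R := ℚ) a).tower_top

theorem galois_smul_algebraMap (σ : Γℚ) (a : ℚ̄) :
    arithmeticGalois F₀ σ • algebraMap ℚ̄ F' a = algebraMap ℚ̄ F' (σ a) := by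
  rw [SemilinearAut.smul_algebraMap]
  rfl

/-- Every function is defined over a number field. -/
theorem exists_finite_field_fixing (w : F') : ∃ L : IntermediateField ℚ ℚ̄,
    FiniteDimensional ℚ L ∧ ∀ σ : Γℚ, (∀ x ∈ L, σ x = x) → arithmeticGalois F₀ σ • w = w := by
  suffices h : ∀ x ∈ F', ∃ L : IntermediateField ℚ ℚ̄, FiniteDimensional ℚ L ∧
      ∀ σ : Γℚ, (∀ a ∈ L, σ a = a) → coeffMap (σ : ℚ̄ →+* ℚ̄) x = x by
    obtain ⟨L, hL, h'⟩ := h w w.2
    exact ⟨L, hL, fun σ hσ => Subtype.ext (h' σ hσ)⟩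
  intro x hx
  rw [mem_laurentBaseChange_iff] at hx
  induction hx using Subfield.closure_induction with
  | mem y hy =>
      rcases hy with ⟨a, rfl⟩ | ⟨z, hz, rfl⟩
      · refine ⟨IntermediateField.adjoin ℚ {a},
          IntermediateField.adjoin.finiteDimensional (Algebra.IsIntegral.isIntegral a), ?_⟩
        intro σ hσ
        rw [coeffMap_algebraMap]
        congr 1
        exact hσ a (IntermediateField.mem_adjoin_simple_self ℚ a)
      · exact ⟨⊥, inferInstance, fun σ _ => coeffMap_coeffEmb σ z⟩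
  | one => exact ⟨⊥, inferInstance, fun σ _ => map_one _⟩
  | add x y _ _ hx hy =>
      obtain ⟨L, hL, h⟩ := hx
      obtain ⟨L', hL', h'⟩ := hy
      refine ⟨L ⊔ L', inferInstance, fun σ hσ => ?_⟩
      rw [map_add, h σ fun a ha => hσ a (le_sup_left (b := L') ha),
        h' σ fun a ha => hσ a (le_sup_right (a := L) ha)]
  | neg x _ hx =>
      obtain ⟨L, hL, h⟩ := hx
      exact ⟨L, hL, fun σ hσ => by rw [map_neg, h σ hσ]⟩
  | inv x _ hx =>
      obtain ⟨L, hL, h⟩ := hx
      exact ⟨L, hL, fun σ hσ => by rw [map_inv₀, h σ hσ]⟩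
  | mul x y _ _ hx hy =>
      obtain ⟨L, hL, h⟩ := hx
      obtain ⟨L', hL', h'⟩ := hy
      refine ⟨L ⊔ L', inferInstance, fun σ hσ => ?_⟩
      rw [map_mul, h σ fun a ha => hσ a (le_sup_left (b := L') ha),
        h' σ fun a ha => hσ a (le_sup_right (a := L) ha)]

variable [FF.IsFF ℚ̄ (laurentBaseChange ℚ̄ F₀)]

/-- A fixed function of minimal order in an orbit. -/
theorem exists_fixed_ord_eq (P : Place ℚ̄ F') {w : F'} (hw : w ≠ 0)
    (hmin : ∀ σ ∈ I, P.ord w ≤ P.ord (arithmeticGalois F₀ σ • w)) :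
    ∃ f : F', f ∈ fixedF F₀ I ∧ f ≠ 0 ∧ P.ord f = P.ord w := by
  classical
  obtain ⟨L, hL, hfix⟩ := exists_finite_field_fixing w
  let K' : IntermediateField ℚ ℚ̄ := IntermediateField.normalClosure ℚ L ℚ̄
  have hLK : L ≤ K' := IntermediateField.le_normalClosure L
  have : Normal ℚ K' := normalClosure.normal ℚ L ℚ̄
  have : FiniteDimensional ℚ K' := normalClosure.is_finiteDimensional ℚ L ℚ̄
  let res : Γℚ →* (K' ≃ₐ[ℚ] K') := AlgEquiv.restrictNormalHom K'
  have hres : ∀ (σ : Γℚ) (x : K'), (res σ x : ℚ̄) = σ x := fun σ x =>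
    AlgEquiv.restrictNormal_commutes σ K' x
  let G : Subgroup (K' ≃ₐ[ℚ] K') := I.map res
  have : Fintype G := Fintype.ofFinite G
  have hlift : ∀ g : G, ∃ σ ∈ I, res σ = g := fun g => Subgroup.mem_map.1 g.2
  choose lift hliftI hlift using hlift
  have hsmul : ∀ σ τ : Γℚ, res σ = res τ → arithmeticGalois F₀ σ • w = arithmeticGalois F₀ τ • w := by
    intro σ τ h
    have h1 : arithmeticGalois F₀ (τ⁻¹ * σ) • w = w := by
      refine hfix _ fun x hx => ?_
      have h2 := hres (τ⁻¹ * σ) ⟨x, hLK hx⟩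
      rw [map_mul, map_inv, h, inv_mul_cancel] at h2
      exact h2.symm
    calc arithmeticGalois F₀ σ • w = arithmeticGalois F₀ (τ * (τ⁻¹ * σ)) • w := by
          rw [mul_inv_cancel_left]
      _ = arithmeticGalois F₀ τ • w := by rw [map_mul, mul_smul, h1]
  let T : K' → F' := fun θ =>
    ∑ g : G, algebraMap ℚ̄ F' ((g : K' ≃ₐ[ℚ] K') θ) * (arithmeticGalois F₀ (lift g) • w)
  have hTfix : ∀ θ, T θ ∈ fixedF F₀ I := by
    intro θ τ hτ
    let t : G := ⟨res τ, Subgroup.mem_map_of_mem res hτ⟩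
    simp only [T, Finset.smul_sum, smul_mul', galois_smul_algebraMap]
    refine Fintype.sum_equiv (Equiv.mulLeft t) _ _ fun g => ?_
    congr 1
    · congr 1
      show τ ((g : K' ≃ₐ[ℚ] K') θ : ℚ̄) = ((res τ * (g : K' ≃ₐ[ℚ] K')) θ : ℚ̄)
      rw [AlgEquiv.mul_apply, hres]
    · rw [← mul_smul, ← map_mul]
      refine hsmul _ _ ?_
      rw [map_mul, hlift, hlift]
      rfl
  -- residues of the conjugates divided by `w`
  have hmem : ∀ g : G, (arithmeticGalois F₀ (lift g) • w) / w ∈ P.toValuationSubring := by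
    intro g
    have h0 : arithmeticGalois F₀ (lift g) • w ≠ 0 := (smul_ne_zero_iff_ne _).2 hw
    rw [FF.mem_iff_ord_nonneg P (div_ne_zero h0 hw), FF.ord_div _ h0 hw]
    have := hmin _ (hliftI g)
    omega
  have hc : ∀ g : G, ∃ c : ℚ̄, IsLocalRing.residue P.toValuationSubring ⟨_, hmem g⟩ =
      algebraMap ℚ̄ P.ResidueField c := fun g =>
    ((FF.constResidue_iff_surjective P).1 (FF.constResidue P) _).imp fun c h => h.symm
  choose c hc using hc
  obtain ⟨θ, hθ⟩ : ∃ θ : K', ∑ g : G, c g * ((g : K' ≃ₐ[ℚ] K') θ : ℚ̄) ≠ 0 := by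
    by_contra h
    push Not at h
    have hinj : Function.Injective fun g : G =>
        (K'.val.toRingHom.toMonoidHom.comp
          ((g : K' ≃ₐ[ℚ] K').toRingEquiv.toRingHom.toMonoidHom) : K' →* ℚ̄) := by
      intro g g' hgg
      refine Subtype.ext (AlgEquiv.ext fun x => Subtype.ext ?_)
      exact DFunLike.congr_fun hgg x
    have hli := (linearIndependent_monoidHom K' ℚ̄).comp _ hinj
    have h1 := Fintype.linearIndependent_iff.1 hli c (funext fun x => by
      simpa [Finset.sum_apply] using h x) 1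
    have hlw : arithmeticGalois F₀ (lift 1) • w = w := by
      rw [hsmul (lift 1) 1 (by rw [hlift, map_one]; rfl), map_one, one_smul]
    have h2 : (⟨_, hmem 1⟩ : P.toValuationSubring) = 1 := Subtype.ext (by
      show (arithmeticGalois F₀ (lift 1) • w) / w = 1
      rw [hlw, div_self hw])
    have h3 := hc 1
    rw [h2, map_one, h1, map_zero] at h3
    exact one_ne_zero h3
  let u : P.toValuationSubring :=
    ∑ g : G, algebraMap ℚ̄ P.toValuationSubring ((g : K' ≃ₐ[ℚ] K') θ) * ⟨_, hmem g⟩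
  have hu : (u : F') = T θ / w := by
    simp only [u, T, Finset.sum_div, AddSubmonoidClass.coe_finsetSum, MulMemClass.coe_mul,
      Place.coe_algebraMap, mul_div_assoc]
  have hures : IsLocalRing.residue P.toValuationSubring u =
      algebraMap ℚ̄ P.ResidueField (∑ g : G, c g * ((g : K' ≃ₐ[ℚ] K') θ : ℚ̄)) := by
    simp only [u, map_sum, map_mul, hc]
    refine Finset.sum_congr rfl fun g _ => ?_
    rw [mul_comm]
    rfl
  have hunit : IsUnit u := by
    rw [← IsLocalRing.residue_ne_zero_iff_isUnit, hures]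
    exact (map_ne_zero _).2 hθ
  have hu0 : (u : F') ≠ 0 := fun h => hunit.ne_zero (Subtype.ext h)
  have hT0 : T θ ≠ 0 := fun h => hu0 (by rw [hu, h, zero_div])
  refine ⟨T θ, hTfix θ, hT0, ?_⟩
  have h0 : P.ord (u : F') = 0 := by
    obtain ⟨v, hv⟩ := hunit.exists_right_inv
    have h1 : P.ord ((u : F') * (v : F')) = 0 := by
      rw [← MulMemClass.coe_mul, hv, OneMemClass.coe_one, ← map_one (algebraMap ℚ̄ F'),
        FF.ord_algebraMap]
    have hv0 : (v : F') ≠ 0 := fun h => by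
      have := congrArg Subtype.val hv
      simp [h] at this
    rw [Place.ord_mul _ hu0 hv0] at h1
    have := FF.ord_nonneg_of_mem_placeRing P u.2
    have := FF.ord_nonneg_of_mem_placeRing P v.2
    omega
  rw [hu, FF.ord_div _ hT0 hw] at h0
  omega

/-- The orbit of a function under `I` is finite. -/
theorem orbit_finite {w : F'} :
    (Set.range fun σ : I => arithmeticGalois F₀ (σ : Γℚ) • w).Finite := by
  obtain ⟨L, hL, hfix⟩ := exists_finite_field_fixing w
  have : Finite (L →ₐ[ℚ] ℚ̄) := inferInstance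
  let r : I → (L →ₐ[ℚ] ℚ̄) := fun σ => ((σ : Γℚ) : ℚ̄ →ₐ[ℚ] ℚ̄).comp L.val
  have hr : ∀ σ τ : I, r σ = r τ →
      arithmeticGalois F₀ (σ : Γℚ) • w = arithmeticGalois F₀ (τ : Γℚ) • w := by
    intro σ τ h
    have h1 : arithmeticGalois F₀ ((τ : Γℚ)⁻¹ * (σ : Γℚ)) • w = w := by
      refine hfix _ fun x hx => ?_
      have h2 : (σ : Γℚ) x = (τ : Γℚ) x := DFunLike.congr_fun h ⟨x, hx⟩
      show (τ : Γℚ).symm ((σ : Γℚ) x) = x
      rw [h2, AlgEquiv.symm_apply_apply]
    calc arithmeticGalois F₀ (σ : Γℚ) • w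
        = arithmeticGalois F₀ ((τ : Γℚ) * ((τ : Γℚ)⁻¹ * (σ : Γℚ))) • w := by rw [mul_inv_cancel_left]
      _ = _ := by rw [map_mul, mul_smul, h1]
  have hfin : (Set.range r).Finite := Set.toFinite _
  refine Set.Finite.of_injOn (f := fun y => r (Function.invFun
    (fun σ : I => arithmeticGalois F₀ (σ : Γℚ) • w) y)) (fun y _ => Set.mem_range_self _) ?_ hfin
  intro y hy z hz h
  have := hr _ _ h
  rwa [Function.invFun_eq hy, Function.invFun_eq hz] at this

/-- A fixed function vanishing exactly to order one at a given place. -/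
theorem exists_fixed_ord_one (P : Place ℚ̄ F') :
    ∃ f : F', f ∈ fixedF F₀ I ∧ f ≠ 0 ∧ P.ord f = 1 := by
  classical
  obtain ⟨w₀, hw₀, hord₀⟩ := FF.exists_ord_eq P (-1)
  obtain ⟨_, ⟨σ₁, rfl⟩, hmin⟩ := Set.exists_min_image
    (Set.range fun σ : I => arithmeticGalois F₀ (σ : Γℚ) • w₀) (fun y => P.ord y)
    orbit_finite (Set.range_nonempty _)
  have h1 : arithmeticGalois F₀ ((1 : I) : Γℚ) • w₀ = w₀ := by simp
  have hneg : P.ord (arithmeticGalois F₀ (σ₁ : Γℚ) • w₀) ≤ -1 := by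
    have h2 := hmin _ ⟨1, h1⟩
    simp only at h2
    omega
  obtain ⟨f₁, hf₁, hf₁0, hf₁o⟩ := exists_fixed_ord_eq (I := I) P
    (w := arithmeticGalois F₀ (σ₁ : Γℚ) • w₀) ((smul_ne_zero_iff_ne _).2 hw₀) (fun σ hσ => by
      rw [← mul_smul, ← map_mul]
      exact hmin _ ⟨⟨σ * (σ₁ : Γℚ), mul_mem hσ σ₁.2⟩, rfl⟩)
  have hfin : (Set.range fun σ : I => arithmeticGalois F₀ (σ : Γℚ) • P).Finite := by
    refine (FF.finite_ord_ne_zero (K := ℚ̄) f₁).subset ?_
    rintro _ ⟨σ, rfl⟩
    show (arithmeticGalois F₀ (σ : Γℚ) • P).ord f₁ ≠ 0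
    have h2 := SemilinearAut.ord_smul (arithmeticGalois F₀ (σ : Γℚ)) P f₁
    rw [mem_fixedF.1 hf₁ _ σ.2] at h2
    omega
  obtain ⟨w, hw, hwo⟩ := FF.exists_forall_ord_eq hfin.toFinset fun _ => (1 : ℤ)
  have hP : P.ord w = 1 := hwo _ (hfin.mem_toFinset.2 ⟨1, by simp⟩)
  obtain ⟨f, hf, hf0, hfo⟩ := exists_fixed_ord_eq (I := I) P hw fun σ hσ => by
    have h2 := hwo _ (hfin.mem_toFinset.2 ⟨⟨σ⁻¹, inv_mem hσ⟩, rfl⟩)
    have h3 := SemilinearAut.ord_smul (arithmeticGalois F₀ σ)
      (arithmeticGalois F₀ σ⁻¹ • P) w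
    rw [← mul_smul (arithmeticGalois F₀ σ) (arithmeticGalois F₀ σ⁻¹) P, ← map_mul,
      mul_inv_cancel, map_one, one_smul] at h3
    simp only at h2
    omega
  exact ⟨f, hf, hf0, by omega⟩

/-- Every place of the fixed field extends without ramification. -/
theorem exists_place_above (v : Place (fixedK I) (fixedF F₀ I)) :
    ∃ P : Place ℚ̄ F', ∀ f : fixedF F₀ I, P.ord (f : F') = v.ord f := by
  classical
  let e : fixedF F₀ I →+* F' := (fixedF F₀ I).val.toRingHom
  obtain ⟨B, hB, hBloc⟩ : ∃ B : ValuationSubring F',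
      (v.toValuationSubring.toSubring.map e ≤ B.toSubring) ∧
      ∀ x (hx : x ∈ v.toValuationSubring) (hex : e x ∈ B), IsUnit (⟨e x, hex⟩ : B) →
        IsUnit (⟨x, hx⟩ : v.toValuationSubring) := by
    let R : LocalSubring F' := LocalSubring.range (e.comp v.toValuationSubring.subtype)
    obtain ⟨B, hB⟩ := LocalSubring.exists_le_valuationSubring R
    obtain ⟨hle, hloc⟩ := hB
    refine ⟨B, ?_, ?_⟩
    · rintro _ ⟨x, hx, rfl⟩
      exact hle ⟨⟨x, hx⟩, rfl⟩
    · intro x hx hex hu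
      have hmem : e x ∈ R.toSubring := ⟨⟨x, hx⟩, rfl⟩
      have huR : IsUnit (⟨e x, hmem⟩ : R.toSubring) :=
        hloc.map_nonunit (⟨e x, hmem⟩ : R.toSubring) hu
      have hinj : Function.Injective (e.comp v.toValuationSubring.subtype).rangeRestrict := by
        intro a b h
        have h' := Subtype.mk.inj h
        exact Subtype.ext (e.injective h')
      let φ := RingEquiv.ofBijective (e.comp v.toValuationSubring.subtype).rangeRestrict
        ⟨hinj, (e.comp v.toValuationSubring.subtype).rangeRestrict_surjective⟩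
      exact (isUnit_map_iff φ (⟨x, hx⟩ : v.toValuationSubring)).1 huR
  have hK : ∀ a : ℚ̄, algebraMap ℚ̄ F' a ∈ B := by
    intro a
    have hint : IsIntegral (fixedK I) a := isIntegral_fixedK a
    obtain ⟨P, hPm, hPa⟩ := hint
    let φ : fixedK I →+* B := ((algebraMap (fixedK I) F').codRestrict B.toSubring fun b => by
      have : algebraMap (fixedK I) F' b = e (algebraMap (fixedK I) (fixedF F₀ I) b) := rfl
      rw [this]
      exact hB ⟨_, v.algebraMap_mem' b, rfl⟩)
    have hint' : IsIntegral B (algebraMap ℚ̄ F' a) := by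
      refine ⟨P.map φ, hPm.map φ, ?_⟩
      rw [Polynomial.eval₂_map, show (algebraMap B F').comp φ =
        (algebraMap ℚ̄ F').comp (algebraMap (fixedK I) ℚ̄) from RingHom.ext fun b =>
          IsScalarTower.algebraMap_apply (fixedK I) ℚ̄ F' b,
        ← Polynomial.hom_eval₂, hPa, map_zero]
    obtain ⟨z, hz⟩ := (IsIntegrallyClosed.isIntegral_iff (R := B) (K := F')).1 hint'
    exact hz ▸ z.2
  have hπ : ∃ π : fixedF F₀ I, π ≠ 0 ∧ v.ord π = 1 := FF.exists_ord_eq v 1
  obtain ⟨π, hπ0, hπ1⟩ := hπ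
  have hπv : π ∈ v.toValuationSubring := (FF.mem_iff v π).2 (Or.inr (by omega))
  have heπ : e π ≠ 0 := (map_ne_zero e).2 hπ0
  have hneg : ∀ x : fixedF F₀ I, v.ord x < 0 → e x ∉ B := by
    intro x hx hxB
    have hx0 : x ≠ 0 := fun h => by rw [h, Place.ord_zero] at hx; exact lt_irrefl _ hx
    have hinv : x⁻¹ ∈ v.toValuationSubring := (FF.mem_iff v _).2 (Or.inr (by
      rw [Place.ord_inv]; omega))
    have hem : e x⁻¹ ∈ B := hB ⟨_, hinv, rfl⟩
    have hunit : IsUnit (⟨e x⁻¹, hem⟩ : B) := IsUnit.of_mul_eq_one ⟨e x, hxB⟩ (Subtype.ext (by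
      show e x⁻¹ * e x = 1
      rw [← map_mul, inv_mul_cancel₀ hx0, map_one]))
    obtain ⟨y, hy⟩ := (hBloc x⁻¹ hinv hem hunit).exists_right_inv
    have hyx : (y : fixedF F₀ I) = x := by
      have := congrArg Subtype.val hy
      simp only [MulMemClass.coe_mul, OneMemClass.coe_one] at this
      rw [inv_mul_eq_iff_eq_mul₀ hx0, mul_one] at this
      exact this
    have := FF.ord_nonneg_of_mem_placeRing v y.2
    rw [hyx] at this
    omega
  have hBtop : B ≠ ⊤ := fun h => hneg π⁻¹ (by rw [Place.ord_inv]; omega) (h ▸ trivial)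
  obtain ⟨P, hPB⟩ := FF.exists_place_eq B hK hBtop
  have hnn : ∀ x : fixedF F₀ I, x ∈ v.toValuationSubring → 0 ≤ P.ord (x : F') := fun x hx =>
    FF.ord_nonneg_of_mem_placeRing P (by rw [hPB]; exact hB ⟨x, hx, rfl⟩)
  have hgen : ∀ f : fixedF F₀ I, P.ord (f : F') = v.ord f * P.ord (e π) := by
    intro f
    rcases eq_or_ne f 0 with rfl | hf
    · simp
    set u : fixedF F₀ I := f * π ^ (-v.ord f) with hu
    have hu0 : u ≠ 0 := mul_ne_zero hf (zpow_ne_zero _ hπ0)
    have hvu : v.ord u = 0 := by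
      rw [hu, Place.ord_mul _ hf (zpow_ne_zero _ hπ0), Place.ord_zpow, hπ1]; ring
    have h1 := hnn u ((FF.mem_iff v u).2 (Or.inr hvu.ge))
    have h2 := hnn u⁻¹ ((FF.mem_iff v _).2 (Or.inr (by rw [Place.ord_inv, hvu]; omega)))
    have hcoe : ((u⁻¹ : fixedF F₀ I) : F') = (u : F')⁻¹ := map_inv₀ e u
    rw [hcoe, Place.ord_inv] at h2
    have h3 : P.ord (u : F') = 0 := by omega
    have hcoe' : (u : F') = (f : F') * (e π) ^ (-v.ord f) := by
      show e u = _
      rw [hu, map_mul, map_zpow₀]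
      rfl
    rw [hcoe', Place.ord_mul _ (fun h => hf (Subtype.ext h)) (zpow_ne_zero _ heπ),
      Place.ord_zpow] at h3
    linarith
  obtain ⟨g, hgI, -, hg1⟩ := exists_fixed_ord_one (I := I) P
  have h1 := hgen ⟨g, hgI⟩
  rw [show ((⟨g, hgI⟩ : fixedF F₀ I) : F') = g from rfl, hg1] at h1
  have hge : 0 ≤ P.ord (e π) := hnn π hπv
  have : P.ord (e π) = 1 := by
    rcases Int.eq_one_or_neg_one_of_mul_eq_one' h1.symm with ⟨-, h⟩ | ⟨-, h⟩ <;> omega
  exact ⟨P, fun f => by rw [hgen, this, mul_one]⟩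

end FLTAgent.TwoChart
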