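import Fermat.Agent.TwoChart.Descent
import Fermat.Agent.TwoChart.Bound

/-!
# Galois descent of torsion classes

The cusp `∞` is a place fixed by Galois (`exists_place_infty`), so a class fixed by `I` is the
class of a fixed divisor (`exists_fixed_divisor`) and a fixed principal divisor is the divisor
of a fixed function (`exists_fixed_fun`). As a result `card_fixed_le_of_kummer` bounds fixed
torsion classes by Kummer classes of the fixed function field.
-/

set_option autoImplicit false
set_option linter.unusedSectionVars false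

noncomputable section

open AlgebraicCurve ModularCurve

namespace FLTAgent.TwoChart

local notation "ℚ̄" => AlgebraicClosure ℚ
local notation "Γℚ" => (AlgebraicClosure ℚ ≃ₐ[ℚ] AlgebraicClosure ℚ)

variable {F₀ : IntermediateField ℚ (LaurentSeries ℚ)} {I : Subgroup Γℚ}

local notation "F'" => laurentBaseChange ℚ̄ F₀

theorem coe_galois_smul (σ : Γℚ) (f : F') (k : ℤ) :
    ((arithmeticGalois F₀ σ • f : F') : LaurentSeries ℚ̄).coeff k =
      σ ((f : LaurentSeries ℚ̄).coeff k) := rfl

/-- The coefficientwise action preserves orders of expansions. -/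
theorem order_galois_smul (σ : Γℚ) (f : F') :
    ((arithmeticGalois F₀ σ • f : F') : LaurentSeries ℚ̄).order =
      (f : LaurentSeries ℚ̄).order := by
  rcases eq_or_ne f 0 with rfl | hf
  · rw [smul_zero]
  have h0 : (f : LaurentSeries ℚ̄) ≠ 0 := fun h => hf (Subtype.ext h)
  have hg : arithmeticGalois F₀ σ • f ≠ 0 := (smul_ne_zero_iff_ne _).2 hf
  have hg0 : ((arithmeticGalois F₀ σ • f : F') : LaurentSeries ℚ̄) ≠ 0 :=
    fun h => hg (Subtype.ext h)
  refine le_antisymm (HahnSeries.order_le_of_coeff_ne_zero ?_)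
    (HahnSeries.order_le_of_coeff_ne_zero fun h => ?_)
  · rw [coe_galois_smul]
    exact fun h => HahnSeries.coeff_order_eq_zero.not.2 h0 ((map_eq_zero σ).1 h)
  · have := HahnSeries.coeff_order_eq_zero.not.2 hg0
    rw [coe_galois_smul, h, map_zero] at this
    exact this rfl

variable [FF.IsFF ℚ̄ (laurentBaseChange ℚ̄ F₀)]

variable (F₀) in
/-- The place of the cusp `∞`. -/
theorem exists_place_infty : ∃ P : Place ℚ̄ F',
    ∀ σ : Γℚ, arithmeticGalois F₀ σ • P = P := by
  classical
  let ord' : F' → Prop := fun f => f = 0 ∨ 0 ≤ (f : LaurentSeries ℚ̄).order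
  have hiff : ∀ f : F', ord' f ↔ ∀ k < 0, (f : LaurentSeries ℚ̄).coeff k = 0 := by
    intro f
    constructor
    · rintro (rfl | h) k hk
      · simp
      · exact HahnSeries.coeff_eq_zero_of_lt_order (lt_of_lt_of_le hk h)
    · intro h
      rcases eq_or_ne f 0 with hf | hf
      · exact Or.inl hf
      · refine Or.inr (not_lt.1 fun hlt => ?_)
        exact HahnSeries.coeff_order_eq_zero.not.2 (fun h0 => hf (Subtype.ext h0)) (h _ hlt)
  let B : ValuationSubring F' :=
    { carrier := {f | ord' f}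
      mul_mem' := by
        intro a b ha hb
        rcases ha with rfl | ha
        · exact Or.inl (zero_mul b)
        rcases hb with rfl | hb
        · exact Or.inl (mul_zero a)
        rcases eq_or_ne (a * b) 0 with h | h
        · exact Or.inl h
        · refine Or.inr ?_
          rw [MulMemClass.coe_mul, HahnSeries.order_mul
            (fun h0 => h (Subtype.ext (by simp [h0]))) (fun h0 => h (Subtype.ext (by simp [h0])))]
          exact add_nonneg ha hb
      one_mem' := Or.inr (by simp)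
      add_mem' := by
        intro a b ha hb
        refine (hiff _).2 fun k hk => ?_
        rw [AddMemClass.coe_add, HahnSeries.coeff_add, (hiff a).1 ha k hk, (hiff b).1 hb k hk,
          add_zero]
      zero_mem' := Or.inl rfl
      neg_mem' := by
        intro a ha
        refine (hiff _).2 fun k hk => ?_
        rw [NegMemClass.coe_neg, HahnSeries.coeff_neg, (hiff a).1 ha k hk, neg_zero]
      mem_or_inv_mem' := by
        intro a
        rcases eq_or_ne a 0 with rfl | ha
        · exact Or.inl (Or.inl rfl)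
        have ha0 : (a : LaurentSeries ℚ̄) ≠ 0 := fun h => ha (Subtype.ext h)
        have h1 : (a : LaurentSeries ℚ̄).order + ((a⁻¹ : F') : LaurentSeries ℚ̄).order = 0 := by
          rw [← HahnSeries.order_mul ha0 (fun h => inv_ne_zero ha (Subtype.ext h)),
            ← MulMemClass.coe_mul, mul_inv_cancel₀ ha, OneMemClass.coe_one, HahnSeries.order_one]
        rcases le_total 0 (a : LaurentSeries ℚ̄).order with h | h
        · exact Or.inl (Or.inr h)
        · exact Or.inr (Or.inr (by omega)) }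
  have hK : ∀ a : ℚ̄, algebraMap ℚ̄ F' a ∈ B := fun a => (hiff _).2 fun k hk => by
    show (algebraMap ℚ̄ (LaurentSeries ℚ̄) a).coeff k = 0
    rw [algebraMap_laurentSeries_eq_single, HahnSeries.coeff_single_of_ne hk.ne]
  have hB : B ≠ ⊤ := by
    intro htop
    obtain ⟨x, hx, -, -⟩ := FF.IsFF.exists_sep (K := ℚ̄) (F := F')
    set c := (x : LaurentSeries ℚ̄).coeff 0
    set g := x - algebraMap ℚ̄ F' c
    have hg : g ≠ 0 := fun h => hx (by
      rw [sub_eq_zero.1 h]; exact isAlgebraic_algebraMap c)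
    have hg0 : (g : LaurentSeries ℚ̄) ≠ 0 := fun h => hg (Subtype.ext h)
    have hc0 : (g : LaurentSeries ℚ̄).coeff 0 = 0 := by
      show ((x : LaurentSeries ℚ̄) - algebraMap ℚ̄ (LaurentSeries ℚ̄) c).coeff 0 = 0
      rw [HahnSeries.coeff_sub, algebraMap_laurentSeries_eq_single, HahnSeries.coeff_single_same,
        sub_self]
    have hmem : ∀ f : F', f ∈ B := fun f => htop ▸ ValuationSubring.mem_top f
    have h1 : 0 ≤ (g : LaurentSeries ℚ̄).order := (hmem g).resolve_left hg
    have h2 : 0 ≤ ((g⁻¹ : F') : LaurentSeries ℚ̄).order := (hmem g⁻¹).resolve_left (inv_ne_zero hg)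
    have h3 : (g : LaurentSeries ℚ̄).order ≠ 0 := fun h => by
      have := HahnSeries.coeff_order_eq_zero.not.2 hg0
      rw [h] at this
      exact this hc0
    have h4 : (g : LaurentSeries ℚ̄).order + ((g⁻¹ : F') : LaurentSeries ℚ̄).order = 0 := by
      rw [← HahnSeries.order_mul hg0 (fun h => inv_ne_zero hg (Subtype.ext h)),
        ← MulMemClass.coe_mul, mul_inv_cancel₀ hg, OneMemClass.coe_one, HahnSeries.order_one]
    omega
  obtain ⟨P, hP⟩ := FF.exists_place_eq B hK hB
  refine ⟨P, fun σ => FF.place_eq_of_le ?_⟩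
  intro f hf
  rw [SemilinearAut.smul_toValuationSubring, ValuationSubring.mem_pointwise_smul_iff_inv_smul_mem,
    hP] at hf
  rw [hP]
  rw [← map_inv] at hf
  rcases hf with h | h
  · exact Or.inl ((smul_eq_zero_iff_eq _).1 h)
  · exact Or.inr (by rwa [order_galois_smul] at h)

/-- A class fixed by `I` is the class of a divisor fixed by `I`. -/
theorem exists_fixed_divisor {x : Pic0 ℚ̄ F'}
    (hx : ∀ σ ∈ I, arithmeticGalois F₀ σ • x = x) :
    ∃ D : Divisor.degZero (K := ℚ̄) (F := F'), Pic0.mk D = x ∧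
      ∀ σ ∈ I, arithmeticGalois F₀ σ • (D : Divisor ℚ̄ F') = D := by
  classical
  obtain ⟨P, hP⟩ := exists_place_infty F₀
  obtain ⟨D₀, rfl⟩ := Pic0.mk_surjective x
  set D : ℕ → Divisor ℚ̄ F' := fun m => (D₀ : Divisor ℚ̄ F') + (m : ℤ) • Finsupp.single P 1
    with hD
  have hdeg : ∀ m, Divisor.degree (D m) = m := fun m => by
    simp only [hD, map_add, map_zsmul, Divisor.mem_degZero.1 D₀.2, FF.degree_single_one,
      smul_eq_mul, mul_one, zero_add]
  have hex : ∃ m, 0 < FF.ell (D m) := ⟨(genusFF ℚ̄ F'), by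
    have := FF.degree_add_one_sub_genusFF_le_ell (D (genusFF ℚ̄ F'))
    rw [hdeg] at this
    omega⟩
  set m := Nat.find hex with hm
  have hpos : 0 < FF.ell (D m) := Nat.find_spec hex
  have hone : FF.ell (D m) = 1 := by
    rcases Nat.eq_zero_or_pos m with h0 | h0
    · have h1 : D 0 = (D₀ : Divisor ℚ̄ F') := by simp [hD]
      rw [h0, h1] at hpos
      have hpr := FF.isPrincipal_of_degree_zero_of_ell_pos (Divisor.mem_degZero.1 D₀.2) hpos
      rw [h0, h1, FF.ell_congr (D := 0) (D' := (D₀ : Divisor ℚ̄ F')) (by simpa using hpr),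
        FF.ell_zero]

    · obtain ⟨j, hj⟩ := Nat.exists_eq_succ_of_ne_zero h0.ne'
      have hz : FF.ell (D j) = 0 := by
        have := Nat.find_min hex (show j < m by omega)
        omega
      have hstep : D m = D j + Finsupp.single P 1 := by
        simp only [hD, hj, Nat.cast_succ, add_smul, one_smul, add_assoc]
      have := FF.finiteDimensional_riemannRochSpace (D j)
      rcases FF.ell_step_or (D j) P with ⟨h, -⟩ | ⟨h, -⟩ <;>
        · rw [← hstep] at h
          omega
  obtain ⟨E, ⟨hE, hEP⟩, hEu⟩ := FF.existsUnique_effective_of_ell_eq_one hone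
  have hfix : ∀ σ ∈ I, arithmeticGalois F₀ σ • E = E := by
    intro σ hσ
    refine hEu _ ⟨?_, ?_⟩
    · intro v
      rw [SemilinearAut.divisor_smul_apply]
      exact hE _
    · have h1 : arithmeticGalois F₀ σ • (E - D m) ∈ Divisor.principal :=
        SemilinearAut.smul_mem_principal _ hEP
      have h2 : arithmeticGalois F₀ σ • (D₀ : Divisor ℚ̄ F') - D₀ ∈
          Divisor.principal (K := ℚ̄) (F := F') := by
        have h := hx σ hσ
        rw [SemilinearAut.pic0_smul_mk] at h
        have h' := QuotientAddGroup.eq.1 h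
        rw [AddSubgroup.mem_addSubgroupOf] at h'
        simpa [neg_add_eq_sub] using neg_mem h'
      have h3 := add_mem h1 h2
      have hP' : arithmeticGalois F₀ σ • ((m : ℤ) • Finsupp.single P (1 : ℤ)) =
          (m : ℤ) • Finsupp.single P 1 := by
        rw [smul_comm, SemilinearAut.smul_single, hP]
      show arithmeticGalois F₀ σ • E - D m ∈ Divisor.principal (K := ℚ̄) (F := F')
      convert h3 using 1
      simp only [hD, smul_sub, smul_add, hP']
      abel
  refine ⟨⟨E - (m : ℤ) • Finsupp.single P 1, ?_⟩, ?_, ?_⟩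
  · have := FF.degree_eq_of_isPrincipal hEP
    rw [map_sub, hdeg, sub_eq_zero] at this
    rw [Divisor.mem_degZero, map_sub, map_zsmul, FF.degree_single_one, this, smul_eq_mul,
      mul_one, sub_self]
  · refine QuotientAddGroup.eq.2 ?_
    rw [AddSubgroup.mem_addSubgroupOf]
    have := neg_mem (show E - D m ∈ Divisor.principal (K := ℚ̄) (F := F') from hEP)
    convert this using 1
    simp only [hD, AddSubgroup.coe_add, NegMemClass.coe_neg]
    abel
  · intro σ hσ
    show arithmeticGalois F₀ σ • (E - (m : ℤ) • Finsupp.single P (1 : ℤ)) = _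
    rw [smul_sub, hfix σ hσ, smul_comm, SemilinearAut.smul_single, hP]

/-- A principal divisor fixed by `I` is the divisor of a fixed function. -/
theorem exists_fixed_fun {D : Divisor ℚ̄ F'} (hD : D ∈ Divisor.principal (K := ℚ̄) (F := F'))
    (hfix : ∀ σ ∈ I, arithmeticGalois F₀ σ • D = D) :
    ∃ f : fixedF F₀ I, f ≠ 0 ∧ ∀ P : Place ℚ̄ F', D P = P.ord (f : F') := by
  obtain ⟨f, hf, hfD⟩ := hD
  have hf' : (f : LaurentSeries ℚ̄) ≠ 0 := fun h => hf (Subtype.ext h)
  set d := (f : LaurentSeries ℚ̄).order with hd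
  set a := (f : LaurentSeries ℚ̄).coeff d with ha
  have ha0 : a ≠ 0 := HahnSeries.coeff_order_eq_zero.not.2 hf'
  set g := algebraMap ℚ̄ F' a⁻¹ * f with hg
  have ha' : algebraMap ℚ̄ F' a⁻¹ ≠ 0 := (map_ne_zero _).2 (inv_ne_zero ha0)
  have hg0 : g ≠ 0 := mul_ne_zero ha' hf
  have hord : ∀ P : Place ℚ̄ F', D P = P.ord g := fun P => by
    rw [hg, Place.ord_mul _ ha' hf, FF.ord_algebraMap, zero_add, hfD]
  have hcoeff : ∀ (c : ℚ̄) (y : F') (k : ℤ),
      ((algebraMap ℚ̄ F' c * y : F') : LaurentSeries ℚ̄).coeff k =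
        c * (y : LaurentSeries ℚ̄).coeff k := by
    intro c y k
    show (algebraMap ℚ̄ (LaurentSeries ℚ̄) c * (y : LaurentSeries ℚ̄)).coeff k = _
    rw [algebraMap_laurentSeries_eq_single, HahnSeries.coeff_single_zero_mul]
  have hg1 : (g : LaurentSeries ℚ̄).coeff d = 1 := by rw [hg, hcoeff, inv_mul_cancel₀ ha0]
  refine ⟨⟨g, fun σ hσ => ?_⟩, fun h => hg0 (congrArg Subtype.val h), hord⟩
  have hsg : arithmeticGalois F₀ σ • g ≠ 0 := (smul_ne_zero_iff_ne _).2 hg0
  have hratio : ∀ P : Place ℚ̄ F', 0 ≤ P.ord (arithmeticGalois F₀ σ • g / g) := by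
    intro P
    have h1 := SemilinearAut.ord_smul (arithmeticGalois F₀ σ)
      ((arithmeticGalois F₀ σ)⁻¹ • P) g
    rw [smul_inv_smul] at h1
    rw [FF.ord_div _ hsg hg0, h1, ← hord, ← hord, ← SemilinearAut.divisor_smul_apply, hfix σ hσ,
      sub_self]
  obtain ⟨c, hc⟩ := FF.mem_range_of_forall_ord_nonneg hratio
  have heq : arithmeticGalois F₀ σ • g = algebraMap ℚ̄ F' c * g := by
    rw [hc, div_mul_cancel₀ _ hg0]
  have h2 := congrArg (fun y : F' => (y : LaurentSeries ℚ̄).coeff d) heq
  simp only [coe_galois_smul, hcoeff, hg1, map_one, mul_one] at h2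
  rw [heq, ← h2, map_one, one_mul]

/-- Integral elements of the fixed field are constants. -/
theorem mem_range_of_isIntegral_fixedF {x : fixedF F₀ I} (hx : IsIntegral (fixedK I) x) :
    x ∈ (algebraMap (fixedK I) (fixedF F₀ I)).range := by
  have h1 : IsIntegral ℚ̄ (x : F') := by
    have := hx.map (fixedF F₀ I).val
    exact this.tower_top
  have h2 : ¬ Transcendental ℚ̄ (x : F') := fun h => h h1.isAlgebraic
  obtain ⟨c, hc⟩ := FF.mem_range_of_not_transcendental h2
  have hcI : c ∈ fixedK I := by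
    rw [mem_fixedK]
    intro σ hσ
    have h3 := mem_fixedF.1 x.2 σ hσ
    rw [← hc, galois_smul_algebraMap] at h3
    exact (algebraMap ℚ̄ F').injective h3
  exact ⟨⟨c, hcI⟩, Subtype.ext hc⟩

/-- Counting fixed torsion classes by Kummer functions over the fixed field. -/
theorem card_fixed_le_of_kummer {p c m C : ℕ} (hp : p ≠ 0)
    (H : ∀ S : Finset (fixedF F₀ I), (∀ f ∈ S, IsKummer (fixedK I) (p ^ (c + m)) f) →
      (∀ f ∈ S, ∀ f' ∈ S, f ≠ f' → ¬ ∃ (a : fixedK I) (g : fixedF F₀ I),
        f = f' * algebraMap (fixedK I) (fixedF F₀ I) a * g ^ (p ^ m)) → S.card ≤ C) :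
    ∃ T : Finset (Pic0 ℚ̄ F'), T.card ≤ C ∧ ∀ y : Pic0 ℚ̄ F', p ^ (c + m) • y = 0 →
      (∀ σ ∈ I, arithmeticGalois F₀ σ • y = y) → p ^ c • y ∈ T := by
  classical
  set Z : Set (Pic0 ℚ̄ F') := {x | ∃ y, p ^ (c + m) • y = 0 ∧
    (∀ σ ∈ I, arithmeticGalois F₀ σ • y = y) ∧ x = p ^ c • y} with hZ
  have key : ∀ T : Finset (Pic0 ℚ̄ F'), ↑T ⊆ Z → T.card ≤ C := by
    intro T hT
    have hrep : ∀ x : T, ∃ (D : Divisor.degZero (K := ℚ̄) (F := F')) (f : fixedF F₀ I),
        (x : Pic0 ℚ̄ F') = p ^ c • Pic0.mk D ∧ f ≠ 0 ∧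
          ∀ P : Place ℚ̄ F', ((p ^ (c + m) : ℕ) : ℤ) * (D : Divisor ℚ̄ F') P =
            P.ord (f : F') := by
      intro x
      obtain ⟨y, hy, hyI, hxy⟩ := hT x.2
      obtain ⟨D, rfl, hD⟩ := exists_fixed_divisor hyI
      have hpr : p ^ (c + m) • (D : Divisor ℚ̄ F') ∈ Divisor.principal (K := ℚ̄) (F := F') := by
        have h1 : Pic0.mk (p ^ (c + m) • D) = 0 := by rw [← hy]; rfl
        have h2 := (QuotientAddGroup.eq_zero_iff _).1 h1
        rwa [AddSubgroup.mem_addSubgroupOf] at h2
      obtain ⟨f, hf, hord⟩ := exists_fixed_fun hpr fun σ hσ => by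
        rw [smul_comm, hD σ hσ]
      refine ⟨D, f, hxy, hf, fun P => ?_⟩
      rw [← hord P, Finsupp.smul_apply, nsmul_eq_mul]
    choose D f hxD hf0 hfD using hrep
    have hdist : ∀ x x' : T, x ≠ x' → ¬ ∃ (a : fixedK I) (g : fixedF F₀ I),
        f x = f x' * algebraMap (fixedK I) (fixedF F₀ I) a * g ^ (p ^ m) := by
      rintro x x' hne ⟨a, g, hg⟩
      refine hne (Subtype.ext ?_)
      have ha : algebraMap (fixedK I) (fixedF F₀ I) a ≠ 0 := fun h => hf0 x (by
        rw [hg, h, mul_zero, zero_mul])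
      have hg0 : g ≠ 0 := fun h => hf0 x (by rw [hg, h, zero_pow (pow_ne_zero m hp), mul_zero])
      have key2 : ∀ P : Place ℚ̄ F', (p ^ c : ℕ) * ((D x : Divisor ℚ̄ F') P) -
          (p ^ c : ℕ) * ((D x' : Divisor ℚ̄ F') P) = P.ord (g : F') := by
        intro P
        have h1 := congrArg (fun y : fixedF F₀ I => P.ord (y : F')) hg
        simp only [IntermediateField.coe_mul, IntermediateField.coe_pow] at h1
        have ha' : ((algebraMap (fixedK I) (fixedF F₀ I) a : fixedF F₀ I) : F') ≠ 0 :=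
          fun h => ha (Subtype.ext h)
        have hf' : ((f x' : fixedF F₀ I) : F') ≠ 0 := fun h => hf0 x' (Subtype.ext h)
        have hg' : (g : F') ≠ 0 := fun h => hg0 (Subtype.ext h)
        rw [Place.ord_mul _ (mul_ne_zero hf' ha') (pow_ne_zero _ hg'),
          Place.ord_mul _ hf' ha', FF.ord_pow,
          show ((algebraMap (fixedK I) (fixedF F₀ I) a : fixedF F₀ I) : F') =
            algebraMap ℚ̄ F' (a : ℚ̄) from rfl, FF.ord_algebraMap, add_zero, ← hfD, ← hfD] at h1
        push_cast [pow_add] at h1 ⊢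
        have hp' : ((p : ℤ) ^ m) ≠ 0 := pow_ne_zero _ (by exact_mod_cast hp)
        apply mul_left_cancel₀ hp'
        linear_combination h1
      rw [hxD x, hxD x']
      refine sub_eq_zero.1 ?_
      show ((p ^ c • D x - p ^ c • D x' : Divisor.degZero (K := ℚ̄) (F := F')) :
        Pic0 ℚ̄ F') = 0
      refine (QuotientAddGroup.eq_zero_iff _).2 ?_
      rw [AddSubgroup.mem_addSubgroupOf]
      refine ⟨(g : F'), fun h => hg0 (Subtype.ext h), fun P => ?_⟩
      simp only [AddSubgroupClass.coe_sub, AddSubgroupClass.coe_nsmul, Finsupp.sub_apply,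
        Finsupp.smul_apply, nsmul_eq_mul]
      exact key2 P
    have hinj : Function.Injective f := fun x x' h => by
      by_contra hne
      exact hdist x x' hne ⟨1, 1, by rw [h]; simp⟩
    have := H (Finset.univ.image f) (fun u hu => ?_) (fun u hu u' hu' hne => ?_)
    · rwa [Finset.card_image_of_injective _ hinj, Finset.card_univ, Fintype.card_coe] at this
    · obtain ⟨x, -, rfl⟩ := Finset.mem_image.1 hu
      refine ⟨hf0 x, fun v => ?_⟩
      obtain ⟨P, hP⟩ := exists_place_above v
      rw [← hP, ← hfD]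
      exact dvd_mul_right _ _
    · obtain ⟨x, -, rfl⟩ := Finset.mem_image.1 hu
      obtain ⟨x', -, rfl⟩ := Finset.mem_image.1 hu'
      exact hdist x x' fun h => hne (h ▸ rfl)
  have hfin : Z.Finite := by
    by_contra hinf
    obtain ⟨T, hT, hc⟩ := Set.Infinite.exists_subset_card_eq hinf (C + 1)
    have := key T hT
    omega
  exact ⟨hfin.toFinset, key _ hfin.coe_toFinset.subset, fun y h1 h2 =>
    hfin.mem_toFinset.2 ⟨y, h1, h2, rfl⟩⟩

end FLTAgent.TwoChart
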