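import Fermat.Agent.TwoChart.Roots

/-!
# Two-chart models: charts, root modules and smallness

Basic objects for a function field `F` over a base ring `W` with a coordinate `t`.
`intCl W s` is the integral closure of `W[s]` in `F`, so the charts are `intCl W {t}`,
`intCl W {t⁻¹}` and their overlap `intCl W {t, t⁻¹}`; `exists_pow_mul_mem` says that the overlap
is the localisation of a chart at its coordinate. `rootModule W n f s` is the module of functions
`g` with `g ^ n / f` in the chart, and `Small W π s r` says that `r` lies in the radical of the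
uniformiser `π` in the chart.
-/

set_option autoImplicit false

namespace FLTAgent.TwoChart

variable (W : Type*) [CommRing W] {F : Type*} [Field F] [Algebra W F]

/-- The integral closure of `W[s]` in `F`. -/
def intCl (s : Set F) : Subalgebra W F :=
  (integralClosure (Algebra.adjoin W s) F).restrictScalars W

variable {W}

theorem mem_intCl_iff {s : Set F} {x : F} :
    x ∈ intCl W s ↔ IsIntegral (Algebra.adjoin W s) x := Iff.rfl

theorem adjoin_le_intCl (s : Set F) : Algebra.adjoin W s ≤ intCl W s := fun x hx =>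
  isIntegral_algebraMap (x := (⟨x, hx⟩ : Algebra.adjoin W s))

theorem subset_intCl (s : Set F) : s ⊆ intCl W s := fun _ hx =>
  adjoin_le_intCl s (Algebra.subset_adjoin hx)

theorem mem_intCl_of_pow_mem {s : Set F} {x : F} {n : ℕ} (hn : 0 < n)
    (h : x ^ n ∈ intCl W s) : x ∈ intCl W s :=
  IsIntegral.of_pow hn h

/-- Integrality over `intCl W s` is no weaker. -/
theorem mem_intCl_of_isIntegral {s : Set F} {x : F}
    (h : IsIntegral (integralClosure (Algebra.adjoin W s) F) x) : x ∈ intCl W s :=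
  isIntegral_trans x h

theorem intCl_mono {s s' : Set F} (h : s ⊆ intCl W s') : intCl W s ≤ intCl W s' := by
  intro x hx
  have hle : Algebra.adjoin W s ≤ intCl W s' := Algebra.adjoin_le h
  obtain ⟨p, hp, hp0⟩ := hx
  refine mem_intCl_of_isIntegral ⟨p.map (Subalgebra.inclusion hle).toRingHom, hp.map _, ?_⟩
  rw [Polynomial.eval₂_map]
  exact hp0

/-- `intCl W {t, t⁻¹}` is the localisation of `intCl W {t}` at `t`. -/
theorem exists_pow_mul_mem {t : F} (ht : t ≠ 0) {x : F} (hx : x ∈ intCl W {t, t⁻¹}) :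
    ∃ m : ℕ, t ^ m * x ∈ intCl W {t} := by
  have htC : t ∈ intCl W {t} := subset_intCl _ (Set.mem_singleton t)
  -- every element of `W[t, t⁻¹]` becomes integral after multiplying by a power of `t`
  have hden : ∀ c ∈ Algebra.adjoin W ({t, t⁻¹} : Set F), ∃ m : ℕ, ∀ k, m ≤ k →
      t ^ k * c ∈ intCl W {t} := by
    intro c hc
    induction hc using Algebra.adjoin_induction with
    | mem y hy =>
      rcases hy with rfl | rfl
      · exact ⟨0, fun k _ => mul_mem (pow_mem htC k) htC⟩
      · refine ⟨1, fun k hk => ?_⟩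
        obtain ⟨j, rfl⟩ : ∃ j, k = j + 1 := ⟨k - 1, by omega⟩
        rw [pow_succ, mul_assoc, mul_inv_cancel₀ ht, mul_one]
        exact pow_mem htC j
    | algebraMap r => exact ⟨0, fun k _ => mul_mem (pow_mem htC k) (Subalgebra.algebraMap_mem _ r)⟩
    | add y z _ _ hy hz =>
      obtain ⟨a, ha⟩ := hy
      obtain ⟨b, hb⟩ := hz
      refine ⟨max a b, fun k hk => ?_⟩
      rw [mul_add]
      exact add_mem (ha k (le_of_max_le_left hk)) (hb k (le_of_max_le_right hk))
    | mul y z _ _ hy hz =>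
      obtain ⟨a, ha⟩ := hy
      obtain ⟨b, hb⟩ := hz
      refine ⟨a + b, fun k hk => ?_⟩
      obtain ⟨j, rfl⟩ : ∃ j, k = (a + j) + b := ⟨k - a - b, by omega⟩
      rw [pow_add, show t ^ (a + j) * t ^ b * (y * z) = (t ^ (a + j) * y) * (t ^ b * z) by ring]
      exact mul_mem (ha _ (by omega)) (hb b le_rfl)
  obtain ⟨p, hp, hpx⟩ := hx
  choose e he using fun i => hden (p.coeff i : F) (p.coeff i).2
  refine ⟨(Finset.range (p.natDegree + 1)).sup e, ?_⟩
  set M := (Finset.range (p.natDegree + 1)).sup e with hM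
  set q := p.map (algebraMap (Algebra.adjoin W ({t, t⁻¹} : Set F)) F) with hq
  have hqm : q.Monic := hp.map _
  have hqd : q.natDegree = p.natDegree := hp.natDegree_map _
  have hroot : (q.scaleRoots (t ^ M)).eval (t ^ M * x) = 0 := by
    have := Polynomial.scaleRoots_eval₂_eq_zero (p := q) (RingHom.id F) (r := x) (s := t ^ M)
      (by rw [Polynomial.eval₂_id, hq, Polynomial.eval_map]; exact hpx)
    simpa using this
  have hlift : q.scaleRoots (t ^ M) ∈
      Polynomial.lifts (algebraMap (integralClosure (Algebra.adjoin W ({t} : Set F)) F) F) := by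
    rw [Polynomial.lifts_iff_coeff_lifts]
    intro i
    suffices h : (q.scaleRoots (t ^ M)).coeff i ∈ intCl W {t} from ⟨⟨_, h⟩, rfl⟩
    rw [Polynomial.coeff_scaleRoots]
    rcases lt_trichotomy i q.natDegree with hi | hi | hi
    · obtain ⟨j, hj⟩ : ∃ j, q.natDegree - i = j + 1 := ⟨q.natDegree - i - 1, by omega⟩
      rw [hj, hq, Polynomial.coeff_map, ← pow_mul, mul_comm]
      refine he i _ ((Finset.le_sup (f := e)
        (show i ∈ Finset.range (p.natDegree + 1) from Finset.mem_range.2 (by omega))).trans ?_)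
      exact Nat.le_mul_of_pos_right M (Nat.succ_pos j)
    · subst hi
      simp [hqm.coeff_natDegree]
    · simp [Polynomial.coeff_eq_zero_of_natDegree_lt hi]
  obtain ⟨r, hr, -, hrm⟩ := Polynomial.lifts_and_degree_eq_and_monic hlift
    ((Polynomial.monic_scaleRoots_iff _).2 hqm)
  refine mem_intCl_of_isIntegral ⟨r, hrm, ?_⟩
  rw [← Polynomial.eval_map, hr]
  exact hroot

theorem intCl_le_pair_left (t : F) : intCl W {t} ≤ intCl W {t, t⁻¹} :=
  intCl_mono (fun _ hx => subset_intCl _ (hx ▸ Set.mem_insert t {t⁻¹}))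

theorem intCl_le_pair_right (t : F) : intCl W {t⁻¹} ≤ intCl W {t, t⁻¹} :=
  intCl_mono (fun _ hx => subset_intCl _ (hx ▸ Or.inr rfl))

variable (W) in
/-- Sections over a chart of the line bundle whose `n`-th power is trivialised by `f`. -/
def rootModule (n : ℕ) [NeZero n] (f : F) (s : Set F) : Submodule W F where
  carrier := {g | g ^ n * f⁻¹ ∈ intCl W s}
  zero_mem' := by simp [zero_pow (NeZero.ne n)]
  add_mem' := by
    intro g h hg hh
    simp only [Set.mem_ofPred_eq] at hg hh ⊢
    rw [add_pow, Finset.sum_mul]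
    refine sum_mem fun i hi => ?_
    have hin : i ≤ n := Nat.lt_succ_iff.1 (Finset.mem_range.1 hi)
    have hterm : g ^ i * h ^ (n - i) * f⁻¹ ∈ intCl W s := by
      refine mem_intCl_of_pow_mem (Nat.pos_of_ne_zero (NeZero.ne n)) ?_
      have : (g ^ i * h ^ (n - i) * f⁻¹) ^ n = (g ^ n * f⁻¹) ^ i * (h ^ n * f⁻¹) ^ (n - i) := by
        simp only [mul_pow, ← pow_mul, mul_comm i n, mul_comm (n - i) n]
        rw [show (f⁻¹) ^ n = f⁻¹ ^ i * f⁻¹ ^ (n - i) by rw [← pow_add, Nat.add_sub_cancel' hin]]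
        ring
      rw [this]
      exact mul_mem (pow_mem hg _) (pow_mem hh _)
    have : g ^ i * h ^ (n - i) * (n.choose i : F) * f⁻¹ =
        (g ^ i * h ^ (n - i) * f⁻¹) * (n.choose i : F) := by ring
    rw [this]
    exact mul_mem hterm (natCast_mem _ _)
  smul_mem' := by
    intro c g hg
    simp only [Set.mem_ofPred_eq] at hg ⊢
    rw [Algebra.smul_def, mul_pow, mul_assoc]
    exact mul_mem (pow_mem (Subalgebra.algebraMap_mem _ c) n) hg

theorem mem_rootModule {n : ℕ} [NeZero n] {f : F} {s : Set F} {g : F} :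
    g ∈ rootModule W n f s ↔ g ^ n * f⁻¹ ∈ intCl W s := Iff.rfl

theorem rootModule_mono {n : ℕ} [NeZero n] (f : F) {s s' : Set F}
    (h : intCl W s ≤ intCl W s') : rootModule W n f s ≤ rootModule W n f s' := fun _ hg => h hg

theorem mul_mem_rootModule {n : ℕ} [NeZero n] {f : F} {s : Set F} {r g : F}
    (hr : r ∈ intCl W s) (hg : g ∈ rootModule W n f s) : r * g ∈ rootModule W n f s := by
  rw [mem_rootModule, mul_pow, mul_assoc]
  exact mul_mem (pow_mem hr n) hg

theorem mul_mem_intCl_of_mem_rootModule {n : ℕ} [NeZero n] {f : F} {s : Set F} {g₁ g₂ : F}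
    (h₁ : g₁ ∈ rootModule W n f s) (h₂ : g₂ ∈ rootModule W n f s) :
    g₁ * g₂ ^ (n - 1) * f⁻¹ ∈ intCl W s := by
  refine mem_intCl_of_pow_mem (Nat.pos_of_ne_zero (NeZero.ne n)) ?_
  have hn : n = 1 + (n - 1) := by have := NeZero.ne n; omega
  have : (g₁ * g₂ ^ (n - 1) * f⁻¹) ^ n = (g₁ ^ n * f⁻¹) * (g₂ ^ n * f⁻¹) ^ (n - 1) := by
    simp only [mul_pow, ← pow_mul, mul_comm (n - 1) n]
    rw [show (f⁻¹) ^ n = f⁻¹ * f⁻¹ ^ (n - 1) by rw [← pow_succ', ← Nat.eq_add_of_sub_eq (by omega) rfl]]
    ring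
  rw [this]
  exact mul_mem (mem_rootModule.1 h₁) (pow_mem (mem_rootModule.1 h₂) _)

variable (W) in
/-- `r` lies in the radical of `π` in the chart of `s`. -/
def Small (π : W) (s : Set F) (r : F) : Prop :=
  ∃ m : ℕ, ∃ b ∈ intCl W s, r ^ m = algebraMap W F π * b

theorem Small.mono {π : W} {s s' : Set F} (h : intCl W s ≤ intCl W s') {r : F}
    (hr : Small W π s r) : Small W π s' r :=
  let ⟨m, b, hb, hm⟩ := hr
  ⟨m, b, h hb, hm⟩

end FLTAgent.TwoChart
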