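import Fermat.Agent.FF.PlacesMain
import Fermat.Agent.BadQ.Defs

/-!
# Affine coordinate rings of function fields are Dedekind domains

For a function field `E / k` and `x : E`, the ring `BadQ.intCl x` (integral closure of `k[x]`)
consists of the functions regular at all places where `x` is regular
(`mem_curveRing_of_forall_place`). Bounding codimensions by orders at places gives
`finite_quotient_span`, whence `isDedekindDomain_curveRing`. No separability is assumed.
-/

set_option autoImplicit false
set_option linter.unusedSectionVars false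
set_option linter.style.haveILetI false

noncomputable section

open AlgebraicCurve

namespace FLTAgent.TwoChart

variable {k E : Type*} [Field k] [IsAlgClosed k] [Field E] [Algebra k E] [FF.IsFF k E] (x : E)

/-- Elements of the coordinate ring are regular wherever `x` is. -/
theorem place_mem_of_mem_curveRing {v : Place k E} (hv : 0 ≤ v.ord x) {c : E}
    (hc : c ∈ BadQ.intCl (k := k) x) : c ∈ v.toValuationSubring := by
  have hadj : ∀ y ∈ Algebra.adjoin k ({x} : Set E), y ∈ v.toValuationSubring := by
    intro y hy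
    induction hy using Algebra.adjoin_induction with
    | mem y hy => exact (FF.mem_iff v y).2 (Or.inr (by rw [Set.mem_singleton_iff.1 hy]; exact hv))
    | algebraMap r => exact v.algebraMap_mem' r
    | add a b _ _ ha hb => exact add_mem ha hb
    | mul a b _ _ ha hb => exact mul_mem ha hb
  obtain ⟨p, hp, hpc⟩ := hc
  let φ : Algebra.adjoin k ({x} : Set E) →+* v.toValuationSubring :=
    (Algebra.adjoin k ({x} : Set E)).val.toRingHom.codRestrict v.toValuationSubring.toSubring
      fun y => hadj y y.2
  have hint : IsIntegral v.toValuationSubring c := ⟨p.map φ, hp.map φ, by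
    rw [Polynomial.eval₂_map]; exact hpc⟩
  obtain ⟨y, hy⟩ := (IsIntegrallyClosed.isIntegral_iff (R := v.toValuationSubring) (K := E)).1 hint
  exact hy ▸ y.2

/-- A function regular wherever `x` is lies in the coordinate ring. -/
theorem mem_curveRing_of_forall_place {f : E}
    (h : ∀ v : Place k E, 0 ≤ v.ord x → f ∈ v.toValuationSubring) :
    f ∈ BadQ.intCl (k := k) x := by
  have hs := iInf_valuationSubring_superset
    (K := E) (s := (Algebra.adjoin k ({x} : Set E) : Set E))
  have hmem : f ∈ ⨅ V : {V : ValuationSubring E //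
      (Algebra.adjoin k ({x} : Set E) : Set E) ⊆ V.toSubring}, V.1.toSubring := by
    rw [Subring.mem_iInf]
    rintro ⟨V, hV⟩
    rcases eq_or_ne V ⊤ with rfl | hne
    · exact ValuationSubring.mem_top f
    obtain ⟨v, rfl⟩ := FF.exists_place_eq V
      (fun a => hV (Subalgebra.algebraMap_mem _ a)) hne
    exact h v (FF.ord_nonneg_of_mem_placeRing v (hV (Algebra.self_mem_adjoin_singleton k x)))
  rw [hs] at hmem
  have hle : Subring.closure (Algebra.adjoin k ({x} : Set E) : Set E) ≤
      (Algebra.adjoin k ({x} : Set E)).toSubring := Subring.closure_le.2 le_rfl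
  obtain ⟨p, hp, hpf⟩ := (hmem : IsIntegral (Subring.closure
    (Algebra.adjoin k ({x} : Set E) : Set E)) f)
  refine ⟨p.map (Subring.inclusion hle), hp.map _, ?_⟩
  rw [Polynomial.eval₂_map]
  exact hpf

local notation "C" => BadQ.intCl (k := k) x

/-- Elements of the coordinate ring vanishing to order `n` at a place. -/
def ordGe (v : Place k E) (n : ℕ) (hv : 0 ≤ v.ord x) : Submodule k C where
  carrier := {c | (c : E) = 0 ∨ (n : ℤ) ≤ v.ord (c : E)}
  zero_mem' := Or.inl rfl
  add_mem' {a b} ha hb := by
    show (a : E) + b = 0 ∨ (n : ℤ) ≤ v.ord ((a : E) + b)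
    rcases eq_or_ne ((a : E) + b) 0 with h | h
    · exact Or.inl h
    rcases eq_or_ne (a : E) 0 with ha0 | ha0
    · rw [ha0, zero_add]
      exact hb
    rcases eq_or_ne (b : E) 0 with hb0 | hb0
    · rw [hb0, add_zero]
      exact ha
    refine Or.inr (le_trans ?_ (FF.ord_add_ge v ha0 hb0 h))
    exact le_min (ha.resolve_left ha0) (hb.resolve_left hb0)
  smul_mem' r a ha := by
    show ((r • a : C) : E) = 0 ∨ (n : ℤ) ≤ v.ord ((r • a : C) : E)
    rw [SetLike.val_smul, Algebra.smul_def]
    rcases eq_or_ne (algebraMap k E r * (a : E)) 0 with h | h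
    · exact Or.inl h
    refine Or.inr ?_
    rw [Place.ord_mul _ (left_ne_zero_of_mul h) (right_ne_zero_of_mul h), FF.ord_algebraMap,
      zero_add]
    exact ha.resolve_left (right_ne_zero_of_mul h)

theorem mem_ordGe {v : Place k E} {n : ℕ} {hv : 0 ≤ v.ord x} {c : C} :
    c ∈ ordGe x v n hv ↔ ((c : E) = 0 ∨ (n : ℤ) ≤ v.ord (c : E)) := Iff.rfl

/-- Vanishing to a given order at a place has finite codimension. -/
theorem exists_fg_sup_ordGe (v : Place k E) (hv : 0 ≤ v.ord x) (n : ℕ) :
    ∃ S : Submodule k C, S.FG ∧ S ⊔ ordGe x v n hv = ⊤ := by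
  classical
  induction n with
  | zero =>
    refine ⟨⊥, Submodule.fg_bot, eq_top_iff.2 fun c _ => ?_⟩
    rw [bot_sup_eq, mem_ordGe]
    exact Or.inr (by simpa using FF.ord_nonneg_of_mem_placeRing v (place_mem_of_mem_curveRing x hv c.2))
  | succ n ih =>
    obtain ⟨S, hS, hST⟩ := ih
    by_cases hex : ∃ c₀ : C, (c₀ : E) ≠ 0 ∧ v.ord (c₀ : E) = n
    · obtain ⟨c₀, hc₀, hord⟩ := hex
      refine ⟨S ⊔ Submodule.span k {c₀}, hS.sup (Submodule.fg_span_singleton c₀),
        eq_top_iff.2 (hST ▸ sup_le (le_sup_left.trans le_sup_left) fun c hc => ?_)⟩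
      rcases (mem_ordGe x).1 hc with h0 | hge
      · exact Submodule.mem_sup_right ((mem_ordGe x).2 (Or.inl h0))
      rcases eq_or_ne (c : E) 0 with h0 | h0
      · exact Submodule.mem_sup_right ((mem_ordGe x).2 (Or.inl h0))
      obtain ⟨l, hl⟩ := FF.exists_residue v (f := (c : E) / (c₀ : E))
        ((FF.mem_iff v _).2 (Or.inr (by rw [FF.ord_div v h0 hc₀]; omega)))
      have hrest : c - l • c₀ ∈ ordGe x v (n + 1) hv := by
        rw [mem_ordGe, AddSubgroupClass.coe_sub, SetLike.val_smul, Algebra.smul_def]
        rcases hl with hl | hl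
        · left
          rw [← hl, div_mul_cancel₀ _ hc₀, sub_self]
        · rcases eq_or_ne ((c : E) - algebraMap k E l * (c₀ : E)) 0 with hz | hz
          · exact Or.inl hz
          right
          have he : (c : E) - algebraMap k E l * (c₀ : E) =
              ((c : E) / (c₀ : E) - algebraMap k E l) * (c₀ : E) := by
            rw [sub_mul, div_mul_cancel₀ _ hc₀]
          rw [he] at hz ⊢
          rw [Place.ord_mul _ (left_ne_zero_of_mul hz) hc₀, hord]
          push_cast
          omega
      have : l • c₀ + (c - l • c₀) ∈ S ⊔ Submodule.span k {c₀} ⊔ ordGe x v (n + 1) hv :=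
        add_mem (Submodule.mem_sup_left (Submodule.mem_sup_right
          (Submodule.smul_mem _ l (Submodule.mem_span_singleton_self c₀))))
          (Submodule.mem_sup_right hrest)
      rwa [add_sub_cancel] at this
    · refine ⟨S, hS, eq_top_iff.2 (hST ▸ sup_le le_sup_left fun c hc => ?_)⟩
      refine Submodule.mem_sup_right ((mem_ordGe x).2 ?_)
      rcases (mem_ordGe x).1 hc with h0 | hge
      · exact Or.inl h0
      rcases eq_or_ne (c : E) 0 with h0 | h0
      · exact Or.inl h0
      right
      have hne : v.ord (c : E) ≠ n := fun h => hex ⟨c, h0, h⟩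
      push_cast
      omega

/-- Quotients by nonzero principal ideals are finite dimensional. -/
theorem finite_quotient_span {a : C} (ha : a ≠ 0) :
    Module.Finite k (C ⧸ (Ideal.span {a}).restrictScalars k) := by
  classical
  have ha' : (a : E) ≠ 0 := fun h => ha (Subtype.ext h)
  let s : Finset (Place k E) := (FF.finite_ord_ne_zero (K := k) (a : E)).toFinset.filter
    fun v => 0 ≤ v.ord x
  have hs : ∀ v : s, 0 ≤ (v : Place k E).ord x := fun v => (Finset.mem_filter.1 v.2).2
  let V : s → Submodule k C := fun v =>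
    ordGe x (v : Place k E) ((v : Place k E).ord (a : E)).toNat (hs v)
  have hfin : ∀ v : s, Module.Finite k (C ⧸ V v) := by
    intro v
    obtain ⟨S, hS, hT⟩ := exists_fg_sup_ordGe x (v : Place k E) (hs v)
      ((v : Place k E).ord (a : E)).toNat
    refine Module.finite_def.2 ?_
    have h1 := hS.map (V v).mkQ
    have h2 : S.map (V v).mkQ = ⊤ := by
      rw [eq_top_iff]
      rintro y -
      obtain ⟨c, rfl⟩ := (V v).mkQ_surjective y
      obtain ⟨c₁, hc₁, c₂, hc₂, rfl⟩ := Submodule.mem_sup.1 (hT ▸ Submodule.mem_top : c ∈ S ⊔ V v)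
      exact ⟨c₁, hc₁, by simp [(Submodule.Quotient.mk_eq_zero (V v)).2 hc₂]⟩
    rwa [h2] at h1
  have hker : (⨅ v, V v) ≤ (Ideal.span {a}).restrictScalars k := by
    intro c hc
    rw [Submodule.restrictScalars_mem, Ideal.mem_span_singleton']
    refine ⟨⟨(c : E) / (a : E), mem_curveRing_of_forall_place x fun v hv => ?_⟩,
      Subtype.ext (div_mul_cancel₀ _ ha')⟩
    rcases eq_or_ne (c : E) 0 with h0 | h0
    · rw [h0, zero_div]; exact zero_mem _
    refine (FF.mem_iff v _).2 (Or.inr ?_)
    rw [FF.ord_div v h0 ha']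
    have hcn := FF.ord_nonneg_of_mem_placeRing v (place_mem_of_mem_curveRing x hv c.2)
    by_cases hv0 : v.ord (a : E) = 0
    · omega
    have hvs : v ∈ s := Finset.mem_filter.2 ⟨(Set.Finite.mem_toFinset _).2 hv0, hv⟩
    have := ((mem_ordGe x).1 ((Submodule.mem_iInf _).1 hc ⟨v, hvs⟩)).resolve_left h0
    simp only [Int.toNat_of_nonneg
      (FF.ord_nonneg_of_mem_placeRing v (place_mem_of_mem_curveRing x hv a.2))] at this
    omega
  let π : C →ₗ[k] (∀ v, C ⧸ V v) := LinearMap.pi fun v => (V v).mkQ
  haveI : Module.Finite k (C ⧸ LinearMap.ker π) :=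
    Module.Finite.equiv π.quotKerEquivRange.symm
  refine Module.Finite.of_surjective (Submodule.mapQ (LinearMap.ker π) _ LinearMap.id ?_) ?_
  · intro c hc
    refine hker ((Submodule.mem_iInf _).2 fun v => ?_)
    have := congrFun (LinearMap.mem_ker.1 hc) v
    simpa [π] using this
  · intro y
    obtain ⟨c, rfl⟩ := Submodule.Quotient.mk_surjective _ y
    exact ⟨Submodule.Quotient.mk c, rfl⟩

/-- The affine coordinate ring is a Dedekind domain. -/
theorem isDedekindDomain_curveRing [IsFractionRing C E] : IsDedekindDomain C := by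
  haveI : IsNoetherianRing C := by
    refine isNoetherianRing_iff_ideal_fg _ |>.2 fun I => ?_
    by_cases hI : I = ⊥
    · exact hI ▸ Submodule.fg_bot
    obtain ⟨a, haI, ha⟩ := Submodule.exists_mem_ne_zero_of_ne_bot hI
    haveI := finite_quotient_span x ha
    have hle : Ideal.span {a} ≤ I := (Ideal.span_singleton_le_iff_mem I).2 haI
    obtain ⟨T, hT⟩ := (inferInstance : IsNoetherian k (C ⧸ (Ideal.span {a}).restrictScalars k)).noetherian
      ((I.restrictScalars k).map ((Ideal.span {a}).restrictScalars k).mkQ)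
    classical
    have hlift : ∀ t ∈ T, ∃ c ∈ I, ((Ideal.span {a}).restrictScalars k).mkQ c = t := fun t ht => by
      have := hT ▸ Submodule.subset_span (R := k) (Finset.mem_coe.2 ht)
      exact Submodule.mem_map.1 this
    choose g hg hgt using hlift
    let G : Finset C := insert a (T.attach.image fun t : {t // t ∈ T} => g t.1 t.2)
    have haG : a ∈ G := Finset.mem_insert_self _ _
    have hGI : ∀ c ∈ G, c ∈ I := by
      intro c hc
      rcases Finset.mem_insert.1 hc with rfl | hc
      · exact haI
      · obtain ⟨t, -, rfl⟩ := Finset.mem_image.1 hc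
        exact hg _ _
    refine ⟨G, le_antisymm (Submodule.span_le.2 fun c hc => hGI c hc) fun c hc => ?_⟩
    set J : Ideal C := Submodule.span C (G : Set C) with hJ
    have haJ : a ∈ J := Submodule.subset_span haG
    have h1 : ((Ideal.span {a}).restrictScalars k).mkQ c ∈
        (J.restrictScalars k).map ((Ideal.span {a}).restrictScalars k).mkQ := by
      have h2 : ((Ideal.span {a}).restrictScalars k).mkQ c ∈ Submodule.span k (T : Set _) :=
        hT ▸ Submodule.mem_map_of_mem (f := ((Ideal.span {a}).restrictScalars k).mkQ) hc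
      refine Submodule.span_le.2 ?_ h2
      intro t ht
      exact Submodule.mem_map.2 ⟨g t ht, Submodule.subset_span (Finset.mem_insert_of_mem
        (Finset.mem_image.2 ⟨(⟨t, ht⟩ : {t // t ∈ T}), Finset.mem_attach _ _, rfl⟩)), hgt t ht⟩
    obtain ⟨d, hd, hdc⟩ := Submodule.mem_map.1 h1
    rw [Submodule.mkQ_apply, Submodule.mkQ_apply, Submodule.Quotient.eq] at hdc
    have h3 : d - c ∈ J := (Ideal.span_singleton_le_iff_mem J).2 haJ hdc
    simpa using J.sub_mem hd h3
  haveI : Ring.DimensionLEOne C := ⟨fun {P} hP hPp => by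
    obtain ⟨a, haP, ha⟩ := Submodule.exists_mem_ne_zero_of_ne_bot hP
    haveI := finite_quotient_span x ha
    haveI : Module.Finite k (C ⧸ P) := by
      refine Module.Finite.of_surjective (Submodule.mapQ ((Ideal.span {a}).restrictScalars k)
        (P.restrictScalars k) LinearMap.id ((Ideal.span_singleton_le_iff_mem P).2 haP)) ?_
      intro y
      obtain ⟨c, rfl⟩ := Ideal.Quotient.mk_surjective y
      exact ⟨Submodule.Quotient.mk c, rfl⟩
    haveI := hPp
    exact Ideal.Quotient.maximal_of_isField P (isField_of_isIntegral_of_isField' (R := k) (Field.toIsField k))⟩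
  haveI : IsIntegrallyClosed C := by
    refine (isIntegrallyClosed_iff E).2 fun {y} hy => ?_
    refine ⟨⟨y, mem_curveRing_of_forall_place x fun v hv => ?_⟩, rfl⟩
    obtain ⟨p, hp, hpy⟩ := hy
    let φ : C →+* v.toValuationSubring :=
      (BadQ.intCl (k := k) x).val.toRingHom.codRestrict v.toValuationSubring.toSubring
        fun c => place_mem_of_mem_curveRing x hv c.2
    have hint : IsIntegral v.toValuationSubring y := ⟨p.map φ, hp.map φ, by
      rw [Polynomial.eval₂_map]; exact hpy⟩
    obtain ⟨z, hz⟩ := (IsIntegrallyClosed.isIntegral_iff (R := v.toValuationSubring) (K := E)).1 hint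
    exact hz ▸ z.2
  exact {}

end FLTAgent.TwoChart
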