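import Fermat.Agent.FF.PlacesMain

/-!
# Values of functions at rational places

Over an algebraically closed field the residue field of a place is the constant field
(`residue_bijective`). `evalAt v` is the resulting evaluation and `rv v f` its extension to all
functions by zero at poles, with the rules for products, powers, inverses and quotients.
-/

set_option autoImplicit false

noncomputable section

open AlgebraicCurve

namespace FLTAgent.TwoChart

variable {k E : Type*} [Field k] [Field E] [Algebra k E] [IsAlgClosed k] [FF.IsFF k E]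

/-- Over an algebraically closed field the residue field of a place is the constant field. -/
theorem residue_bijective (v : Place k E) :
    Function.Bijective (algebraMap k v.ResidueField) := by
  refine ⟨(algebraMap k v.ResidueField).injective, fun y => ?_⟩
  obtain ⟨⟨f, hf⟩, rfl⟩ := IsLocalRing.residue_surjective y
  obtain ⟨c, hc⟩ := FF.exists_residue v hf
  refine ⟨c, (sub_eq_zero.1 ?_).symm⟩
  rw [show algebraMap k v.ResidueField c =
    IsLocalRing.residue _ (algebraMap k v.toValuationSubring c) from rfl, ← map_sub,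
    IsLocalRing.residue_eq_zero_iff, IsLocalRing.mem_maximalIdeal, mem_nonunits_iff,
    ← v.adicValuation_coe_eq_one_iff]
  intro h1
  simp only [AddSubgroupClass.coe_sub, Place.coe_algebraMap] at h1
  rcases hc with h | h
  · rw [h, sub_self, map_zero] at h1; exact zero_ne_one h1
  · rw [Place.ord, h1, WithZero.log_one, neg_zero] at h
    exact lt_irrefl _ h

/-- The value of a regular function at a rational place. -/
def evalAt (v : Place k E) : v.toValuationSubring →+* k :=
  (RingEquiv.ofBijective _ (residue_bijective v)).symm.toRingHom.comp (IsLocalRing.residue _)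

open Classical in
/-- The value of a function at a place, zero if it has a pole there. -/
def rv (v : Place k E) (f : E) : k :=
  if h : f ∈ v.toValuationSubring then evalAt v ⟨f, h⟩ else 0

theorem rv_of_mem (v : Place k E) {f : E} (hf : f ∈ v.toValuationSubring) :
    rv v f = evalAt v ⟨f, hf⟩ := dif_pos hf

theorem rv_mul (v : Place k E) {f g : E} (hf : f ∈ v.toValuationSubring)
    (hg : g ∈ v.toValuationSubring) : rv v (f * g) = rv v f * rv v g := by
  rw [rv_of_mem v (mul_mem hf hg), rv_of_mem v hf, rv_of_mem v hg, ← map_mul]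
  rfl

theorem rv_one (v : Place k E) : rv v 1 = 1 := by
  rw [rv_of_mem v (one_mem _)]
  exact map_one (evalAt v)

theorem rv_algebraMap (v : Place k E) (c : k) : rv v (algebraMap k E c) = c := by
  rw [rv_of_mem v (v.algebraMap_mem' c)]
  show (RingEquiv.ofBijective _ (residue_bijective v)).symm
    (IsLocalRing.residue _ ⟨algebraMap k E c, _⟩) = c
  rw [RingEquiv.symm_apply_eq]
  rfl

theorem rv_eq_zero_iff (v : Place k E) {f : E} (hf : f ∈ v.toValuationSubring) :
    rv v f = 0 ↔ (⟨f, hf⟩ : v.toValuationSubring) ∈
      IsLocalRing.maximalIdeal v.toValuationSubring := by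
  rw [rv_of_mem v hf, evalAt, RingHom.comp_apply, RingEquiv.toRingHom_eq_coe, RingEquiv.coe_toRingHom,
    map_eq_zero_iff _ (RingEquiv.injective _), IsLocalRing.residue_eq_zero_iff]

omit [IsAlgClosed k] [FF.IsFF k E] in
theorem mem_of_ord_eq_zero (v : Place k E) {f : E} (h : v.ord f = 0) :
    f ∈ v.toValuationSubring := by
  rw [FF.mem_iff]; exact Or.inr h.ge

theorem rv_ne_zero (v : Place k E) {f : E} (hf : f ≠ 0) (h : v.ord f = 0) : rv v f ≠ 0 := by
  rw [Ne, rv_eq_zero_iff v (mem_of_ord_eq_zero v h), IsLocalRing.mem_maximalIdeal,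
    mem_nonunits_iff, not_not, ← v.adicValuation_coe_eq_one_iff, FF.val_eq_exp v hf, h, neg_zero,
    WithZero.exp_zero]

theorem rv_pow (v : Place k E) {f : E} (hf : f ∈ v.toValuationSubring) (n : ℕ) :
    rv v (f ^ n) = rv v f ^ n := by
  rw [rv_of_mem v (pow_mem hf n), rv_of_mem v hf, ← map_pow]
  rfl

theorem rv_inv (v : Place k E) {f : E} (hf : f ≠ 0) (h : v.ord f = 0) :
    rv v f⁻¹ = (rv v f)⁻¹ := by
  refine eq_inv_of_mul_eq_one_left ?_
  rw [← rv_mul v (mem_of_ord_eq_zero v (by rw [v.ord_inv, h, neg_zero]))
    (mem_of_ord_eq_zero v h), inv_mul_cancel₀ hf, rv_one]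

theorem rv_div (v : Place k E) {f g : E} (hf : f ∈ v.toValuationSubring) (hg : g ≠ 0)
    (h : v.ord g = 0) : rv v (f / g) = rv v f / rv v g := by
  rw [div_eq_mul_inv, rv_mul v hf (mem_of_ord_eq_zero v (by rw [v.ord_inv, h, neg_zero])),
    rv_inv v hg h, div_eq_mul_inv]

theorem rv_sub_eq_zero_iff (v : Place k E) {f g : E} (hf : f ∈ v.toValuationSubring)
    (hg : g ∈ v.toValuationSubring) : rv v (f - g) = 0 ↔ rv v f = rv v g := by
  rw [rv_of_mem v (sub_mem hf hg), rv_of_mem v hf, rv_of_mem v hg,
    show (⟨f - g, sub_mem hf hg⟩ : v.toValuationSubring) = ⟨f, hf⟩ - ⟨g, hg⟩ from rfl, map_sub,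
    sub_eq_zero]

end FLTAgent.TwoChart
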