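import Fermat.Agent.TwoChart.Global

/-!
# Two-chart models: existence of crossings

`nonempty_crossings`: if there are at least two components and the constants are algebraically
closed in the function field, then some crossing exists. Otherwise two different roots of unity
chosen on two components would glue to a global root of `1`, that is, to a constant.
-/

set_option autoImplicit false

noncomputable section

open AlgebraicCurve WithZero

namespace FLTAgent.TwoChart

variable {W : Type} [CommRing W] [IsNoetherianRing W] {k : Type} [Field k] [IsAlgClosed k]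
  {res : W →+* k} {F : Type} [Field F] [Algebra W F] {π : W} {t : F} {ι : Type} [Fintype ι]
  {E : ι → Type} [∀ i, Field (E i)] [∀ i, Algebra k (E i)] [∀ i, FF.IsFF k (E i)] {X : Type}
  {K : Type} [Field K] [Algebra W K] [Algebra K F] [IsScalarTower W K F]

/-- A model with at least two components has a crossing. -/
theorem nonempty_crossings [Nontrivial ι] (M : Model W k res F π t ι E X)
    (hπK : algebraMap W K π ≠ 0)
    (hKfrac : ∀ c : K, ∃ (w : W) (m : ℕ), c * algebraMap W K π ^ m = algebraMap W K w)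
    (hconst : ∀ x : F, IsIntegral K x → x ∈ (algebraMap K F).range)
    {p : ℕ} (hp : p.Prime) (hpW : IsUnit (p : W)) : Nonempty X := by
  classical
  by_contra hX
  rw [not_nonempty_iff] at hX
  obtain ⟨i₀, j₀, hij⟩ := exists_pair_ne ι
  have : Nonempty ι := ⟨i₀⟩
  have : NeZero p := ⟨hp.ne_zero⟩
  have : NeZero (p : k) := ⟨fun h => by
    have := hpW.map res
    rw [map_natCast, h] at this
    exact not_isUnit_zero this⟩
  obtain ⟨ζ, hζ⟩ := HasEnoughRootsOfUnity.exists_primitiveRoot k p
  let w : ∀ i, E i := fun i => algebraMap k (E i) (if i = i₀ then ζ else 1)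
  have hw : ∀ i, w i ^ p = M.redF i (1 : F) := fun i => by
    rw [M.redF_one]
    simp only [w]
    rw [← map_pow]
    split_ifs <;> simp [hζ.pow_eq_one]
  have hone : IsKummer K p (1 : F) := ⟨one_ne_zero, fun v => by
    rw [← map_one (algebraMap K F), FF.ord_algebraMap]; exact dvd_zero _⟩
  have hmult : ∀ i, M.mult i (1 : F) = 0 := fun i => by simp [Model.mult]
  have hagree : M.RootsAgree p (1 : F) w := fun x => isEmptyElim x
  have ht : t ∈ ({t, t⁻¹} : Set F) := Set.mem_insert _ _
  have ht' : t⁻¹ ∈ ({t, t⁻¹} : Set F) := Or.inr rfl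
  obtain ⟨g₀, hg₀, hw₀⟩ := M.exists_chart_root ht hπK hKfrac hpW hone hmult hw hagree
  obtain ⟨g₁, hg₁, hw₁⟩ := M.exists_chart_root ht' hπK hKfrac hpW hone hmult hw hagree
  have hv1 : ∀ i, M.val i (1 : F) = 1 := fun i => map_one _
  have hgV₀ : ∀ i, g₀ ∈ M.V i := fun i => Model.root_mem_V ht (hv1 i) hg₀
  have hgV₁ : ∀ i, g₁ ∈ M.V i := fun i => Model.root_mem_V ht' (hv1 i) hg₁
  have hlt : ∀ (g : F), (∀ i, g ∈ M.V i) → (∀ i, M.redF i g = w i) →
      ∀ i, M.val i (g ^ p * (1 : F)⁻¹ - 1) < 1 := by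
    intro g hgV hg i
    rw [inv_one, mul_one, ← M.redF_eq_zero_iff (sub_mem (pow_mem (hgV i) p) (one_mem _)),
      M.redF_sub (pow_mem (hgV i) p) (one_mem _), M.redF_pow (hgV i), hg i, hw i, M.redF_one,
      sub_self]
  have hpair : (g₀ - g₁) ^ p * (1 : F)⁻¹ ∈ intCl W {t, t⁻¹} :=
    mem_rootModule.1 (Submodule.sub_mem _
      (rootModule_mono (n := p) 1 (intCl_le_pair_left (W := W) t) hg₀)
      (rootModule_mono (n := p) 1 (intCl_le_pair_right (W := W) t) hg₁))
  obtain ⟨g, hgm₀, hgm₁, hgs, -⟩ := exists_glue_root (π := π) M.t_ne_zero (M.alg t ht) (M.fin t ht)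
    hpW (one_ne_zero (α := F)) hg₀ (M.radical t ht _ (sub_mem hg₀ (one_mem _)) (hlt g₀ hgV₀ hw₀))
    hg₁ (M.radical _ ht' _ (sub_mem hg₁ (one_mem _)) (hlt g₁ hgV₁ hw₁))
    (Model.small_pair_of_val_lt (M := M) hpair fun i => by
      rw [inv_one, mul_one, ← M.redF_eq_zero_iff (pow_mem (sub_mem (hgV₀ i) (hgV₁ i)) p),
        M.redF_pow (sub_mem (hgV₀ i) (hgV₁ i)), M.redF_sub (hgV₀ i) (hgV₁ i), hw₀, hw₁, sub_self,
        zero_pow hp.ne_zero])
  have hgV : ∀ i, g ∈ M.V i := fun i => Model.root_mem_V ht (hv1 i) hgm₀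
  have hgint : g ∈ intCl W {t} ∧ g ∈ intCl W {t⁻¹} := by
    constructor
    · exact mem_intCl_of_pow_mem hp.pos (by simpa using mem_rootModule.1 hgm₀)
    · exact mem_intCl_of_pow_mem hp.pos (by simpa using mem_rootModule.1 hgm₁)
  obtain ⟨a, ha⟩ := hconst g (isIntegral_of_mem_both (K := K) hgint.1 hgint.2)
  obtain ⟨m, b, hb, hmb⟩ := hgs
  have hredg : ∀ i, M.redF i g = w i := by
    intro i
    have h1 : M.val i ((g - g₀) ^ p * (1 : F)⁻¹) < 1 := by
      by_contra hle
      rw [not_lt] at hle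
      have h2 := congrArg (M.val i) hmb
      rw [map_pow, map_mul _ (algebraMap W F π), M.val_pi] at h2
      have h3 : exp (-(M.e i : ℤ)) * M.val i b ≤ exp (-(M.e i : ℤ)) :=
        mul_le_of_le_one_right' (M.mem_V.1 (M.chart_le_V ht hb i))
      rw [← h2] at h3
      have h4 : (1 : WithZero (Multiplicative ℤ)) ≤ M.val i ((g - g₀) ^ p * (1 : F)⁻¹) ^ m :=
        one_le_pow_of_one_le' hle m
      have h5 := h4.trans h3
      rw [← exp_zero, exp_le_exp] at h5
      have := M.e_pos i
      omega
    rw [inv_one, mul_one, map_pow, pow_lt_one_iff hp.ne_zero,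
      ← M.redF_eq_zero_iff (sub_mem (hgV i) (hgV₀ i)), M.redF_sub (hgV i) (hgV₀ i),
      sub_eq_zero] at h1
    rw [h1, hw₀ i]
  -- a constant integral for one component has the same reduction on all components
  have key : ∀ (l : ℕ) (a : K) (v : W), a * algebraMap W K π ^ l = algebraMap W K v →
      algebraMap K F a ∈ M.V i₀ → ∃ v' : W, algebraMap W K v' = a := by
    intro l
    induction l with
    | zero => exact fun a v h _ => ⟨v, by rw [← h, pow_zero, mul_one]⟩
    | succ l ih =>
      intro a v h haV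
      have h1 : M.val i₀ (algebraMap W F v) < 1 := by
        rw [IsScalarTower.algebraMap_apply W K F, ← h, map_mul, map_pow,
          ← IsScalarTower.algebraMap_apply W K F, map_mul, map_pow, M.val_pi, pow_succ', ← mul_assoc]
        have he : exp (-(M.e i₀ : ℤ)) < (1 : WithZero (Multiplicative ℤ)) := by
          rw [← exp_zero, exp_lt_exp]; have := M.e_pos i₀; omega
        refine mul_lt_one_of_lt_of_le ?_ (pow_le_one₀ zero_le he.le)
        exact lt_of_le_of_lt (mul_le_of_le_one_left' (M.mem_V.1 haV)) he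
      rw [← M.redF_eq_zero_iff (M.mem_V.2 (M.val_base i₀ v)), M.redF_algebraMap, map_eq_zero,
        M.res_eq_zero] at h1
      obtain ⟨v', rfl⟩ := h1
      refine ih a v' (mul_right_cancel₀ hπK ?_) haV
      rw [mul_assoc, ← pow_succ, h, map_mul, mul_comm]
  obtain ⟨v, l, hvl⟩ := hKfrac a
  obtain ⟨v', hv'⟩ := key l a v hvl (ha ▸ hgV i₀)
  have hconstred : ∀ i, w i = algebraMap k (E i) (res v') := fun i => by
    rw [← hredg i, ← ha, ← hv', ← IsScalarTower.algebraMap_apply W K F, M.redF_algebraMap]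
  have h0 := (algebraMap k (E i₀)).injective (hconstred i₀)
  have h1 := (algebraMap k (E j₀)).injective (hconstred j₀)
  rw [if_pos rfl] at h0
  rw [if_neg hij.symm, ← h0] at h1
  exact hζ.ne_one hp.one_lt h1.symm

end FLTAgent.TwoChart
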