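import Mathlib

/-!
# Rank of invariants from counts modulo `p ^ m`

`finrank_fixed_le`: if, for `p`-adic matrices, the common fixed vectors have at most
`C * p ^ (R * m)` images modulo `p ^ m` for all `m`, then their common fixed space over any
field of characteristic zero has dimension at most `R`. Proof: the equations span a free module
of rank `e` with a right inverse over the field (`exists_right_inverse_map`); count and apply
rank-nullity.
-/

set_option autoImplicit false

noncomputable section

open Matrix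

namespace FLTAgent.TwoChart

variable {p : ℕ} [Fact p.Prime] {r : ℕ}

/-- A ring map from `ℤ_p` to a field of characteristic zero is injective. -/
theorem padicHom_injective {L : Type*} [Field L] [CharZero L] (f : ℤ_[p] →+* L) :
    Function.Injective f := by
  have hp0 : (p : L) ≠ 0 := Nat.cast_ne_zero.2 (Fact.out : p.Prime).ne_zero
  rw [injective_iff_map_eq_zero]
  intro x hx
  by_contra h
  rw [PadicInt.unitCoeff_spec h, map_mul, map_pow, map_natCast] at hx
  exact mul_ne_zero ((PadicInt.unitCoeff h).isUnit.map f).ne_zero (pow_ne_zero _ hp0) hx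

/-- Rows independent over `ℤ_p` have a right inverse over any characteristic zero field. -/
theorem exists_right_inverse_map {e : ℕ} {A : Matrix (Fin e) (Fin r) ℤ_[p]}
    (h : LinearIndependent ℤ_[p] A.row) {L : Type*} [Field L] [CharZero L] (f : ℤ_[p] →+* L) :
    ∃ B : Matrix (Fin r) (Fin e) L, f.mapMatrix (1 : Matrix (Fin e) (Fin e) ℤ_[p]) =
      A.map f * B := by
  let AQ : Matrix (Fin e) (Fin r) ℚ_[p] := A.map (algebraMap ℤ_[p] ℚ_[p])
  have hQ : LinearIndependent ℚ_[p] AQ.row := by
    rw [← LinearIndependent.iff_fractionRing ℤ_[p] ℚ_[p]]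
    exact h.map' ((Algebra.linearMap ℤ_[p] ℚ_[p]).compLeft (Fin r))
      (LinearMap.ker_eq_bot.2 fun x y hxy => funext fun i =>
        IsFractionRing.injective ℤ_[p] ℚ_[p] (congrFun hxy i))
  have hinj : Function.Injective AQ.vecMul := Matrix.vecMul_injective_iff.2 hQ
  obtain ⟨B, hB⟩ : ∃ B : Matrix (Fin r) (Fin e) ℚ_[p],
      AQ * B = (1 : Matrix (Fin e) (Fin e) ℚ_[p]) := by
    obtain ⟨g, hg⟩ := LinearMap.exists_leftInverse_of_injective AQ.vecMulLinear
      (LinearMap.ker_eq_bot.2 hinj)
    refine ⟨Matrix.of fun j k => g (Pi.single j 1) k, ?_⟩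
    ext i k
    have h1 := congrFun (LinearMap.congr_fun hg (Pi.single i 1)) k
    simp only [LinearMap.comp_apply, LinearMap.id_apply, Matrix.vecMulLinear_apply,
      Matrix.single_one_vecMul] at h1
    rw [pi_eq_sum_univ' (AQ.row i), map_sum] at h1
    simp only [map_smul, Finset.sum_apply, Pi.smul_apply, smul_eq_mul] at h1
    rw [Matrix.mul_apply, Matrix.one_apply]
    simpa [Pi.single_apply, eq_comm, Matrix.of_apply] using h1
  let g : ℚ_[p] →+* L := IsFractionRing.lift (padicHom_injective f)
  refine ⟨B.map g, ?_⟩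
  have h2 := congrArg (fun X : Matrix (Fin e) (Fin e) ℚ_[p] => X.map g) hB
  simp only [Matrix.map_mul, Matrix.map_one g (map_zero g) (map_one g)] at h2
  have hcomp : AQ.map g = A.map f := by
    ext i j
    exact IsFractionRing.lift_algebraMap (padicHom_injective f) (A i j)
  rw [hcomp] at h2
  rw [h2, map_one]

/-- If the image modulo `p ^ m` of the common fixed vectors has at most `C * p ^ (R * m)` elements
for all `m`, then the common fixed space over a field of characteristic zero has dimension at most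
`R`. -/
theorem finrank_fixed_le {G : Type*} (I : Set G) (M : G → Matrix (Fin r) (Fin r) ℤ_[p])
    {J : Type*} [AddCommGroup J] (φ : ℕ → (Fin r → ℤ_[p]) →+ J)
    (hker : ∀ m v, φ m v = 0 → ∃ w, v = ((p : ℤ_[p]) ^ m) • w)
    (S : ℕ → Finset J) (hS : ∀ m v, (∀ i ∈ I, M i *ᵥ v = v) → φ m v ∈ S m) {R C : ℕ}
    (hR : ∀ m, (S m).card ≤ C * p ^ (R * m))
    (L : Type*) [Field L] [CharZero L] (f : ℤ_[p] →+* L) :
    Module.finrank L (⨅ i ∈ I, LinearMap.ker ((f.mapMatrix (M i)).mulVecLin - LinearMap.id) :
      Submodule L (Fin r → L)) ≤ R := by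
  classical
  set rows : Set (Fin r → ℤ_[p]) :=
    {w | ∃ i ∈ I, ∃ a, w = fun b => M i a b - (1 : Matrix (Fin r) (Fin r) ℤ_[p]) a b} with hrows
  obtain ⟨e, b⟩ := Submodule.basisOfPid (Pi.basisFun ℤ_[p] (Fin r)) (Submodule.span ℤ_[p] rows)
  let A : Matrix (Fin e) (Fin r) ℤ_[p] := Matrix.of fun k => (b k : Fin r → ℤ_[p])
  have hA : LinearIndependent ℤ_[p] A.row :=
    b.linearIndependent.map' (Submodule.subtype _) (Submodule.ker_subtype _)
  let U : Submodule ℤ_[p] (Fin r → ℤ_[p]) := LinearMap.ker A.mulVecLin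
  have hrow : ∀ v ∈ U, ∀ w ∈ Submodule.span ℤ_[p] rows, w ⬝ᵥ v = 0 := by
    intro v hv w hw
    have hbw : ∀ k, (b k : Fin r → ℤ_[p]) ⬝ᵥ v = 0 := fun k => congrFun (LinearMap.mem_ker.1 hv) k
    have : w = ∑ k, b.repr ⟨w, hw⟩ k • (b k : Fin r → ℤ_[p]) := by
      have := congrArg Subtype.val (b.sum_repr ⟨w, hw⟩)
      rw [Submodule.coe_sum] at this
      exact this.symm
    rw [this, sum_dotProduct]
    simp [hbw]
  have hUfix : ∀ v ∈ U, ∀ i ∈ I, M i *ᵥ v = v := by
    intro v hv i hi
    funext a
    have := hrow v hv _ (Submodule.subset_span ⟨i, hi, a, rfl⟩)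
    rw [show (fun b => M i a b - (1 : Matrix (Fin r) (Fin r) ℤ_[p]) a b) =
      M i a - (1 : Matrix (Fin r) (Fin r) ℤ_[p]) a from rfl, sub_dotProduct] at this
    have h1 : (1 : Matrix (Fin r) (Fin r) ℤ_[p]) a ⬝ᵥ v = v a := congrFun (Matrix.one_mulVec v) a
    rw [h1, sub_eq_zero] at this
    exact this
  obtain ⟨d, u⟩ := Submodule.basisOfPid (Pi.basisFun ℤ_[p] (Fin r)) U
  -- the image of `U` modulo `p ^ m` has `p ^ (d * m)` elements
  have hcard : ∀ m, p ^ (d * m) ≤ (S m).card := by
    intro m
    let v : (Fin d → Fin (p ^ m)) → (Fin r → ℤ_[p]) := fun a =>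
      ((∑ k, ((a k : ℕ) : ℤ_[p]) • u k : U) : Fin r → ℤ_[p])
    have hmaps : Set.MapsTo (fun a => φ m (v a)) (Set.univ : Set (Fin d → Fin (p ^ m))) (S m) :=
      fun a _ => hS m _ (hUfix _ (∑ k, ((a k : ℕ) : ℤ_[p]) • u k : U).2)
    have hinj : Function.Injective fun a => φ m (v a) := by
      intro a a' h
      obtain ⟨w, hw⟩ := hker m (v a - v a') (by simp only at h; rw [map_sub, h, sub_self])
      have hwU : w ∈ U := by
        have h1 : A.mulVecLin (v a - v a') = 0 := by
          have h2 : v a - v a' ∈ U := sub_mem (Subtype.coe_prop _) (Subtype.coe_prop _)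
          exact LinearMap.mem_ker.1 h2
        rw [hw, map_smul] at h1
        exact LinearMap.mem_ker.2 ((smul_eq_zero.1 h1).resolve_left
          (pow_ne_zero _ (Nat.cast_ne_zero.2 (Fact.out : p.Prime).ne_zero)))
      have hco : (∑ k, ((a k : ℕ) : ℤ_[p]) • u k : U) - ∑ k, ((a' k : ℕ) : ℤ_[p]) • u k =
          ((p : ℤ_[p]) ^ m) • (⟨w, hwU⟩ : U) := Subtype.ext hw
      funext k
      have h3 := congrArg (fun x => u.repr x k) hco
      simp only [map_sub, Finsupp.sub_apply, u.repr_sum_self, map_smul, Finsupp.smul_apply,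
        smul_eq_mul] at h3
      have h4 := congrArg (PadicInt.toZModPow m) h3
      simp only [map_sub, map_mul, map_natCast, map_pow] at h4
      rw [← Nat.cast_pow, ZMod.natCast_self, zero_mul, sub_eq_zero] at h4
      rw [ZMod.natCast_eq_natCast_iff', Nat.mod_eq_of_lt (a k).2, Nat.mod_eq_of_lt (a' k).2] at h4
      exact Fin.ext h4
    have := Finset.card_le_card_of_injOn (s := (Finset.univ : Finset (Fin d → Fin (p ^ m)))) (t := S m)
      (fun a => φ m (v a)) (fun a _ => hmaps (Set.mem_univ a)) hinj.injOn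
    simpa [← pow_mul, mul_comm m d] using this
  have hdR : d ≤ R := by
    by_contra hlt
    have h1 := (hcard C).trans (hR C)
    have h2 : p ^ (R * C + C) ≤ p ^ (d * C) :=
      Nat.pow_le_pow_right (Fact.out : p.Prime).pos (by
        rw [← Nat.succ_mul]
        exact Nat.mul_le_mul_right C (by omega))
    rw [pow_add, mul_comm (p ^ (R * C)) (p ^ C)] at h2
    have h3 := Nat.le_of_mul_le_mul_right (h2.trans h1)
      (pow_pos (Fact.out : p.Prime).pos (R * C))
    have h4 : C < p ^ C := Nat.lt_pow_self (Fact.out : p.Prime).one_lt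
    omega
  -- rank-nullity
  have hre : r ≤ e + d := by
    have h1 := Submodule.finrank_quotient_add_finrank (LinearMap.ker A.mulVecLin)
    rw [A.mulVecLin.quotKerEquivRange.finrank_eq] at h1
    have h2 : Module.finrank ℤ_[p] (LinearMap.range A.mulVecLin) ≤ e := by
      simpa using Submodule.finrank_le (LinearMap.range A.mulVecLin)
    have h3 : Module.finrank ℤ_[p] U = d := by simpa using Module.finrank_eq_card_basis u
    simp only [Module.finrank_pi, Fintype.card_fin] at h1
    change _ + Module.finrank ℤ_[p] U = r at h1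
    omega
  -- over `L`
  obtain ⟨B, hB⟩ := exists_right_inverse_map hA f
  rw [map_one] at hB
  have hle : (⨅ i ∈ I, LinearMap.ker ((f.mapMatrix (M i)).mulVecLin - LinearMap.id) :
      Submodule L (Fin r → L)) ≤ LinearMap.ker (A.map f).mulVecLin := by
    intro x hx
    simp only [Submodule.mem_iInf, LinearMap.mem_ker, LinearMap.sub_apply, LinearMap.id_apply,
      Matrix.mulVecLin_apply, sub_eq_zero] at hx
    rw [LinearMap.mem_ker, Matrix.mulVecLin_apply]
    funext k
    show (fun j => f ((b k : Fin r → ℤ_[p]) j)) ⬝ᵥ x = 0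
    have key : ∀ w ∈ Submodule.span ℤ_[p] rows, (fun j => f (w j)) ⬝ᵥ x = 0 := by
      intro w hw
      induction hw using Submodule.span_induction with
      | mem w hw =>
          obtain ⟨i, hi, a, rfl⟩ := hw
          have h1 := congrFun (hx i hi) a
          have h2 : (fun j => f (M i a j - (1 : Matrix (Fin r) (Fin r) ℤ_[p]) a j)) ⬝ᵥ x =
              f.mapMatrix (M i) a ⬝ᵥ x - f.mapMatrix (1 : Matrix (Fin r) (Fin r) ℤ_[p]) a ⬝ᵥ x := by
            rw [← sub_dotProduct]
            congr 1
            funext j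
            show f (_ - _) = f _ - f _
            rw [map_sub]
          rw [h2, map_one]
          have h3 : (1 : Matrix (Fin r) (Fin r) L) a ⬝ᵥ x = x a := congrFun (Matrix.one_mulVec x) a
          rw [h3, sub_eq_zero]
          exact h1
      | zero => simp [dotProduct]
      | add w w' _ _ h h' =>
          have : (fun j => f ((w + w') j)) = (fun j => f (w j)) + fun j => f (w' j) := by
            funext j; simp
          rw [this, add_dotProduct, h, h', add_zero]
      | smul c w _ h =>
          have : (fun j => f ((c • w) j)) = f c • fun j => f (w j) := by funext j; simp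
          rw [this, smul_dotProduct, h, smul_zero]
    exact key _ (b k).2
  have hsurj : Function.Surjective (A.map f).mulVecLin := fun y => ⟨B *ᵥ y, by
    rw [Matrix.mulVecLin_apply, Matrix.mulVec_mulVec, ← hB, Matrix.one_mulVec]⟩
  have h4 := LinearMap.finrank_range_add_finrank_ker (A.map f).mulVecLin
  rw [LinearMap.range_eq_top.2 hsurj, finrank_top] at h4
  simp only [Module.finrank_pi, Fintype.card_fin] at h4
  have := Submodule.finrank_mono hle
  omega

end FLTAgent.TwoChart
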