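import Fermat.Agent.TwoChart.CardKummer
import Fermat.Agent.TwoChart.TateRank
import Fermat.Agent.TwoChart.DescentClasses

/-!
# Two-chart models: rank of the inertia invariants

`finrank_fixed_le_of_model`: from a two-chart model over the fixed field of `I` with component
bounds `b i`, the space fixed by `I` in the `p`-adic coordinates of the torsion has dimension at
most `(#ι - 1) * (#X - 1) + ∑ i, b i`. It combines `card_le_of_kummer`, the descent of classes
`card_fixed_le_of_kummer` and the counting lemma `finrank_fixed_le`.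
-/

set_option autoImplicit false
set_option linter.unusedSectionVars false

noncomputable section

open AlgebraicCurve ModularCurve Matrix

namespace FLTAgent.TwoChart

local notation "ℚ̄" => AlgebraicClosure ℚ
local notation "Γℚ" => (AlgebraicClosure ℚ ≃ₐ[ℚ] AlgebraicClosure ℚ)

variable {F₀ : IntermediateField ℚ (LaurentSeries ℚ)} [FF.IsFF ℚ̄ (laurentBaseChange ℚ̄ F₀)]

/-- Upper bound for the inertia invariants: from a two-chart model over the fixed field whose
components have at most `O(p ^ (b i * m))` inequivalent Kummer classes of level `p ^ m`, the common fixed space of any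
`p`-adic coordinates of the torsion has dimension at most `(#ι-1)(#X-1) + Σ b i`. -/
theorem finrank_fixed_le_of_model {A : ValuationSubring ℚ̄} {I : Subgroup Γℚ} {k : Type} [Field k]
    [IsAlgClosed k] {res : baseW A I →+* k} [IsNoetherianRing (baseW A I)] {π : baseW A I}
    {t : fixedF F₀ I} {ι : Type} [Fintype ι] {E : ι → Type} [∀ i, Field (E i)]
    [∀ i, Algebra k (E i)] [∀ i, FF.IsFF k (E i)] {X : Type} [Fintype X] [Nonempty X]
    (M : Model (baseW A I) k res (fixedF F₀ I) π t ι E X)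
    (hπK : algebraMap (baseW A I) (fixedK I) π ≠ 0)
    (hKfrac : ∀ c : fixedK I, ∃ (w : baseW A I) (m : ℕ),
      c * algebraMap (baseW A I) (fixedK I) π ^ m = algebraMap (baseW A I) (fixedK I) w)
    {p : ℕ} [Fact p.Prime] (hpW : IsUnit (p : baseW A I)) {i₀ : ι} (he : M.e i₀ = 1)
    (b : ι → ℕ)
    (hB : ∀ i : ι, ∃ C : ℕ, ∀ (m : ℕ) (T : Finset (E i)), (∀ u ∈ T, IsKummer k (p ^ m) u) →
      (∀ u ∈ T, ∀ u' ∈ T, u ≠ u' → ¬ ∃ w : E i, u = u' * w ^ (p ^ m)) →
        T.card ≤ C * p ^ (b i * m))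
    {r : ℕ} (G : Γℚ → Matrix (Fin r) (Fin r) ℤ_[p])
    (ψ : ℕ → (Fin r → ℤ_[p]) →+ Pic0 ℚ̄ (laurentBaseChange ℚ̄ F₀))
    (htor : ∀ m v, p ^ m • ψ m v = 0)
    (hker : ∀ m v, ψ m v = 0 → ∃ w, v = ((p : ℤ_[p]) ^ m) • w)
    (hgal : ∀ m, ∀ σ ∈ I, ∀ v, ψ m (G σ *ᵥ v) = arithmeticGalois F₀ σ • ψ m v)
    (L : Type*) [Field L] [CharZero L] (f : ℤ_[p] →+* L) :
    Module.finrank L (⨅ σ ∈ I, LinearMap.ker ((f.mapMatrix (G σ)).mulVecLin - LinearMap.id) :
      Submodule L (Fin r → L)) ≤ (Fintype.card ι - 1) * (Fintype.card X - 1) + ∑ i, b i := by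
  classical
  have hp : p.Prime := Fact.out
  have hNpos : Fintype.card X * ∑ i, M.e i ≠ 0 := by
    refine mul_ne_zero Fintype.card_ne_zero (Nat.one_le_iff_ne_zero.1 ?_)
    rw [← he]
    exact Finset.single_le_sum (fun i _ => Nat.zero_le _) (Finset.mem_univ i₀)
  set c := Fintype.card X * ∑ i, M.e i with hc
  have hcdvd : ¬ p ^ (c + 1) ∣ Fintype.card X * ∑ i, M.e i := fun h => by
    have h1 := Nat.le_of_dvd (Nat.pos_of_ne_zero hNpos) h
    have h2 : c + 1 < p ^ (c + 1) := Nat.lt_pow_self hp.one_lt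
    omega
  choose C hC using hB
  set R := (Fintype.card ι - 1) * (Fintype.card X - 1) + ∑ i, b i with hR
  have hRB : ∀ m, (p ^ m) ^ ((Fintype.card ι - 1) * (Fintype.card X - 1)) *
      ∏ i, C i * p ^ (b i * m) = (∏ i, C i) * p ^ (R * m) := by
    intro m
    rw [Finset.prod_mul_distrib, Finset.prod_pow_eq_pow_sum, hR, add_mul, pow_add, ← pow_mul,
      Finset.sum_mul, mul_comm m]
    ring
  have hex : ∀ m, ∃ T : Finset (Pic0 ℚ̄ (laurentBaseChange ℚ̄ F₀)),
      T.card ≤ (∏ i, C i) * p ^ (R * m) ∧ ∀ y, p ^ (c + m) • y = 0 →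
        (∀ σ ∈ I, arithmeticGalois F₀ σ • y = y) → p ^ c • y ∈ T := fun m =>
    card_fixed_le_of_kummer (F₀ := F₀) (I := I) (c := c) (m := m) hp.ne_zero fun S hS hd =>
      hRB m ▸ card_le_of_kummer M hπK hKfrac (fun x hx => mem_range_of_isIntegral_fixedF hx) hp hpW
        he m hcdvd (fun i => C i * p ^ (b i * m)) (fun i => hC i m) S hS hd
  choose T hT hTmem using hex
  let φ : ℕ → (Fin r → ℤ_[p]) →+ Pic0 ℚ̄ (laurentBaseChange ℚ̄ F₀) := fun m => p ^ c • ψ (c + m)
  refine finrank_fixed_le (I : Set Γℚ) G φ ?_ T ?_ hT L f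
  · intro m v hv
    have h1 : ψ (c + m) ((p : ℤ_[p]) ^ c • v) = 0 := by
      rw [← Nat.cast_pow, Nat.cast_smul_eq_nsmul ℤ_[p], map_nsmul]
      exact hv
    obtain ⟨w, hw⟩ := hker _ _ h1
    refine ⟨w, ?_⟩
    rw [pow_add, mul_smul] at hw
    exact smul_right_injective _ (pow_ne_zero _ (Nat.cast_ne_zero.2 hp.ne_zero)) hw
  · intro m v hv
    refine hTmem m _ (htor _ _) fun σ hσ => ?_
    rw [← hgal _ σ hσ, hv σ hσ]

end FLTAgent.TwoChart
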