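import Fermat.Agent.TwoChart.Basic
import Fermat.Prelude.Def_AlgebraicCurve_DivisorClassGroup

/-!
# Abstract regular two-chart models

`Model` is a regular model covered by two charts, with smooth components meeting transversally.
`W` is the base (residue field `k` through `res`, uniformiser `π`), `F` the function field and
`t` the coordinate; the charts are the integral closures of `W[t]` and `W[t⁻¹]`. The components
are indexed by `ι`, have multiplicities `e i` and function fields `E i`, and meet only in the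
points `X`, each of which lies on every component and in both charts.
-/

set_option autoImplicit false

open AlgebraicCurve WithZero

namespace FLTAgent.TwoChart

/-- A regular two-chart model whose special fibre has smooth components crossing transversally. -/
structure Model (W : Type*) [CommRing W] (k : Type*) [Field k] (res : W →+* k) (F : Type*) [Field F]
    [Algebra W F] (π : W) (t : F) (ι : Type*) (E : ι → Type*) [∀ i, Field (E i)]
    [∀ i, Algebra k (E i)] (X : Type*) where
  t_ne_zero : t ≠ 0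
  /-- `F` is algebraic over `W[t]`. -/
  alg : ∀ s ∈ ({t, t⁻¹} : Set F), Algebra.IsAlgebraic (Algebra.adjoin W ({s} : Set F)) F
  /-- The charts are finite over the coordinate rings of the affine lines. -/
  fin : ∀ s ∈ ({t, t⁻¹} : Set F), Module.Finite (Algebra.adjoin W ({s} : Set F))
    (integralClosure (Algebra.adjoin W ({s} : Set F)) F)
  res_surjective : Function.Surjective res
  res_eq_zero : ∀ w : W, res w = 0 ↔ π ∣ w
  /-- The valuation of each component. -/
  val : ι → Valuation F ℤᵐ⁰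
  /-- Reduction to the function field of a component. -/
  red : ∀ i, (val i).valuationSubring →+* E i
  red_surjective : ∀ i, Function.Surjective (red i)
  red_eq_zero : ∀ i (x : (val i).valuationSubring), red i x = 0 ↔ val i (x : F) < 1
  red_const : ∀ i (w : W) (h : algebraMap W F w ∈ (val i).valuationSubring),
    red i ⟨_, h⟩ = algebraMap k (E i) (res w)
  /-- The multiplicity of each component. -/
  e : ι → ℕ
  e_pos : ∀ i, 0 < e i
  val_pi : ∀ i, val i (algebraMap W F π) = exp (-(e i : ℤ))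
  /-- The valuations are normalised. -/
  val_norm : ∀ i, ∃ x : F, val i x = exp (-1 : ℤ)
  val_base : ∀ i (w : W), val i (algebraMap W F w) ≤ 1
  val_t : ∀ i, val i t = 1
  /-- The radical of `π` in a chart consists of the functions vanishing on all components. -/
  radical : ∀ s ∈ ({t, t⁻¹} : Set F), ∀ r ∈ intCl W {s}, (∀ i, val i r < 1) →
    Small W π ({s} : Set F) r
  /-- The places of the crossing points on the components. -/
  pt : X → ∀ i, Place k (E i)
  pt_injective : ∀ i, Function.Injective fun x => pt x i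
  /-- The crossings lie in both charts. -/
  ord_pt : ∀ x i (h : t ∈ (val i).valuationSubring), (pt x i).ord (red i ⟨t, h⟩) = 0
  /-- A crossing is the same point on all components. -/
  pt_center : ∀ s ∈ ({t, t⁻¹} : Set F), ∀ r ∈ intCl W {s}, ∀ (x : X) (i j : ι)
    (hi : r ∈ (val i).valuationSubring) (hj : r ∈ (val j).valuationSubring),
    (red i ⟨r, hi⟩ ≠ 0 ∧ (pt x i).ord (red i ⟨r, hi⟩) = 0) →
      (red j ⟨r, hj⟩ ≠ 0 ∧ (pt x j).ord (red j ⟨r, hj⟩) = 0)
  /-- Every closed point of the special fibre lies on some component. -/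
  cover : ∀ s ∈ ({t, t⁻¹} : Set F), ∀ m : Ideal (intCl W ({s} : Set F)), m.IsMaximal →
    algebraMap W (intCl W ({s} : Set F)) π ∈ m →
    ∃ (i : ι) (v : Place k (E i)),
      (∀ hs : s ∈ (val i).valuationSubring, 0 ≤ v.ord (red i ⟨s, hs⟩)) ∧
      ∀ (r : intCl W ({s} : Set F)) (hr : (r : F) ∈ (val i).valuationSubring),
      r ∈ m ↔ (red i ⟨r, hr⟩ = 0 ∨ 0 < v.ord (red i ⟨r, hr⟩))
  /-- Outside the crossings the components are disjoint. -/
  separated : ∀ s ∈ ({t, t⁻¹} : Set F), ∀ (i : ι) (v : Place k (E i)),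
    (∀ hs : s ∈ (val i).valuationSubring, 0 ≤ v.ord (red i ⟨s, hs⟩)) →
    (∀ x, v ≠ pt x i) → ∀ j, j ≠ i →
    ∃ (r : F) (_ : r ∈ intCl W {s}) (hi : r ∈ (val i).valuationSubring),
      val j r < 1 ∧ red i ⟨r, hi⟩ ≠ 0 ∧ v.ord (red i ⟨r, hi⟩) = 0
  /-- The components are smooth. -/
  smooth : ∀ s ∈ ({t, t⁻¹} : Set F), ∀ (i : ι) (v : Place k (E i)),
    (∀ hs : s ∈ (val i).valuationSubring, 0 ≤ v.ord (red i ⟨s, hs⟩)) →
    ∀ a : E i, 0 ≤ v.ord a →
    ∃ (r b : F) (_ : r ∈ intCl W {s}) (_ : b ∈ intCl W {s})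
      (hr : r ∈ (val i).valuationSubring) (hb : b ∈ (val i).valuationSubring),
      red i ⟨r, hr⟩ ≠ 0 ∧ v.ord (red i ⟨r, hr⟩) = 0 ∧ a * red i ⟨r, hr⟩ = red i ⟨b, hb⟩
  /-- The components are Cartier and meet transversally. -/
  principal : ∀ s ∈ ({t, t⁻¹} : Set F), ∀ (i : ι) (v : Place k (E i)),
    (∀ hs : s ∈ (val i).valuationSubring, 0 ≤ v.ord (red i ⟨s, hs⟩)) →
    ∃ h ∈ intCl W {s}, h ≠ 0 ∧ val i h < 1 ∧
      (∀ r ∈ intCl W {s}, val i r < 1 →
        ∃ (u : F) (_ : u ∈ intCl W {s}) (hu : u ∈ (val i).valuationSubring),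
          red i ⟨u, hu⟩ ≠ 0 ∧ v.ord (red i ⟨u, hu⟩) = 0 ∧ u * r * h⁻¹ ∈ intCl W {s}) ∧
      ∀ x, v = pt x i → ∀ j, j ≠ i → ∀ hj : h ∈ (val j).valuationSubring,
        red j ⟨h, hj⟩ ≠ 0 ∧ (pt x j).ord (red j ⟨h, hj⟩) = 1

end FLTAgent.TwoChart
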