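import Fermat.Agent.TwoChart.Charts
import Fermat.Agent.TwoChart.Model

/-!
# A two-chart model from two compatible charts

`Compatible` says that the restrictions of two charts agree on the overlap and `Restricts` that
a valuation with a reduction map extends the restriction to a component. `exists_model` builds
a `Model` from two compatible charts with at least two components: the valuations and the
reductions are defined on fractions from the first chart, and crossings are transferred to the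
second chart by `cross_transfer`.
-/

set_option autoImplicit false
set_option linter.unusedSectionVars false
set_option linter.style.haveILetI false

noncomputable section

open AlgebraicCurve WithZero

namespace FLTAgent.TwoChart

variable {W : Type} [CommRing W] {k : Type} [Field k] {res : W →+* k} {F : Type} [Field F]
  [Algebra W F] {π : W} {t : F} {E : Type} [Field E] [Algebra k E] {sbar : E} {ι : Type}
  {e : ι → ℕ}

/-- The two charts restrict compatibly to the components. -/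
def Compatible (c₀ : Chart W res π t sbar e) (c₁ : Chart W res π t⁻¹ sbar⁻¹ e) : Prop :=
  ∀ (i : ι) (a : intCl W ({t} : Set F)) (a' : intCl W ({t⁻¹} : Set F)) (m : ℕ),
    (a' : F) * t ^ m = (a : F) →
      c₁.comp i a' * c₀.comp i ⟨t, subset_intCl _ rfl⟩ ^ m = c₀.comp i a

section Compare

variable {s s' : F} {σ σ' : E} (c : Chart W res π s σ e) (d : Chart W res π s' σ' e)
  (v : ι → Valuation F ℤᵐ⁰) (red : ∀ i, (v i).valuationSubring →+* E)

/-- `red` restricts to the components of a chart. -/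
def Restricts : Prop :=
  ∀ i (a : intCl W ({s} : Set F)), ∃ h : (a : F) ∈ (v i).valuationSubring,
    red i ⟨_, h⟩ = c.comp i a

variable {c d v red}

/-- A crossing of one chart is a crossing of the other. -/
theorem cross_transfer [Nontrivial ι] (hs : s' = s⁻¹) (hs0 : s ≠ 0)
    (hc : Restricts c v red) (hd : Restricts d v red) {w : Place k E} (hcw : c.Cross w)
    (hσ' : σ' = σ⁻¹) : d.Cross w := by
  by_contra hdw
  have hw0 : w.ord σ = 0 := c.ord_cross w hcw
  obtain ⟨i, j, hij⟩ := exists_pair_ne ι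
  obtain ⟨r, hrj, hri, hrv⟩ := d.separated i w (by rw [hσ', Place.ord_inv, hw0]; rfl) hdw j hij.symm
  obtain ⟨m, hm⟩ := exists_pow_mul_mem (W := W) hs0 (x := (r : F))
    (intCl_le_pair_right s (by rw [← hs]; exact r.2))
  have hfac : ∀ l, c.comp l ⟨_, hm⟩ = c.comp l ⟨s, subset_intCl _ rfl⟩ ^ m * d.comp l r := by
    intro l
    obtain ⟨h1, e1⟩ := hc l ⟨_, hm⟩
    obtain ⟨h2, e2⟩ := hd l r
    obtain ⟨h3, e3⟩ := hc l ⟨s, subset_intCl _ rfl⟩
    rw [← e1, ← e2, ← e3, ← map_pow, ← map_mul]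
    rfl
  have h1 := c.cross_same w hcw i j ⟨_, hm⟩ ⟨by
      rw [hfac]; exact mul_ne_zero (pow_ne_zero _ (c.comp_s i).1) hri,
    by rw [hfac, Place.ord_mul _ (pow_ne_zero _ (c.comp_s i).1) hri, FF.ord_pow,
      c.ord_comp_s_eq_zero i hw0, hrv]; ring⟩
  exact h1.1 (by rw [hfac, hrj, mul_zero])

theorem radical_of_restricts (hc : Restricts c v red)
    (hker : ∀ i (x : (v i).valuationSubring), red i x = 0 ↔ v i (x : F) < 1) {r : F}
    (hr : r ∈ intCl W {s}) (hlt : ∀ i, v i r < 1) : Small W π ({s} : Set F) r := by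
  have hmem : (⟨r, hr⟩ : intCl W ({s} : Set F)) ∈
      (Ideal.span {algebraMap W (intCl W ({s} : Set F)) π}).radical := by
    rw [Ideal.radical_eq_sInf]
    refine Submodule.mem_sInf.2 fun P ⟨hP, hPp⟩ => ?_
    obtain ⟨i, hi⟩ := c.exists_ker_le P hPp
      ((Ideal.span_singleton_le_iff_mem (I := P)).1 hP)
    refine hi ?_
    obtain ⟨h, hh⟩ := hc i ⟨r, hr⟩
    rw [RingHom.mem_ker, ← hh, hker]
    exact hlt i
  obtain ⟨m, hm⟩ := hmem
  obtain ⟨b, hb⟩ := Ideal.mem_span_singleton'.1 hm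
  refine ⟨m, b, b.2, ?_⟩
  have h := congrArg Subtype.val hb.symm
  rw [SubmonoidClass.coe_pow, MulMemClass.coe_mul, mul_comm] at h
  exact h

variable [IsAlgClosed k] [FF.IsFF k E]

theorem cover_of_restricts (hc : Restricts c v red) (hσ : Transcendental k σ)
    (m : Ideal (intCl W ({s} : Set F))) (hm : m.IsMaximal)
    (hπ : algebraMap W (intCl W ({s} : Set F)) π ∈ m) :
    ∃ (i : ι) (w : Place k E),
      (∀ hs : s ∈ (v i).valuationSubring, 0 ≤ w.ord (red i ⟨s, hs⟩)) ∧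
      ∀ (r : intCl W ({s} : Set F)) (hr : (r : F) ∈ (v i).valuationSubring),
      r ∈ m ↔ (red i ⟨r, hr⟩ = 0 ∨ 0 < w.ord (red i ⟨r, hr⟩)) := by
  obtain ⟨i, hi⟩ := c.exists_ker_le m hm.isPrime hπ
  let φ : intCl W ({s} : Set F) →+* c.C := (c.comp i).codRestrict c.C.toSubring (c.comp_mem i)
  have hsurj : Function.Surjective φ := fun x =>
    let ⟨a, ha⟩ := c.exists_comp_eq i x.2
    ⟨a, Subtype.ext ha⟩
  have hkφ : RingHom.ker φ ≤ m := fun a ha => hi (congrArg Subtype.val (RingHom.mem_ker.1 ha))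
  have hQ : (m.map φ).IsMaximal := by
    refine (Ideal.map_eq_top_or_isMaximal_of_surjective φ hsurj hm).resolve_left fun h => ?_
    have := Ideal.comap_map_of_surjective φ hsurj m
    rw [h, Ideal.comap_top] at this
    exact hm.ne_top (top_le_iff.1 (this.le.trans (sup_le le_rfl hkφ)))
  obtain ⟨w, hw, hwQ⟩ := c.exists_place_of_isMaximal hσ hQ
  refine ⟨i, w, fun hs => ?_, fun r hr => ?_⟩
  · obtain ⟨h, hh⟩ := hc i ⟨s, subset_intCl _ rfl⟩
    rw [show red i ⟨s, hs⟩ = _ from hh]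
    exact (c.ord_comp_s_nonneg_iff i w).2 hw
  · obtain ⟨h, hh⟩ := hc i r
    rw [show red i ⟨r, hr⟩ = c.comp i r from hh]
    refine Iff.trans ?_ (hwQ (φ r))
    have hcm : (m.map φ).comap φ = m := by
      rw [Ideal.comap_map_of_surjective φ hsurj m, sup_eq_left]
      exact hkφ
    conv_lhs => rw [← hcm]
    exact Ideal.mem_comap

theorem smooth_of_restricts (hc : Restricts c v red) (i : ι) (w : Place k E)
    (hw : 0 ≤ w.ord σ) (a : E) (ha : 0 ≤ w.ord a) :
    ∃ (r b : F) (_ : r ∈ intCl W {s}) (_ : b ∈ intCl W {s})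
      (hr : r ∈ (v i).valuationSubring) (hb : b ∈ (v i).valuationSubring),
      red i ⟨r, hr⟩ ≠ 0 ∧ w.ord (red i ⟨r, hr⟩) = 0 ∧
        a * red i ⟨r, hr⟩ = red i ⟨b, hb⟩ := by
  obtain ⟨d, hd, hd0, hdw, had⟩ := c.exists_unit_mul_mem hw ha
  obtain ⟨r, rfl⟩ := c.exists_comp_eq i hd
  obtain ⟨b, hb⟩ := c.exists_comp_eq i had
  obtain ⟨h1, e1⟩ := hc i r
  obtain ⟨h2, e2⟩ := hc i b
  exact ⟨r, b, r.2, b.2, h1, h2, e1 ▸ hd0, e1 ▸ hdw, by rw [e1, e2, hb]⟩

theorem separated_of_restricts (hc : Restricts c v red)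
    (hker : ∀ i (x : (v i).valuationSubring), red i x = 0 ↔ v i (x : F) < 1) (i : ι)
    {w : Place k E} (hw : 0 ≤ w.ord σ) (hcw : ¬ c.Cross w) (j : ι) (hji : j ≠ i) :
    ∃ (r : F) (_ : r ∈ intCl W {s}) (hi : r ∈ (v i).valuationSubring),
      v j r < 1 ∧ red i ⟨r, hi⟩ ≠ 0 ∧ w.ord (red i ⟨r, hi⟩) = 0 := by
  obtain ⟨r, hrj, hri, hrv⟩ := c.separated i w hw hcw j hji
  obtain ⟨h1, e1⟩ := hc i r
  obtain ⟨h2, e2⟩ := hc j r
  exact ⟨r, r.2, h1, (hker j ⟨_, h2⟩).1 (e2.trans hrj), e1 ▸ hri, e1 ▸ hrv⟩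

theorem principal_of_restricts (hc : Restricts c v red)
    (hker : ∀ i (x : (v i).valuationSubring), red i x = 0 ↔ v i (x : F) < 1) (i : ι)
    {w : Place k E} (hw : 0 ≤ w.ord σ) :
    ∃ h ∈ intCl W {s}, h ≠ 0 ∧ v i h < 1 ∧
      (∀ r ∈ intCl W {s}, v i r < 1 →
        ∃ (u : F) (_ : u ∈ intCl W {s}) (hu : u ∈ (v i).valuationSubring),
          red i ⟨u, hu⟩ ≠ 0 ∧ w.ord (red i ⟨u, hu⟩) = 0 ∧ u * r * h⁻¹ ∈ intCl W {s}) ∧
      (c.Cross w → ∀ j, j ≠ i → ∀ hj : h ∈ (v j).valuationSubring,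
        red j ⟨h, hj⟩ ≠ 0 ∧ w.ord (red j ⟨h, hj⟩) = 1) := by
  obtain ⟨g, hg0, hgi, hgen, -, htr⟩ := c.principal i w hw
  obtain ⟨h1, e1⟩ := hc i g
  have hg0' : (g : F) ≠ 0 := fun h => hg0 (Subtype.ext h)
  refine ⟨g, g.2, hg0', (hker i ⟨_, h1⟩).1 (e1.trans hgi), fun r hr hlt => ?_, ?_⟩
  · obtain ⟨hr1, er⟩ := hc i ⟨r, hr⟩
    obtain ⟨u, b, hu, huw, hub⟩ := hgen ⟨r, hr⟩ (er ▸ (hker i ⟨_, hr1⟩).2 hlt)
    obtain ⟨hu1, eu⟩ := hc i u
    refine ⟨u, u.2, hu1, eu ▸ hu, eu ▸ huw, ?_⟩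
    have h2 : (u : F) * r = (b : F) * (g : F) := congrArg Subtype.val hub
    rw [h2, mul_inv_cancel_right₀ hg0']
    exact b.2
  · intro hcw j hji hj
    obtain ⟨h2, e2⟩ := hc j g
    have h3 := htr hcw j hji
    rw [← e2] at h3
    exact h3

end Compare

variable [IsAlgClosed k] [FF.IsFF k E]

/-- The two-chart model of two compatible charts. -/
theorem exists_model [Nontrivial ι] (c₀ : Chart W res π t sbar e)
    (c₁ : Chart W res π t⁻¹ sbar⁻¹ e) (hcomp : Compatible c₀ c₁)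
    [IsNoetherianRing (intCl W ({t} : Set F))] [IsFractionRing (intCl W ({t} : Set F)) F]
    (ht : t ≠ 0) (hsbar : Transcendental k sbar) (he : ∀ i, 0 < e i)
    (halg : ∀ s ∈ ({t, t⁻¹} : Set F), Algebra.IsAlgebraic (Algebra.adjoin W ({s} : Set F)) F)
    (hfin : ∀ s ∈ ({t, t⁻¹} : Set F), Module.Finite (Algebra.adjoin W ({s} : Set F))
      (integralClosure (Algebra.adjoin W ({s} : Set F)) F))
    (hres : Function.Surjective res) (hres0 : ∀ w : W, res w = 0 ↔ π ∣ w) :
    ∃ M : Model W k res F π t ι (fun _ => E) {w : Place k E // c₀.Cross w}, M.e = e := by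
  classical
  choose v hle hlt hnorm hpi hfrac using fun i => c₀.exists_val hsbar i
  have hsbar0 : sbar ≠ 0 := fun h => hsbar (h ▸ isAlgebraic_zero)
  -- reduction on a component
  have hmem : ∀ i (a : intCl W ({t} : Set F)), (a : F) ∈ (v i).valuationSubring := fun i a =>
    (Valuation.mem_valuationSubring_iff _ _).2 (hle i a)
  have hex : ∀ i (x : (v i).valuationSubring), ∃ y : E, ∀ a b : intCl W ({t} : Set F),
      (x : F) * (b : F) = a → y * c₀.comp i b = c₀.comp i a := by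
    intro i x
    obtain ⟨a₀, b₀, hb₀, hab₀⟩ := hfrac i x ((Valuation.mem_valuationSubring_iff _ _).1 x.2)
    refine ⟨c₀.comp i a₀ / c₀.comp i b₀, fun a b hab => ?_⟩
    have h : a₀ * b = a * b₀ := Subtype.ext (by
      show (a₀ : F) * b = a * b₀
      rw [← hab, ← hab₀]; ring)
    rw [div_mul_eq_mul_div, div_eq_iff hb₀, ← map_mul, ← map_mul, h]
  choose redf hredf using hex
  have hone : ∀ i, c₀.comp i (1 : intCl W ({t} : Set F)) = 1 := fun i => map_one _
  have huniq : ∀ i (x : (v i).valuationSubring) (y : E) (a b : intCl W ({t} : Set F)),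
      c₀.comp i b ≠ 0 → (x : F) * (b : F) = a → y * c₀.comp i b = c₀.comp i a → redf i x = y :=
    fun i x y a b hb hab h => mul_right_cancel₀ hb ((hredf i x a b hab).trans h.symm)
  have hpair : ∀ i (x y : (v i).valuationSubring), ∃ a a' b b' : intCl W ({t} : Set F),
      c₀.comp i b ≠ 0 ∧ c₀.comp i b' ≠ 0 ∧ (x : F) * (b : F) = a ∧ (y : F) * (b' : F) = a' := by
    intro i x y
    obtain ⟨a, b, hb, hab⟩ := hfrac i x ((Valuation.mem_valuationSubring_iff _ _).1 x.2)
    obtain ⟨a', b', hb', hab'⟩ := hfrac i y ((Valuation.mem_valuationSubring_iff _ _).1 y.2)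
    exact ⟨a, a', b, b', hb, hb', hab, hab'⟩
  let red : ∀ i, (v i).valuationSubring →+* E := fun i =>
    { toFun := redf i
      map_one' := huniq i 1 1 1 1 (by rw [hone]; exact one_ne_zero) (by simp) (by simp)
      map_zero' := huniq i 0 0 0 1 (by rw [hone]; exact one_ne_zero) (by simp) (by simp)
      map_mul' := by
        intro x y
        obtain ⟨a, a', b, b', hb, hb', hab, hab'⟩ := hpair i x y
        refine huniq i (x * y) _ (a * a') (b * b') (by rw [map_mul]; exact mul_ne_zero hb hb')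
          (by show ((x : F) * y) * ((b : F) * b') = (a : F) * a'; rw [← hab, ← hab']; ring) ?_
        rw [map_mul, map_mul, ← hredf i x a b hab, ← hredf i y a' b' hab']
        ring
      map_add' := by
        intro x y
        obtain ⟨a, a', b, b', hb, hb', hab, hab'⟩ := hpair i x y
        refine huniq i (x + y) _ (a * b' + a' * b) (b * b')
          (by rw [map_mul]; exact mul_ne_zero hb hb')
          (by show ((x : F) + y) * ((b : F) * b') = (a : F) * b' + (a' : F) * b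
              rw [← hab, ← hab']; ring) ?_
        rw [map_mul, map_add, map_mul, map_mul, ← hredf i x a b hab, ← hredf i y a' b' hab']
        ring }
  have hc₀ : Restricts c₀ v red := fun i a => ⟨hmem i a,
    huniq i ⟨_, hmem i a⟩ _ a 1 (by rw [hone]; exact one_ne_zero) (by simp) (by simp)⟩
  have hker : ∀ i (x : (v i).valuationSubring), red i x = 0 ↔ v i (x : F) < 1 := by
    intro i x
    obtain ⟨a, b, hb, hab⟩ := hfrac i x ((Valuation.mem_valuationSubring_iff _ _).1 x.2)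
    have hvb : v i (b : F) = 1 :=
      le_antisymm (hle i b) (not_lt.1 fun h => hb ((hlt i b).1 h))
    show redf i x = 0 ↔ _
    rw [show v i (x : F) = v i (a : F) by rw [← hab, map_mul, hvb, mul_one], hlt i a,
      ← hredf i x a b hab, mul_eq_zero, or_iff_left hb]
  have hvt : ∀ i, v i t = 1 := by
    intro i
    exact le_antisymm (hle i ⟨t, subset_intCl _ rfl⟩) (not_lt.1 fun h => (c₀.comp_s i).1
      ((hlt i ⟨t, subset_intCl _ rfl⟩).1 h))
  have hred_t : ∀ i (h : t ∈ (v i).valuationSubring),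
      red i ⟨t, h⟩ = c₀.comp i ⟨t, subset_intCl _ rfl⟩ := fun i h => by
    obtain ⟨h', e'⟩ := hc₀ i ⟨t, subset_intCl _ rfl⟩
    exact e'
  have hc₁ : Restricts c₁ v red := by
    intro i a
    obtain ⟨m, hm⟩ := exists_pow_mul_mem ht (intCl_le_pair_right t a.2)
    have h1 : v i (t ^ m * (a : F)) ≤ 1 := hle i ⟨_, hm⟩
    rw [map_mul, map_pow, hvt, one_pow, one_mul] at h1
    have ha := (Valuation.mem_valuationSubring_iff _ _).2 h1
    refine ⟨ha, mul_right_cancel₀ (pow_ne_zero m (c₀.comp_s i).1) ?_⟩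
    have ht' : t ∈ (v i).valuationSubring := (Valuation.mem_valuationSubring_iff _ _).2 (hvt i).le
    obtain ⟨h2, e2⟩ := hc₀ i ⟨_, hm⟩
    rw [hcomp i ⟨_, hm⟩ a m (mul_comm _ _), ← e2, ← hred_t i ht', ← map_pow, ← map_mul]
    exact congrArg (red i) (Subtype.ext (mul_comm _ _))
  have hred_ti : ∀ i (h : t⁻¹ ∈ (v i).valuationSubring),
      red i ⟨t⁻¹, h⟩ = c₁.comp i ⟨t⁻¹, subset_intCl _ rfl⟩ := fun i h => by
    obtain ⟨h', e'⟩ := hc₁ i ⟨t⁻¹, subset_intCl _ rfl⟩
    exact e'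
  have hsbar1 : Transcendental k sbar⁻¹ := fun h => hsbar (inv_inv sbar ▸ h.inv)
  have hX : ∀ w, c₁.Cross w ↔ c₀.Cross w := fun w =>
    ⟨fun h => cross_transfer (inv_inv t).symm (inv_ne_zero ht) hc₁ hc₀ h
      (inv_inv sbar).symm,
      fun h => cross_transfer rfl ht hc₀ hc₁ h rfl⟩
  refine ⟨{
    t_ne_zero := ht
    alg := halg
    fin := hfin
    res_surjective := hres
    res_eq_zero := hres0
    val := v
    red := red
    red_surjective := fun i a => ?_
    red_eq_zero := hker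
    red_const := fun i w h => ?_
    e := e
    e_pos := he
    val_pi := hpi
    val_norm := fun i => ⟨_, (hnorm i).choose_spec⟩
    val_base := fun i w => hle i (algebraMap W (intCl W ({t} : Set F)) w)
    val_t := hvt
    radical := ?_
    pt := fun x _ => x.1
    pt_injective := fun i => Subtype.val_injective
    ord_pt := fun x i h => by
      rw [hred_t]; exact c₀.ord_comp_s_eq_zero i (c₀.ord_cross x.1 x.2)
    pt_center := ?_
    cover := ?_
    separated := ?_
    smooth := ?_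
    principal := ?_ }, rfl⟩
  · haveI := c₀.fraction
    obtain ⟨⟨n, d⟩, hnd⟩ := IsLocalization.surj (nonZeroDivisors c₀.C) a
    obtain ⟨a', ha'⟩ := c₀.exists_comp_eq i n.2
    obtain ⟨b', hb'⟩ := c₀.exists_comp_eq i (d : c₀.C).2
    have hb0 : c₀.comp i b' ≠ 0 := by
      rw [hb']
      exact fun h => nonZeroDivisors.coe_ne_zero d (Subtype.ext h)
    have hvb : v i (b' : F) = 1 :=
      le_antisymm (hle i b') (not_lt.1 fun h => hb0 ((hlt i b').1 h))
    have hx : (a' : F) * (b' : F)⁻¹ ∈ (v i).valuationSubring := by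
      rw [Valuation.mem_valuationSubring_iff, map_mul, map_inv₀, hvb, inv_one, mul_one]
      exact hle i a'
    refine ⟨⟨_, hx⟩, huniq i ⟨_, hx⟩ a a' b' hb0 ?_ ?_⟩
    · have : (b' : F) ≠ 0 := fun h => by rw [h, map_zero] at hvb; exact zero_ne_one hvb
      show (a' : F) * (b' : F)⁻¹ * (b' : F) = a'
      rw [inv_mul_cancel_right₀ this]
    · rw [ha', hb']
      exact hnd
  · obtain ⟨h', e'⟩ := hc₀ i (algebraMap W (intCl W ({t} : Set F)) w)
    exact e'.trans (c₀.comp_const i w)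
  all_goals intro s hs; rcases hs with hs | hs <;> subst hs
  · exact fun r hr h => radical_of_restricts hc₀ hker hr h
  · exact fun r hr h => radical_of_restricts hc₁ hker hr h
  · intro r hr x i j hi hj h
    obtain ⟨h1, e1⟩ := hc₀ i ⟨r, hr⟩
    obtain ⟨h2, e2⟩ := hc₀ j ⟨r, hr⟩
    rw [show red j ⟨r, hj⟩ = _ from e2]
    rw [show red i ⟨r, hi⟩ = _ from e1] at h
    exact c₀.cross_same x.1 x.2 i j ⟨r, hr⟩ h
  · intro r hr x i j hi hj h
    obtain ⟨h1, e1⟩ := hc₁ i ⟨r, hr⟩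
    obtain ⟨h2, e2⟩ := hc₁ j ⟨r, hr⟩
    rw [show red j ⟨r, hj⟩ = _ from e2]
    rw [show red i ⟨r, hi⟩ = _ from e1] at h
    exact c₁.cross_same x.1 ((hX x.1).2 x.2) i j ⟨r, hr⟩ h
  · exact fun m hm hπ => cover_of_restricts hc₀ hsbar m hm hπ
  · exact fun m hm hπ => cover_of_restricts hc₁ hsbar1 m hm hπ
  · intro i w hw hx j hji
    refine separated_of_restricts hc₀ hker i ?_ (fun h => hx ⟨w, h⟩ rfl) j hji
    have h1 := hw (hmem i ⟨_, subset_intCl _ rfl⟩)
    rw [hred_t] at h1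
    exact (c₀.ord_comp_s_nonneg_iff i w).1 h1
  · intro i w hw hx j hji
    refine separated_of_restricts hc₁ hker i ?_ (fun h => hx ⟨w, (hX w).1 h⟩ rfl) j hji
    obtain ⟨h', e'⟩ := hc₁ i ⟨t⁻¹, subset_intCl _ rfl⟩
    have h1 := hw h'
    rw [hred_ti] at h1
    exact (c₁.ord_comp_s_nonneg_iff i w).1 h1
  · intro i w hw a ha
    have h1 := hw (hmem i ⟨_, subset_intCl _ rfl⟩)
    rw [hred_t] at h1
    exact smooth_of_restricts hc₀ i w ((c₀.ord_comp_s_nonneg_iff i w).1 h1) a ha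
  · intro i w hw a ha
    obtain ⟨h', e'⟩ := hc₁ i ⟨t⁻¹, subset_intCl _ rfl⟩
    have h1 := hw h'
    rw [hred_ti] at h1
    exact smooth_of_restricts hc₁ i w ((c₁.ord_comp_s_nonneg_iff i w).1 h1) a ha
  · intro i w hw
    have h1 := hw (hmem i ⟨_, subset_intCl _ rfl⟩)
    rw [hred_t] at h1
    obtain ⟨g, hg, hg0, hlt', hgen, htr⟩ := principal_of_restricts hc₀ hker i
      (w := w) ((c₀.ord_comp_s_nonneg_iff i w).1 h1)
    refine ⟨g, hg, hg0, hlt', hgen, fun x hx j hji hj => ?_⟩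
    subst hx
    exact htr x.2 j hji hj
  · intro i w hw
    obtain ⟨h', e'⟩ := hc₁ i ⟨t⁻¹, subset_intCl _ rfl⟩
    have h1 := hw h'
    rw [hred_ti] at h1
    obtain ⟨g, hg, hg0, hlt', hgen, htr⟩ := principal_of_restricts hc₁ hker i
      (w := w) ((c₁.ord_comp_s_nonneg_iff i w).1 h1)
    refine ⟨g, hg, hg0, hlt', hgen, fun x hx j hji hj => ?_⟩
    subst hx
    exact htr ((hX x.1).2 x.2) j hji hj

end FLTAgent.TwoChart
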