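import Fermat.Agent.TwoChart.CompatTwo
import Fermat.Agent.TwoChart.FromCharts
import Fermat.Agent.BadQ.TwoModel

/-!
# The two-chart model of level `q²M`

`exists_model_of_pair`: two tied charts of level `q²M` (`Tie`) with inverse coordinates give a
`Model` with three components, multiplicities `mult q`, all copies of the level `M` fibre, whose
crossings are the places over the crossings of the first chart (`CrossAt`). It combines
`compatible_comp`, `exists_chart_of_modelTwo` and `exists_model`.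
-/

set_option autoImplicit false
set_option linter.unusedSectionVars false
set_option linter.style.haveILetI false

noncomputable section

open AlgebraicCurve

namespace FLTAgent.TwoChart

open BadQ.Two

/-- A place of the level `M` fibre lies over a crossing of the chart. -/
def CrossAt {q : ℕ} {W A₀ A₁ F₁ : Type} [CommRing W] [CommRing A₀] [CommRing A₁] [Field F₁]
    [Algebra W A₀] [Algebra W A₁] [Algebra W F₁] [Algebra A₁ F₁] {k : Type} [Field k] {E : Type}
    [Field E] [Algebra k E] {Cs : Subalgebra k E} [Algebra W Cs]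
    (h : StepData q W A₀ A₁ Cs F₁) (sbar : E) (v : Place k E) : Prop :=
  0 ≤ v.ord sbar ∧ ∃ Q : Ideal Cs, Q.IsMaximal ∧ h.Crossing Q ∧
    ∀ x : Cs, x ∈ Q ↔ ((x : E) = 0 ∨ 0 < v.ord (x : E))

variable {q : ℕ} {W : Type} [CommRing W] [IsNoetherianRing W] {k : Type} [Field k] [IsAlgClosed k]
  {res : W →+* k} {E : Type} [Field E] [Algebra k E] [FF.IsFF k E] {sbar sbar' : E}
  {F₀ F₁ F : Type} [Field F₀] [Field F₁] [Field F] [Algebra W F₀] [Algebra W F₁] [Algebra W F]
  {u₀ u₀' : F₀} {u u' : F₁} {t t' : F} {Cs Cs' : Subalgebra k E} [Algebra W Cs] [Algebra W Cs']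
  [IsDedekindDomain Cs] [IsDedekindDomain Cs'] [IsFractionRing Cs E] [IsFractionRing Cs' E]
  [IsFractionRing (intCl W ({u} : Set F₁)) F₁] [IsFractionRing (intCl W ({u'} : Set F₁)) F₁]
  [IsIntegrallyClosed (intCl W ({u} : Set F₁))] [IsIntegrallyClosed (intCl W ({u'} : Set F₁))]
  [IsIntegrallyClosed (intCl W ({t} : Set F))] [IsIntegrallyClosed (intCl W ({t'} : Set F))]
  [Algebra.FiniteType W (intCl W ({u₀} : Set F₀))]
  [Algebra.FiniteType W (intCl W ({u₀'} : Set F₀))]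
  [IsNoetherianRing (intCl W ({t} : Set F))] [IsFractionRing (intCl W ({t} : Set F)) F]
  {h : StepData q W (intCl W ({u₀} : Set F₀)) (intCl W ({u} : Set F₁)) Cs F₁}
  {h' : StepData q W (intCl W ({u₀'} : Set F₀)) (intCl W ({u'} : Set F₁)) Cs' F₁}
  {td : TowerData h (intCl W ({t} : Set F))} {td' : TowerData h' (intCl W ({t'} : Set F))}
  {Al Be : F₀ →ₐ[W] F₁} {wAL : F₁ →+* F₁} {L R : F₁ →ₐ[W] F} {VI : Subring F₁} {redI : VI →+* E}

/-- The model of level `q²M` from its two charts. -/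
theorem exists_model_of_pair
    (T : Tie (res := res) td Al Be wAL L R VI redI)
    (T' : Tie (res := res) td' Al Be wAL L R VI redI)
    (hu₀' : u₀' = u₀⁻¹) (hu' : u' = u⁻¹) (ht' : t' = t⁻¹) (hsb' : sbar' = sbar⁻¹)
    (hs1 : Al u₀ = u) (hs : L u = t) (hu₀ : u₀ ≠ 0) (hsbar : Transcendental k sbar)
    (hred : ∀ hm : u ∈ VI, redI ⟨u, hm⟩ = sbar)
    (hredBe : ∀ hm : Be u₀ ∈ VI, redI ⟨Be u₀, hm⟩ = sbar ^ q)
    (hint : ∀ c ∈ Cs, IsIntegral (Algebra.adjoin k ({sbar} : Set E)) c)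
    (hint' : ∀ c ∈ Cs', IsIntegral (Algebra.adjoin k ({sbar'} : Set E)) c)
    (hCs' : ∀ y : E, IsIntegral (Algebra.adjoin k ({sbar'} : Set E)) y → y ∈ Cs')
    (hsC : sbar ∈ Cs) (hsC' : sbar' ∈ Cs') (hqF : (q : F) ≠ 0)
    (hcross : ∀ Q : Ideal Cs, Q.IsMaximal → h.Crossing Q → (⟨sbar, hsC⟩ : Cs) ∉ Q)
    (hcross' : ∀ Q : Ideal Cs', Q.IsMaximal → h'.Crossing Q → (⟨sbar', hsC'⟩ : Cs') ∉ Q)
    (halg : ∀ s ∈ ({t, t'} : Set F), Algebra.IsAlgebraic (Algebra.adjoin W ({s} : Set F)) F)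
    (hfin : ∀ s ∈ ({t, t'} : Set F), Module.Finite (Algebra.adjoin W ({s} : Set F))
      (integralClosure (Algebra.adjoin W ({s} : Set F)) F))
    (hres : Function.Surjective res) (hres0 : ∀ w : W, res w = 0 ↔ (q : W) ∣ w) :
    ∃ M : Model W k res F (q : W) t (Fin 3) (fun _ => E) {v : Place k E // CrossAt h sbar v},
      M.e = mult q := by
  subst hu₀' hu' ht' hsb'
  obtain ⟨m⟩ := nonempty_modelTwo td
  obtain ⟨m'⟩ := nonempty_modelTwo td'
  have hsb0 : sbar ≠ 0 := fun h0 => hsbar (h0 ▸ isAlgebraic_zero)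
  have hq0 : 0 < q := h.prime.pos
  have hcomp : ∀ i, (m.comp i ⟨t, subset_intCl _ rfl⟩ : E) = sbar ^ dexp q i :=
    T.comp_coord m hs1 hs hred hredBe
  have ht : t ≠ 0 := fun h0 => by
    have h1 := hcomp 0
    have : (⟨t, subset_intCl _ rfl⟩ : intCl W ({t} : Set F)) = 0 := Subtype.ext h0
    rw [this, map_zero] at h1
    exact pow_ne_zero _ hsb0 h1.symm
  have hcompat : ∀ (i : Fin 3) (a : intCl W ({t} : Set F)) (a' : intCl W ({t⁻¹} : Set F)) (n : ℕ),
      (a' : F) * t ^ n = (a : F) →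
        (m'.comp i a' : E) * (m.comp i ⟨t, subset_intCl _ rfl⟩ : E) ^ n = (m.comp i a : E) :=
    compatible_comp T T' m m' hs1 hs hu₀ hsb0 hred hredBe hCs'
  -- the coordinate of the second chart
  have hcomp' : ∀ i, (m'.comp i ⟨t⁻¹, subset_intCl _ rfl⟩ : E) = sbar⁻¹ ^ dexp q i := by
    intro i
    have h1 := hcompat i 1 ⟨t⁻¹, subset_intCl _ rfl⟩ 1
      (by rw [pow_one]; exact inv_mul_cancel₀ ht)
    rw [map_one, pow_one, hcomp] at h1
    rw [inv_pow, ← eq_inv_of_mul_eq_one_left h1]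
  have hord : ∀ (σ : E) (i : Fin 3), σ ≠ 0 → σ ^ dexp q i ≠ 0 ∧ ∃ d : ℕ, 0 < d ∧
      ∀ v : Place k E, v.ord (σ ^ dexp q i) = (d : ℤ) * v.ord σ := fun σ i hσ =>
    ⟨pow_ne_zero _ hσ, dexp q i, dexp_pos hq0 i, fun v => FF.ord_pow v σ _⟩
  obtain ⟨c₀, hc₀, hX₀⟩ := exists_chart_of_modelTwo (res := res) Cs T.algebraMap_fibre hint hsC m hqF
    (fun i => by rw [hcomp i]; exact hord _ i hsb0) hcross
  obtain ⟨c₁, hc₁, -⟩ := exists_chart_of_modelTwo (res := res) Cs' T'.algebraMap_fibre hint' hsC' m'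
    hqF (fun i => by rw [hcomp' i]; exact hord _ i (inv_ne_zero hsb0)) hcross'
  have hC : Compatible c₀ c₁ := fun i a a' n ha => by
    rw [hc₀, hc₀, hc₁]; exact hcompat i a a' n ha
  have hmult : ∀ i, 0 < mult q i := by
    intro i
    have := h.prime.two_le
    fin_cases i <;> simp [mult] <;> omega
  have hM := exists_model c₀ c₁ hC ht hsbar hmult halg hfin hres hres0
  have hX : c₀.Cross = CrossAt h sbar := funext fun v => propext (hX₀ v)
  rw [hX] at hM
  exact hM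

end FLTAgent.TwoChart
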