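import Fermat.Agent.TwoChart.OfModelTwo
import Fermat.Agent.BadQ.TwoStep

/-!
# Compatibility of the two charts at level `q²M`

`Tie` links the abstract data of one chart (`StepData`, `TowerData`) to the function fields and
to the reduction of expansions. For two tied charts, with coordinates inverse to each other,
`compatible_comp` shows that the restrictions to the three components agree on the overlap, and
`Tie.comp_coord` computes the coordinate on each component as `sbar ^ dexp q i` (exponents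
`1, 1, q ^ 2`). Proof: the component maps are determined by their values on the images of the
level `qM` chart, where compatibility follows from that of the reductions of expansions.
-/

set_option autoImplicit false
set_option linter.unusedSectionVars false
set_option linter.style.haveILetI false
set_option maxHeartbeats 400000

noncomputable section

open AlgebraicCurve

namespace FLTAgent.TwoChart

open BadQ.Two

variable {q : ℕ} {W : Type} [CommRing W] {k : Type} [Field k] {res : W →+* k}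
  {E : Type} [Field E] [Algebra k E] {sbar : E}
  {F₀ F₁ F : Type} [Field F₀] [Field F₁] [Field F] [Algebra W F₀] [Algebra W F₁] [Algebra W F]

/-- The data tying one chart to the function fields and to the reduction of expansions. -/
structure Tie {s₀ : F₀} {s₁ : F₁} {s : F} {Cs : Subalgebra k E} [Algebra W Cs]
    {h : StepData q W (intCl W ({s₀} : Set F₀)) (intCl W ({s₁} : Set F₁)) Cs F₁}
    (td : TowerData h (intCl W ({s} : Set F))) (Al Be : F₀ →ₐ[W] F₁) (wAL : F₁ →+* F₁)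
    (L R : F₁ →ₐ[W] F) (VI : Subring F₁) (redI : VI →+* E) : Prop where
  algebraMap_fibre : ∀ w : W, ((algebraMap W Cs w : Cs) : E) = algebraMap k E (res w)
  alpha : ∀ a, (h.α a : F₁) = Al a
  beta : ∀ a, (h.β a : F₁) = Be a
  iota : ∀ a, (h.ι a : F₁) = wAL a
  lam : ∀ a, (td.lam a : F) = L a
  rho : ∀ a, (td.rho a : F) = R a
  piInf : ∀ a : intCl W ({s₁} : Set F₁), ∃ hm : (a : F₁) ∈ VI, (h.piInf a : E) = redI ⟨_, hm⟩

/-- The exponents of the coordinate on the three components. -/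
def dexp (q : ℕ) : Fin 3 → ℕ := ![1, 1, q ^ 2]

theorem dexp_pos {q : ℕ} (hq : 0 < q) (i : Fin 3) : 0 < dexp q i := by
  fin_cases i <;> simp [dexp]
  positivity

theorem redI_pow_mul {F₁ E : Type} [Field F₁] [Field E] {VI : Subring F₁} (redI : VI →+* E)
    {x y z : F₁} (hx : x ∈ VI) (hy : y ∈ VI) (hz : z ∈ VI) (n : ℕ) (e : x = y ^ n * z) :
    redI ⟨x, hx⟩ = redI ⟨y, hy⟩ ^ n * redI ⟨z, hz⟩ := by
  rw [← map_pow, ← map_mul]
  exact congrArg redI (Subtype.ext e)

section Values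

variable {s₀ : F₀} {s₁ : F₁} {s : F} {Cs : Subalgebra k E} [Algebra W Cs]
  {h : StepData q W (intCl W ({s₀} : Set F₀)) (intCl W ({s₁} : Set F₁)) Cs F₁}
  {td : TowerData h (intCl W ({s} : Set F))} {Al Be : F₀ →ₐ[W] F₁} {wAL : F₁ →+* F₁}
  {L R : F₁ →ₐ[W] F} {VI : Subring F₁} {redI : VI →+* E} (T : Tie (res := res) td Al Be wAL L R VI redI)

include T

theorem Tie.red_eq (a : intCl W ({s₀} : Set F₀)) :
    ∃ hm : Al a ∈ VI, (h.red a : E) = redI ⟨_, hm⟩ := by
  obtain ⟨hm, e⟩ := T.piInf (h.α a)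
  refine ⟨T.alpha a ▸ hm, ?_⟩
  rw [← h.piInf_α a, e]
  congr 1
  exact Subtype.ext (T.alpha a)

theorem Tie.phi_red_eq (a : intCl W ({s₀} : Set F₀)) :
    ∃ hm : Be a ∈ VI, (h.φ (h.red a) : E) = redI ⟨_, hm⟩ := by
  obtain ⟨hm, e⟩ := T.piInf (h.β a)
  refine ⟨T.beta a ▸ hm, ?_⟩
  rw [← h.piInf_β a, e]
  congr 1
  exact Subtype.ext (T.beta a)

theorem Tie.piZero_eq (a : intCl W ({s₁} : Set F₁)) :
    ∃ hm : wAL a ∈ VI, (h.piZero a : E) = redI ⟨_, hm⟩ := by
  obtain ⟨hm, e⟩ := T.piInf (h.ι a)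
  refine ⟨T.iota a ▸ hm, ?_⟩
  rw [StepData.piZero, AlgHom.comp_apply]
  refine e.trans ?_
  congr 1
  exact Subtype.ext (T.iota a)

end Values

section Comp

variable {s₀ : F₀} {s₁ : F₁} {s : F} {Cs : Subalgebra k E} [Algebra W Cs]
  {h : StepData q W (intCl W ({s₀} : Set F₀)) (intCl W ({s₁} : Set F₁)) Cs F₁}
  {td : TowerData h (intCl W ({s} : Set F))} {Al Be : F₀ →ₐ[W] F₁} {wAL : F₁ →+* F₁}
  {L R : F₁ →ₐ[W] F} {VI : Subring F₁} {redI : VI →+* E} (T : Tie (res := res) td Al Be wAL L R VI redI)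
  (m : ModelTwo td) (hs1 : Al s₀ = s₁) (hs : L s₁ = s)
  (hred : ∀ hm : s₁ ∈ VI, redI ⟨s₁, hm⟩ = sbar)
  (hredBe : ∀ hm : Be s₀ ∈ VI, redI ⟨Be s₀, hm⟩ = sbar ^ q)

include T hs1 hred in
theorem Tie.red_coord : (h.red ⟨s₀, subset_intCl _ rfl⟩ : E) = sbar := by
  obtain ⟨hm, e⟩ := T.red_eq ⟨s₀, subset_intCl _ rfl⟩
  rw [e]
  convert hred (hs1 ▸ hm) using 3

include T hs1 hred hredBe in
theorem Tie.phi_sbar (c : Cs) (hc : (c : E) = sbar) : (h.φ c : E) = sbar ^ q := by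
  have : c = h.red ⟨s₀, subset_intCl _ rfl⟩ := Subtype.ext (hc.trans (T.red_coord hs1 hred).symm)
  obtain ⟨hm, e⟩ := T.phi_red_eq ⟨s₀, subset_intCl _ rfl⟩
  rw [this, e, hredBe hm]

include T hs1 hred hredBe in
theorem Tie.piInf_piZero_coord :
    (h.piInf ⟨s₁, subset_intCl _ rfl⟩ : E) = sbar ∧
      (h.piZero ⟨s₁, subset_intCl _ rfl⟩ : E) = sbar ^ q := by
  have hu : (⟨s₁, subset_intCl _ rfl⟩ : intCl W ({s₁} : Set F₁)) =
      h.α ⟨s₀, subset_intCl _ rfl⟩ := Subtype.ext ((T.alpha _).trans hs1).symm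
  constructor
  · rw [hu, h.piInf_α]; exact T.red_coord hs1 hred
  · have e : h.piZero (h.α ⟨s₀, subset_intCl _ rfl⟩) =
        h.φ (h.red ⟨s₀, subset_intCl _ rfl⟩) := by
      rw [StepData.piZero, AlgHom.comp_apply]
      exact (congrArg h.piInf (h.ι_α _)).trans (h.piInf_β _)
    rw [hu, e]; exact T.phi_sbar hs1 hred hredBe _ (T.red_coord hs1 hred)

include T hs1 hs hred hredBe in
/-- The coordinate on the components. -/
theorem Tie.comp_coord (i : Fin 3) :
    (m.comp i ⟨s, subset_intCl _ rfl⟩ : E) = sbar ^ dexp q i := by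
  obtain ⟨h1, h2⟩ := T.piInf_piZero_coord hs1 hred hredBe
  have hst : (⟨s, subset_intCl _ rfl⟩ : intCl W ({s} : Set F)) =
      td.lam ⟨s₁, subset_intCl _ rfl⟩ := Subtype.ext ((T.lam _).trans hs).symm
  rw [hst]
  fin_cases i
  · simp only [Fin.zero_eta, m.comp_lam_zero, h1, dexp, Matrix.cons_val_zero, pow_one]
  · simp only [Fin.mk_one, m.comp_lam_one, h1, dexp, Matrix.cons_val_one, Matrix.cons_val_zero,
      pow_one]
  · simp only [Fin.reduceFinMk, m.comp_lam_two, dexp, Matrix.cons_val]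
    have hφ1 : (h.φ ⟨sbar, h1 ▸ (h.piInf _).2⟩ : E) = sbar ^ q :=
      T.phi_sbar hs1 hred hredBe _ rfl
    have : h.piZero ⟨s₁, subset_intCl _ rfl⟩ = (⟨sbar, h1 ▸ (h.piInf _).2⟩ : Cs) ^ q :=
      Subtype.ext (by rw [h2, SubmonoidClass.coe_pow])
    rw [this, map_pow, SubmonoidClass.coe_pow, hφ1, ← pow_mul, sq]

end Comp

section Extend

/-- A homomorphism on the chart at `t` not killing `t` extends to the chart at `t⁻¹`. -/
theorem exists_extend {t : F} (ht : t ≠ 0) (φ : intCl W ({t} : Set F) →+* E)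
    {σ : E} (hσ : φ ⟨t, subset_intCl _ (Set.mem_singleton t)⟩ = σ) (hσ0 : σ ≠ 0) :
    ∃ f : intCl W ({t⁻¹} : Set F) →+* E, ∀ (x : intCl W ({t⁻¹} : Set F))
      (y : intCl W ({t} : Set F)) (M : ℕ), t ^ M * (x : F) = (y : F) → f x * σ ^ M = φ y := by
  have htC : t ∈ intCl W ({t} : Set F) := subset_intCl _ (Set.mem_singleton t)
  have hex : ∀ x : intCl W ({t⁻¹} : Set F), ∃ N, t ^ N * (x : F) ∈ intCl W ({t} : Set F) :=
    fun x => exists_pow_mul_mem ht (intCl_le_pair_right t x.2)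
  choose N hN using hex
  let f₀ : intCl W ({t⁻¹} : Set F) → E := fun x => φ ⟨_, hN x⟩ / σ ^ N x
  have hf₀ : ∀ (x : intCl W ({t⁻¹} : Set F)) (y : intCl W ({t} : Set F)) (M : ℕ),
      t ^ M * (x : F) = (y : F) → f₀ x * σ ^ M = φ y := by
    intro x y M hy
    have h1 : (⟨_, hN x⟩ : intCl W ({t} : Set F)) * ⟨t, htC⟩ ^ M = y * ⟨t, htC⟩ ^ N x := by
      refine Subtype.ext ?_
      simp only [Subalgebra.coe_mul, Subalgebra.coe_pow]
      rw [← hy]; ring
    have h2 := congrArg φ h1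
    rw [map_mul, map_mul, map_pow, map_pow, hσ] at h2
    simp only [f₀]
    rw [div_mul_eq_mul_div, h2, mul_div_assoc, div_self (pow_ne_zero _ hσ0), mul_one]
  have huniq : ∀ (x : intCl W ({t⁻¹} : Set F)) (z : E) (y : intCl W ({t} : Set F)) (M : ℕ),
      t ^ M * (x : F) = (y : F) → z * σ ^ M = φ y → f₀ x = z := fun x z y M h1 h2 =>
    mul_right_cancel₀ (pow_ne_zero M hσ0) ((hf₀ x y M h1).trans h2.symm)
  refine ⟨{ toFun := f₀, map_one' := ?_, map_zero' := ?_, map_mul' := ?_, map_add' := ?_ }, hf₀⟩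
  · exact huniq 1 1 1 0 (by simp) (by simp)
  · intro x y
    refine huniq _ _ (⟨_, hN x⟩ * ⟨_, hN y⟩) (N x + N y) ?_ ?_
    · simp only [Subalgebra.coe_mul]; ring
    · rw [map_mul, ← hf₀ x ⟨_, hN x⟩ _ rfl, ← hf₀ y ⟨_, hN y⟩ _ rfl]; ring
  · exact huniq 0 0 0 0 (by simp) (by simp)
  · intro x y
    refine huniq _ _ (⟨_, hN x⟩ * ⟨t, htC⟩ ^ N y + ⟨_, hN y⟩ * ⟨t, htC⟩ ^ N x) (N x + N y) ?_ ?_
    · simp only [Subalgebra.coe_add, Subalgebra.coe_mul, Subalgebra.coe_pow]; ring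
    · rw [map_add, map_mul, map_mul, map_pow, map_pow, hσ, ← hf₀ x ⟨_, hN x⟩ _ rfl,
        ← hf₀ y ⟨_, hN y⟩ _ rfl]
      ring

/-- The image of the chart at `t` is integral over the line. -/
theorem isIntegral_image {t : F} (f : intCl W ({t} : Set F) →+* E) {τ : E}
    (hfw : ∀ w : W, f (algebraMap W (intCl W ({t} : Set F)) w) = algebraMap k E (res w))
    (hft : f ⟨t, subset_intCl _ (Set.mem_singleton t)⟩ ∈ Algebra.adjoin k ({τ} : Set E))
    (x : intCl W ({t} : Set F)) : IsIntegral (Algebra.adjoin k ({τ} : Set E)) (f x) := by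
  have hgen : ∀ y (hy : y ∈ Algebra.adjoin W ({t} : Set F)),
      f ⟨y, adjoin_le_intCl _ hy⟩ ∈ Algebra.adjoin k ({τ} : Set E) := by
    intro y hy
    induction hy using Algebra.adjoin_induction with
    | mem y hy =>
      obtain rfl := Set.mem_singleton_iff.1 hy
      exact hft
    | algebraMap r =>
      have e : (⟨algebraMap W F r, adjoin_le_intCl _ (Subalgebra.algebraMap_mem _ r)⟩ :
          intCl W ({t} : Set F)) = algebraMap W _ r := rfl
      rw [e, hfw]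
      exact Subalgebra.algebraMap_mem _ _
    | add y z hy hz h1 h2 =>
      have e : (⟨y + z, adjoin_le_intCl _ (add_mem hy hz)⟩ : intCl W ({t} : Set F)) =
          ⟨y, adjoin_le_intCl _ hy⟩ + ⟨z, adjoin_le_intCl _ hz⟩ := rfl
      rw [e, map_add]
      exact add_mem h1 h2
    | mul y z hy hz h1 h2 =>
      have e : (⟨y * z, adjoin_le_intCl _ (mul_mem hy hz)⟩ : intCl W ({t} : Set F)) =
          ⟨y, adjoin_le_intCl _ hy⟩ * ⟨z, adjoin_le_intCl _ hz⟩ := rfl
      rw [e, map_mul]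
      exact mul_mem h1 h2
  obtain ⟨p, hp, hp0⟩ := x.2
  let incl : Algebra.adjoin W ({t} : Set F) →+* intCl W ({t} : Set F) :=
    (Subalgebra.inclusion (adjoin_le_intCl _)).toRingHom
  let g : Algebra.adjoin W ({t} : Set F) →+* Algebra.adjoin k ({τ} : Set E) :=
    (f.comp incl).codRestrict (Algebra.adjoin k ({τ} : Set E)).toSubring fun y => hgen y y.2
  refine ⟨p.map g, hp.map _, ?_⟩
  rw [Polynomial.eval₂_map]
  have hpx : Polynomial.eval₂ incl x p = 0 := by
    refine Subtype.ext ?_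
    show (intCl W ({t} : Set F)).val.toRingHom _ = 0
    rw [Polynomial.hom_eval₂]
    exact hp0
  have := congrArg f hpx
  rw [Polynomial.hom_eval₂, map_zero] at this
  exact this

end Extend

section Compat

variable {u₀ : F₀} {u : F₁} {t : F} {Cs Cs' : Subalgebra k E} [Algebra W Cs] [Algebra W Cs']
  {h : StepData q W (intCl W ({u₀} : Set F₀)) (intCl W ({u} : Set F₁)) Cs F₁}
  {h' : StepData q W (intCl W ({u₀⁻¹} : Set F₀)) (intCl W ({u⁻¹} : Set F₁)) Cs' F₁}
  {td : TowerData h (intCl W ({t} : Set F))} {td' : TowerData h' (intCl W ({t⁻¹} : Set F))}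
  {Al Be : F₀ →ₐ[W] F₁} {wAL : F₁ →+* F₁} {L R : F₁ →ₐ[W] F} {VI : Subring F₁} {redI : VI →+* E}
  (T : Tie (res := res) td Al Be wAL L R VI redI)
  (T' : Tie (res := res) td' Al Be wAL L R VI redI)
  (m : ModelTwo td) (m' : ModelTwo td') (hs1 : Al u₀ = u) (hs : L u = t) (hu₀ : u₀ ≠ 0)
  (hsbar : sbar ≠ 0)
  (hred : ∀ hm : u ∈ VI, redI ⟨u, hm⟩ = sbar)
  (hredBe : ∀ hm : Be u₀ ∈ VI, redI ⟨Be u₀, hm⟩ = sbar ^ q)

include T T' hs1 hu₀ hsbar hred hredBe in
/-- The maps `φ` of the two charts agree on the overlap. -/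
theorem phi_compat (c : Cs) (c' : Cs') (n : ℕ) (hc : (c' : E) * sbar ^ n = (c : E)) :
    (h'.φ c' : E) * sbar ^ (q * n) = (h.φ c : E) := by
  obtain ⟨a', rfl⟩ := h'.red_surjective c'
  obtain ⟨m₀, hm₀⟩ := exists_pow_mul_mem hu₀ (intCl_le_pair_right (W := W) u₀ a'.2)
  have hmem : u₀ ^ (n + m₀) * (a' : F₀) ∈ intCl W ({u₀} : Set F₀) := by
    rw [pow_add, mul_assoc]
    exact Subalgebra.mul_mem _
      (Subalgebra.pow_mem _ (subset_intCl (W := W) _ (Set.mem_singleton u₀)) n) hm₀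
  obtain ⟨a, ha⟩ : ∃ a : intCl W ({u₀} : Set F₀), (a : F₀) = u₀ ^ (n + m₀) * (a' : F₀) :=
    ⟨⟨_, hmem⟩, rfl⟩
  obtain ⟨hAl, eAl⟩ := T.red_eq a
  obtain ⟨hAl', eAl'⟩ := T'.red_eq a'
  obtain ⟨hBe, eBe⟩ := T.phi_red_eq a
  obtain ⟨hBe', eBe'⟩ := T'.phi_red_eq a'
  obtain ⟨hu₁, -⟩ := T.red_eq ⟨u₀, subset_intCl _ rfl⟩
  obtain ⟨hBu, -⟩ := T.phi_red_eq ⟨u₀, subset_intCl _ rfl⟩
  have hu : u ∈ VI := hs1 ▸ hu₁
  have eA : Al (a : F₀) = u ^ (n + m₀) * Al (a' : F₀) := by
    rw [ha, map_mul, map_pow, hs1]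
  have eB : Be (a : F₀) = Be u₀ ^ (n + m₀) * Be (a' : F₀) := by
    rw [ha, map_mul, map_pow]
  have h1 : (h.red a : E) = sbar ^ (n + m₀) * (h'.red a' : E) := by
    rw [eAl, eAl', redI_pow_mul redI hAl hu hAl' _ eA, hred hu]
  have h2 : (h.φ (h.red a) : E) = sbar ^ (q * (n + m₀)) * (h'.φ (h'.red a') : E) := by
    rw [eBe, eBe', redI_pow_mul redI hBe hBu hBe' _ eB, hredBe hBu, pow_mul]
  have hsC : sbar ∈ Cs := T.red_coord hs1 hred ▸ (h.red _).2
  have h3 : h.red a = (⟨sbar, hsC⟩ : Cs) ^ m₀ * c := Subtype.ext (by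
    rw [h1, MulMemClass.coe_mul, SubmonoidClass.coe_pow, ← hc]; ring)
  rw [h3, map_mul, map_pow, MulMemClass.coe_mul, SubmonoidClass.coe_pow,
    T.phi_sbar hs1 hred hredBe _ rfl, mul_add q, pow_add, ← pow_mul] at h2
  exact mul_left_cancel₀ (pow_ne_zero (q * m₀) hsbar) (by rw [h2]; ring)

include T T' hred in
/-- The maps `piInf` of the two charts agree on the overlap. -/
theorem piInf_compat (a : intCl W ({u} : Set F₁)) (a' : intCl W ({u⁻¹} : Set F₁)) (n : ℕ)
    (ha : (a' : F₁) * u ^ n = (a : F₁)) : (h'.piInf a' : E) * sbar ^ n = (h.piInf a : E) := by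
  obtain ⟨hm, e⟩ := T.piInf a
  obtain ⟨hm', e'⟩ := T'.piInf a'
  obtain ⟨hu, -⟩ := T.piInf ⟨u, subset_intCl _ rfl⟩
  have e2 : (a : F₁) = u ^ n * (a' : F₁) := by rw [← ha, mul_comm]
  rw [e, e', redI_pow_mul redI hm hu hm' n e2, hred hu, mul_comm]

include T T' hs1 hred hredBe in
/-- The maps `piZero` of the two charts agree on the overlap. -/
theorem piZero_compat (a : intCl W ({u} : Set F₁)) (a' : intCl W ({u⁻¹} : Set F₁)) (n : ℕ)
    (ha : (a' : F₁) * u ^ n = (a : F₁)) :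
    (h'.piZero a' : E) * sbar ^ (q * n) = (h.piZero a : E) := by
  obtain ⟨hm, e⟩ := T.piZero_eq a
  obtain ⟨hm', e'⟩ := T'.piZero_eq a'
  obtain ⟨hu, eu⟩ := T.piZero_eq ⟨u, subset_intCl _ rfl⟩
  have e2 : wAL (a : F₁) = wAL u ^ n * wAL (a' : F₁) := by
    rw [← ha, map_mul, map_pow, mul_comm]
  rw [e, e', redI_pow_mul redI hm hu hm' n e2, ← eu, (T.piInf_piZero_coord hs1 hred hredBe).2,
    ← pow_mul, mul_comm]

include T T' hs1 hs hu₀ hsbar hred hredBe in
/-- The compatibility of the components of the two charts. -/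
theorem compatible_comp [IsFractionRing Cs E]
    (hC' : ∀ y : E, IsIntegral (Algebra.adjoin k ({sbar⁻¹} : Set E)) y → y ∈ Cs')
    (i : Fin 3) (a : intCl W ({t} : Set F)) (a' : intCl W ({t⁻¹} : Set F)) (n : ℕ)
    (ha : (a' : F) * t ^ n = (a : F)) :
    (m'.comp i a' : E) * (m.comp i ⟨t, subset_intCl _ rfl⟩ : E) ^ n = (m.comp i a : E) := by
  classical
  set σ : E := (m.comp i ⟨t, subset_intCl _ rfl⟩ : E) with hσ
  have hσd : σ = sbar ^ dexp q i := T.comp_coord m hs1 hs hred hredBe i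
  have hσ0 : σ ≠ 0 := hσd ▸ pow_ne_zero _ hsbar
  have ht : t ≠ 0 := fun h0 => hσ0 (by
    have : (⟨t, subset_intCl _ rfl⟩ : intCl W ({t} : Set F)) = 0 := Subtype.ext h0
    rw [hσ, this, map_zero]; rfl)
  obtain ⟨f, hf₀⟩ := exists_extend ht
    ((algebraMap Cs E).comp (m.comp i).toRingHom) hσ.symm hσ0
  have hf₁ : ∀ (x : intCl W ({t⁻¹} : Set F)) (y : intCl W ({t} : Set F)) (M : ℕ),
      t ^ M * (x : F) = (y : F) → f x * σ ^ M = (m.comp i y : E) := hf₀
  have huniq : ∀ (x : intCl W ({t⁻¹} : Set F)) (z : E) (y : intCl W ({t} : Set F)) (M : ℕ),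
      t ^ M * (x : F) = (y : F) → z * σ ^ M = (m.comp i y : E) → f x = z := fun x z y M h1 h2 =>
    mul_right_cancel₀ (pow_ne_zero M hσ0) ((hf₁ x y M h1).trans h2.symm)
  -- it lands in the coordinate ring
  have hfw : ∀ w : W, f (algebraMap W (intCl W ({t⁻¹} : Set F)) w) = algebraMap k E (res w) :=
    fun w => huniq _ _ (algebraMap W _ w) 0
      (by simp only [pow_zero, one_mul, Subalgebra.coe_algebraMap])
      (by rw [pow_zero, mul_one, AlgHom.commutes, T.algebraMap_fibre])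
  have hft : f ⟨t⁻¹, subset_intCl _ (Set.mem_singleton _)⟩ = σ⁻¹ := huniq _ _ 1 1
    (by rw [pow_one, mul_inv_cancel₀ ht]; rfl)
    (by rw [map_one, pow_one, inv_mul_cancel₀ hσ0]; rfl)
  have hint : ∀ x, IsIntegral (Algebra.adjoin k ({sbar⁻¹} : Set E)) (f x) :=
    isIntegral_image f hfw (by
      rw [hft, hσd, ← inv_pow]
      exact pow_mem (Algebra.self_mem_adjoin_singleton k _) _)
  let fC : intCl W ({t⁻¹} : Set F) →+* Cs' := f.codRestrict Cs'.toSubring fun x => hC' _ (hint x)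
  -- agreement on the two images of the level `qM` chart
  have hu : u ≠ 0 := fun h0 => ht (by rw [← hs, h0, map_zero])
  obtain ⟨hvI, hvZ⟩ := T.piInf_piZero_coord hs1 hred hredBe
  have hφq : ∀ (c : Cs) (c' : Cs') (j : ℕ), (c' : E) * sbar ^ j = (c : E) →
      (h'.φ c' : E) * sbar ^ (q * j) = (h.φ c : E) := phi_compat T T' hs1 hu₀ hsbar hred hredBe
  have key : fC = (m'.comp i).toRingHom := by
    refine m'.comp_ext i fC (fun x => Subtype.ext ?_) (fun x => Subtype.ext ?_)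
    · obtain ⟨M, hM⟩ := exists_pow_mul_mem hu (intCl_le_pair_right (W := W) u x.2)
      have hx : (x : F₁) * u ^ M = ((⟨_, hM⟩ : intCl W ({u} : Set F₁)) : F₁) := mul_comm _ _
      refine huniq _ _ (td.lam ⟨_, hM⟩) M ?_ ?_
      · show t ^ M * (td'.lam x : F) = (td.lam ⟨_, hM⟩ : F)
        rw [T.lam, T'.lam, map_mul, map_pow, hs]
      · rw [hσd, ← pow_mul]
        fin_cases i
        · simp only [Fin.zero_eta, m.comp_lam_zero, m'.comp_lam_zero, dexp, Matrix.cons_val_zero,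
            one_mul]
          exact piInf_compat T T' hred _ _ _ hx
        · simp only [Fin.mk_one, m.comp_lam_one, m'.comp_lam_one, dexp, Matrix.cons_val_one,
            Matrix.cons_val_zero, one_mul]
          exact piInf_compat T T' hred _ _ _ hx
        · simp only [Fin.reduceFinMk, m.comp_lam_two, m'.comp_lam_two, dexp, Matrix.cons_val]
          rw [sq, mul_assoc]
          exact hφq _ _ _ (piZero_compat T T' hs1 hred hredBe _ _ _ hx)
    · obtain ⟨M, hM⟩ := exists_pow_mul_mem hu (intCl_le_pair_right (W := W) u x.2)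
      have hx : (x : F₁) * u ^ M = ((⟨_, hM⟩ : intCl W ({u} : Set F₁)) : F₁) := mul_comm _ _
      obtain ⟨K, hK⟩ : ∃ K, t ^ K * (td'.rho x : F) ∈ intCl W ({t} : Set F) :=
        exists_pow_mul_mem ht (intCl_le_pair_right t (td'.rho x).2)
      obtain ⟨y, hy⟩ : ∃ y : intCl W ({t} : Set F), (y : F) = t ^ K * (td'.rho x : F) :=
        ⟨⟨_, hK⟩, rfl⟩
      refine huniq _ _ y K hy.symm (mul_right_cancel₀ (pow_ne_zero (q * M) hsbar) ?_)
      have heq : td.rho ⟨_, hM⟩ * ⟨t, subset_intCl _ rfl⟩ ^ K =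
          y * td.rho ⟨u, subset_intCl _ rfl⟩ ^ M := Subtype.ext (by
        show (td.rho ⟨_, hM⟩ : F) * t ^ K = (y : F) * (td.rho ⟨u, subset_intCl _ rfl⟩ : F) ^ M
        rw [hy, T.rho, T.rho, T'.rho, map_mul, map_pow]
        ring)
      have h2 := congrArg (fun z => (m.comp i z : E)) heq
      simp only [map_mul, map_pow, MulMemClass.coe_mul, SubmonoidClass.coe_pow] at h2
      rw [← hσ] at h2
      have h3 : (m.comp i (td.rho ⟨u, subset_intCl _ rfl⟩) : E) = sbar ^ q ∧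
          (m'.comp i (td'.rho x) : E) * sbar ^ (q * M) = (m.comp i (td.rho ⟨_, hM⟩) : E) := by
        fin_cases i
        · simp only [Fin.zero_eta, m.comp_rho_zero, m'.comp_rho_zero]
          exact ⟨T.phi_sbar hs1 hred hredBe _ hvI, hφq _ _ _ (piInf_compat T T' hred _ _ _ hx)⟩
        · simp only [Fin.mk_one, m.comp_rho_one, m'.comp_rho_one]
          exact ⟨hvZ, piZero_compat T T' hs1 hred hredBe _ _ _ hx⟩
        · simp only [Fin.reduceFinMk, m.comp_rho_two, m'.comp_rho_two]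
          exact ⟨hvZ, piZero_compat T T' hs1 hred hredBe _ _ _ hx⟩
      rw [h3.1, ← h3.2, ← pow_mul] at h2
      show (m'.comp i (td'.rho x) : E) * σ ^ K * sbar ^ (q * M) =
        (m.comp i y : E) * sbar ^ (q * M)
      rw [← h2]
      ring
  have h1 : f a' = (m'.comp i a' : E) := congrArg Subtype.val (RingHom.congr_fun key a')
  rw [← h1]
  exact hf₁ a' a n (by rw [mul_comm, ha])

end Compat

end FLTAgent.TwoChart
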