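import Fermat.Agent.TwoChart.Global

/-!
# Two-chart models: counting Kummer classes without vertical part

`card_vertTrivial_le`: if on each component `i` there are at most `B i` Kummer classes of level
`n`, then there are at most `n ^ ((#ι - 1) * (#X - 1)) * ∏ i, B i` classes on the generic fibre
all of whose vertical multiplicities are divisible by `n`. A class is recorded by the classes of
its reductions and by the ratios of `n`-th roots at the crossings; two classes with the same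
record have roots which agree at the crossings, hence glue to a global root (`Global.lean`).
-/

set_option autoImplicit false

noncomputable section

open AlgebraicCurve WithZero

namespace FLTAgent.TwoChart

/-- Representatives for Kummer classes. -/
theorem exists_reps {E : Type*} [Field E] {n : ℕ} (U : Finset E) (h0 : ∀ u ∈ U, u ≠ 0) :
    ∃ T : Finset E, T ⊆ U ∧ (∀ u ∈ T, ∀ u' ∈ T, u ≠ u' → ¬ ∃ w : E, u = u' * w ^ n) ∧
      ∀ u ∈ U, ∃ u' ∈ T, ∃ w : E, u = u' * w ^ n := by
  classical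
  induction U using Finset.induction_on with
  | empty => exact ⟨∅, subset_rfl, by simp, by simp⟩
  | insert a U ha ih =>
    obtain ⟨T, hTU, hT, hcov⟩ := ih fun u hu => h0 u (Finset.mem_insert_of_mem hu)
    by_cases h : ∃ u' ∈ T, ∃ w : E, a = u' * w ^ n
    · refine ⟨T, hTU.trans (Finset.subset_insert _ _), hT, fun u hu => ?_⟩
      rcases Finset.mem_insert.1 hu with rfl | hu
      exacts [h, hcov u hu]
    · refine ⟨insert a T, Finset.insert_subset_insert _ hTU, ?_, fun u hu => ?_⟩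
      · intro u hu u' hu' hne ⟨w, hw⟩
        rcases Finset.mem_insert.1 hu with rfl | huT <;>
          rcases Finset.mem_insert.1 hu' with rfl | hu'T
        · exact hne rfl
        · exact h ⟨u', hu'T, w, hw⟩
        · refine h ⟨u, huT, w⁻¹, ?_⟩
          have hw0 : w ^ n ≠ 0 := right_ne_zero_of_mul
            (hw ▸ h0 u (Finset.mem_insert_of_mem (hTU huT)))
          rw [hw, inv_pow, mul_assoc, mul_inv_cancel₀ hw0, mul_one]
        · exact hT u huT u' hu'T hne ⟨w, hw⟩
      · rcases Finset.mem_insert.1 hu with rfl | hu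
        · exact ⟨u, Finset.mem_insert_self _ _, 1, by simp⟩
        · obtain ⟨u', hu', hw⟩ := hcov u hu
          exact ⟨u', Finset.mem_insert_of_mem hu', hw⟩

variable {W : Type} [CommRing W] [IsNoetherianRing W] {k : Type} [Field k] [IsAlgClosed k]
  {res : W →+* k} {F : Type} [Field F] [Algebra W F] {π : W} {t : F} {ι : Type} [Fintype ι]
  {E : ι → Type} [∀ i, Field (E i)] [∀ i, Algebra k (E i)] [∀ i, FF.IsFF k (E i)] {X : Type}
  [Fintype X] {K : Type} [Field K] [Algebra W K] [Algebra K F] [IsScalarTower W K F]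

namespace Model

variable (M : Model W k res F π t ι E X)

omit [IsNoetherianRing W] [IsAlgClosed k] [Fintype ι] [∀ i, FF.IsFF k (E i)] [Fintype X] in
theorem mult_mul {i : ι} {f g : F} (hf : f ≠ 0) (hg : g ≠ 0) :
    M.mult i (f * g) = M.mult i f + M.mult i g := by
  simp only [Model.mult, map_mul]
  rw [WithZero.log_mul ((Valuation.ne_zero_iff _).2 hf) ((Valuation.ne_zero_iff _).2 hg)]
  ring

omit [IsNoetherianRing W] [IsAlgClosed k] [Fintype ι] [∀ i, FF.IsFF k (E i)] [Fintype X] in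
theorem mult_inv {i : ι} (f : F) : M.mult i f⁻¹ = -M.mult i f := by
  simp only [Model.mult, map_inv₀, WithZero.log_inv]

omit [IsNoetherianRing W] [IsAlgClosed k] [Fintype ι] [∀ i, FF.IsFF k (E i)] [Fintype X] in
theorem mult_zpow {i : ι} (f : F) (m : ℤ) : M.mult i (f ^ m) = m * M.mult i f := by
  simp only [Model.mult, map_zpow₀, WithZero.log_zpow, smul_eq_mul]
  ring

omit [IsNoetherianRing W] [IsAlgClosed k] [Fintype ι] [∀ i, FF.IsFF k (E i)] [Fintype X] in
theorem mult_prod {α : Type*} {i : ι} (S : Finset α) (g : α → F) (hg : ∀ a ∈ S, g a ≠ 0) :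
    M.mult i (∏ a ∈ S, g a) = ∑ a ∈ S, M.mult i (g a) := by
  classical
  induction S using Finset.induction_on with
  | empty => simp [Model.mult]
  | insert a S ha ih =>
    rw [Finset.prod_insert ha, Finset.sum_insert ha,
      M.mult_mul (hg a (Finset.mem_insert_self a S))
        (Finset.prod_ne_zero_iff.2 fun b hb => hg b (Finset.mem_insert_of_mem hb)),
      ih fun b hb => hg b (Finset.mem_insert_of_mem hb)]

/-- The reductions of a Kummer function without vertical part are Kummer functions. -/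
theorem isKummer_redF (hπK : algebraMap W K π ≠ 0)
    (hKfrac : ∀ c : K, ∃ (w : W) (m : ℕ), c * algebraMap W K π ^ m = algebraMap W K w)
    {n : ℕ} [NeZero n] {f : F} (hf : IsKummer K n f) (hm : ∀ i, M.mult i f = 0) (i : ι) :
    IsKummer k n (M.redF i f) := by
  have : Nonempty ι := ⟨i⟩
  refine ⟨M.redF_ne_zero_of_val (M.val_eq_one_of_mult_eq_zero hf.1 (hm i)), fun v => ?_⟩
  obtain ⟨s, hs, hv⟩ := M.exists_reg i v
  obtain ⟨P, hP, hiP, -⟩ := M.exists_pt (fun i => FF.place_nonempty) hs hv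
  obtain ⟨z, hz⟩ := Pt.exists_ord_redF M P hπK hKfrac hf hiP (hm i)
  rw [← hP, hz, Finset.sum_eq_zero (fun l _ => by rw [hm l, zero_mul]), zero_add]
  exact dvd_mul_right _ _

/-- The bound for classes with all vertical multiplicities zero. -/
theorem card_le_of_mult_zero [Nonempty ι] (hπK : algebraMap W K π ≠ 0)
    (hKfrac : ∀ c : K, ∃ (w : W) (m : ℕ), c * algebraMap W K π ^ m = algebraMap W K w)
    (hconst : ∀ x : F, IsIntegral K x → x ∈ (algebraMap K F).range)
    {n : ℕ} [NeZero n] (hn : IsUnit (n : W)) (B : ι → ℕ)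
    (hB : ∀ (i : ι) (T : Finset (E i)), (∀ u ∈ T, IsKummer k n u) →
      (∀ u ∈ T, ∀ u' ∈ T, u ≠ u' → ¬ ∃ w : E i, u = u' * w ^ n) → T.card ≤ B i)
    (S : Finset F) (hS : ∀ f ∈ S, IsKummer K n f ∧ ∀ i, M.mult i f = 0)
    (hdist : ∀ f ∈ S, ∀ f' ∈ S, f ≠ f' →
      ¬ ∃ (c : K) (g : F), f = f' * algebraMap K F c * g ^ n) :
    S.card ≤ n ^ ((Fintype.card ι - 1) * (Fintype.card X - 1)) * ∏ i, B i := by
  classical
  have ht : t ∈ ({t, t⁻¹} : Set F) := Set.mem_insert _ _
  have hval : ∀ f ∈ S, ∀ i, M.val i f = 1 :=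
    fun f hf i => M.val_eq_one_of_mult_eq_zero (hS f hf).1.1 ((hS f hf).2 i)
  have hred0 : ∀ f ∈ S, ∀ i, M.redF i f ≠ 0 := fun f hf i => M.redF_ne_zero_of_val (hval f hf i)
  -- classes on the components
  have hreps := fun i => exists_reps (n := n) (S.image (M.redF i)) fun u hu => by
    obtain ⟨f, hf, rfl⟩ := Finset.mem_image.1 hu
    exact hred0 f hf i
  choose T hTU hTd hTc using hreps
  choose! rep hrep w hw using fun i f (hf : f ∈ S) => hTc i _ (Finset.mem_image_of_mem _ hf)
  have hw0 : ∀ i, ∀ f ∈ S, w i f ≠ 0 := fun i f hf h =>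
    hred0 f hf i (by rw [hw i f hf, h, zero_pow (NeZero.ne n), mul_zero])
  let code1 : F → (∀ i, E i) := fun f i => rep i f
  have hT : (S.image code1).card ≤ ∏ i, B i := by
    refine le_trans (Finset.card_le_card (t := Fintype.piFinset T) ?_) ?_
    · intro g hg
      obtain ⟨f, hf, rfl⟩ := Finset.mem_image.1 hg
      exact Fintype.mem_piFinset.2 fun i => hrep i f hf
    · rw [Fintype.card_piFinset]
      refine Finset.prod_le_prod' fun i _ => hB i (T i) (fun u hu => ?_) (hTd i)
      obtain ⟨f, hf, rfl⟩ := Finset.mem_image.1 (hTU i hu)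
      exact M.isKummer_redF hπK hKfrac (hS f hf).1 (hS f hf).2 i
  refine le_trans (Finset.card_le_mul_card_image S
    (n ^ ((Fintype.card ι - 1) * (Fintype.card X - 1))) fun c hc => ?_) (Nat.mul_le_mul_left _ hT)
  -- the crossings
  choose P hP using fun x => M.exists_pt_crossing ht x
  have hPbr : ∀ x i, i ∈ (P x).br := fun x i => (hP x).1 ▸ Finset.mem_univ i
  have hdec : ∀ f ∈ S, ∀ x, ∃ z : F, (∀ i, M.val i z = 1) ∧
      f * (z ^ n)⁻¹ ∈ (P x).loc ∧ z ^ n * f⁻¹ ∈ (P x).loc := by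
    intro f hf x
    obtain ⟨a, b, z, ha, hb, hz0, hfz, hzv⟩ := (P x).exists_decomp hπK hKfrac (hS f hf).1
    rw [Finset.prod_eq_one (fun i _ => by rw [(hS f hf).2 i, zpow_zero]), mul_one] at hfz
    refine ⟨z, fun i => hzv i (hPbr x i), (P x).mem_loc_iff.2 ⟨a, b, hb, ?_⟩,
      (P x).mem_loc_iff.2 ⟨b, a, ha, ?_⟩⟩
    · conv_lhs => rw [hfz]
      rw [mul_assoc, mul_inv_cancel₀ (pow_ne_zero n hz0), mul_one]
    · rw [hfz, mul_inv, mul_comm (z ^ n), mul_assoc, inv_mul_cancel₀ (pow_ne_zero n hz0), mul_one,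
        mul_inv, inv_inv, mul_comm]
  choose! z hzv hzl hzi using hdec
  obtain ⟨f₀, hf₀, rfl⟩ := Finset.mem_image.1 hc
  set Sc := S.filter fun f => code1 f = code1 f₀ with hSc
  have hmem : ∀ f ∈ Sc, f ∈ S := fun f hf => (Finset.mem_filter.1 hf).1
  have hrep₀ : ∀ f ∈ Sc, ∀ i, rep i f = rep i f₀ := fun f hf i =>
    congrFun (Finset.mem_filter.1 hf).2 i
  -- values at the crossings of the roots of `f / f₀`
  let al : F → ∀ (x : X) (i : ι), E i := fun f x i =>
    (w i f / w i f₀) / (M.redF i (z f x) / M.redF i (z f₀ x))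
  let β : F → X → ι → k := fun f x i => rv ((P x).place i) (al f x i)
  let i₀ : ι := Classical.arbitrary ι
  have halg : ∀ f ∈ Sc, ∀ x i, al f x i ≠ 0 ∧ ((P x).place i).ord (al f x i) = 0 ∧
      β f x i ≠ 0 ∧ β f x i ^ n = β f x i₀ ^ n := by
    intro f hf x
    have hfS := hmem f hf
    set y := (f * (z f x ^ n)⁻¹) * (z f₀ x ^ n * f₀⁻¹) with hy
    have hyl : y ∈ (P x).loc := mul_mem (hzl f hfS x) (hzi f₀ hf₀ x)
    have hyil : y⁻¹ ∈ (P x).loc := by
      rw [hy, mul_inv, mul_inv, mul_inv, inv_inv, inv_inv, mul_comm f⁻¹, mul_comm _ f₀]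
      exact mul_mem (hzi f hfS x) (hzl f₀ hf₀ x)
    have key : ∀ i, al f x i ^ n = M.redF i y ∧ al f x i ≠ 0 ∧
        ((P x).place i).ord (al f x i) = 0 := by
      intro i
      have hz1 := hzv f hfS x i
      have hz2 := hzv f₀ hf₀ x i
      have hV : ∀ {a : F}, M.val i a = 1 → a ∈ M.V i := fun h => M.mem_V.2 h.le
      have heq : al f x i ^ n = M.redF i y := by
        rw [hy, M.redF_mul (hV (by rw [map_mul, map_inv₀, map_pow, hz1, hval f hfS i]; simp))
            (hV (by rw [map_mul, map_inv₀, map_pow, hz2, hval f₀ hf₀ i]; simp)),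
          M.redF_mul (hV (hval f hfS i)) (hV (by rw [map_inv₀, map_pow, hz1]; simp)),
          M.redF_mul (hV (by rw [map_pow, hz2]; simp)) (hV (by rw [map_inv₀, hval f₀ hf₀ i]; simp)),
          M.redF_inv (by rw [map_pow, hz1]; simp), M.redF_inv (hval f₀ hf₀ i),
          M.redF_pow (hV hz1), M.redF_pow (hV hz2), hw i f hfS, hw i f₀ hf₀, hrep₀ f hf i]
        simp only [al, div_pow]
        have : rep i f₀ ≠ 0 := left_ne_zero_of_mul ((hw i f₀ hf₀) ▸ hred0 f₀ hf₀ i)
        have := hw0 i f₀ hf₀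
        have := M.redF_ne_zero_of_val hz1
        have := M.redF_ne_zero_of_val hz2
        field_simp
      have hne : al f x i ≠ 0 :=
        div_ne_zero (div_ne_zero (hw0 i f hfS) (hw0 i f₀ hf₀))
          (div_ne_zero (M.redF_ne_zero_of_val hz1) (M.redF_ne_zero_of_val hz2))
      refine ⟨heq, hne, ?_⟩
      have hvy : M.val i y = 1 := by
        rw [hy]; simp only [map_mul, map_inv₀, map_pow, hz1, hz2, hval f hfS i, hval f₀ hf₀ i]
        simp
      have h1 := FF.ord_nonneg_of_mem_placeRing _ ((P x).redF_mem_place hyl (hPbr x i))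
      have h2 := FF.ord_nonneg_of_mem_placeRing _ ((P x).redF_mem_place hyil (hPbr x i))
      rw [M.redF_inv hvy, Place.ord_inv] at h2
      have h3 : ((P x).place i).ord (al f x i ^ n) = 0 := by rw [heq]; omega
      rw [FF.ord_pow] at h3
      exact (mul_eq_zero.1 h3).resolve_left (by exact_mod_cast NeZero.ne n)
    intro i
    refine ⟨(key i).2.1, (key i).2.2, rv_ne_zero _ (key i).2.1 (key i).2.2, ?_⟩
    simp only [β]
    rw [← rv_pow _ (mem_of_ord_eq_zero _ (key i).2.2), (key i).1,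
      ← rv_pow _ (mem_of_ord_eq_zero _ (key i₀).2.2), (key i₀).1]
    exact (P x).rv_loc_eq hyl (hPbr x i) (hPbr x i₀)
  let ρ : F → X → ι → k := fun f x i => β f x i / β f x i₀
  let ζ : F → ι → k := fun f i => if h : Nonempty X then ρ f h.some i else 1
  have hρ : ∀ f ∈ Sc, ∀ x i, ρ f x i ^ n = 1 := fun f hf x i => by
    simp only [ρ]
    rw [div_pow, (halg f hf x i).2.2.2, div_self (pow_ne_zero _ (halg f hf x i₀).2.2.1)]
  have hζ : ∀ f ∈ Sc, ∀ i, ζ f i ^ n = 1 := fun f hf i => by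
    simp only [ζ]
    split_ifs with h
    exacts [hρ f hf _ i, one_pow n]
  have hζ0 : ∀ f ∈ Sc, ∀ i, ζ f i ≠ 0 := fun f hf i h => by
    have := hζ f hf i
    rw [h, zero_pow (NeZero.ne n)] at this
    exact zero_ne_one this
  let Y : Finset X := Finset.univ.filter fun x => ∀ h : Nonempty X, x ≠ h.some
  let J : Finset ι := Finset.univ.erase i₀
  let code2 : F → (↥(J ×ˢ Y) → k) := fun f p => ρ f p.1.2 p.1.1 / ζ f p.1.1
  have hcard : (Fintype.piFinset fun _ : ↥(J ×ˢ Y) => Polynomial.nthRootsFinset n (1 : k)).card ≤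
      n ^ ((Fintype.card ι - 1) * (Fintype.card X - 1)) := by
    rw [Fintype.card_piFinset, Finset.prod_const, Finset.card_univ, Fintype.card_coe,
      Finset.card_product]
    refine le_trans (Nat.pow_le_pow_left (m := n) ?_ _) (Nat.pow_le_pow_right
      (Nat.pos_of_ne_zero (NeZero.ne n)) (Nat.mul_le_mul ?_ ?_))
    · rw [Polynomial.nthRootsFinset_def]
      exact (Multiset.toFinset_card_le _).trans (Polynomial.card_nthRoots n 1)
    · simp [J]
    · rcases isEmpty_or_nonempty X with hX | hX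
      · simp [Finset.eq_empty_of_isEmpty Y]
      · calc Y.card ≤ (Finset.univ.erase hX.some).card := Finset.card_le_card fun x hx =>
              Finset.mem_erase.2 ⟨(Finset.mem_filter.1 hx).2 hX, Finset.mem_univ _⟩
          _ = Fintype.card X - 1 := by simp
  refine le_trans (Finset.card_le_card_of_injOn code2 (fun f hf => ?_) ?_) hcard
  · rw [Finset.mem_coe] at hf
    refine Fintype.mem_piFinset.2 fun p => ?_
    rw [Polynomial.mem_nthRootsFinset (Nat.pos_of_ne_zero (NeZero.ne n))]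
    simp only [code2, div_pow]
    rw [hρ f hf, hζ f hf, div_one]
  intro f hf f' hf' heq
  rw [Finset.mem_coe] at hf hf'
  by_contra hne
  have hfS := hmem f hf
  have hf'S := hmem f' hf'
  -- the codes agree everywhere
  have hcode : ∀ x i, ρ f x i / ζ f i = ρ f' x i / ζ f' i := by
    intro x i
    rcases eq_or_ne i i₀ with rfl | hi
    · have h1 : ∀ g ∈ Sc, ρ g x i₀ / ζ g i₀ = 1 := fun g hg => by
        simp only [ρ, ζ]
        split_ifs with h
        · rw [div_self (halg g hg x i₀).2.2.1, div_self (halg g hg _ i₀).2.2.1, div_one]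
        · exact absurd ⟨x⟩ h
      rw [h1 f hf, h1 f' hf']
    by_cases hx : x ∈ Y
    · exact congrFun heq ⟨(i, x),
        Finset.mem_product.2 ⟨Finset.mem_erase.2 ⟨hi, Finset.mem_univ i⟩, hx⟩⟩
    · simp only [Y, Finset.mem_filter, Finset.mem_univ, true_and, not_forall, not_not] at hx
      obtain ⟨h, rfl⟩ := hx
      have h1 : ∀ g ∈ Sc, ρ g h.some i / ζ g i = 1 := fun g hg => by
        simp only [ζ, dif_pos h]
        exact div_self (div_ne_zero (halg g hg _ i).2.2.1 (halg g hg _ i₀).2.2.1)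
      rw [h1 f hf, h1 f' hf']
  let wQ : ∀ i, E i := fun i => (w i f / algebraMap k (E i) (ζ f i)) /
    (w i f' / algebraMap k (E i) (ζ f' i))
  have hζE : ∀ g ∈ Sc, ∀ i, algebraMap k (E i) (ζ g i) ≠ 0 := fun g hg i =>
    (map_ne_zero _).2 (hζ0 g hg i)
  have hQK : IsKummer K n (f * f'⁻¹) := by
    refine ⟨mul_ne_zero (hS f hfS).1.1 (inv_ne_zero (hS f' hf'S).1.1), fun v => ?_⟩
    rw [Place.ord_mul _ (hS f hfS).1.1 (inv_ne_zero (hS f' hf'S).1.1), Place.ord_inv]
    exact dvd_add ((hS f hfS).1.2 v) (dvd_neg.2 ((hS f' hf'S).1.2 v))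
  have hQm : ∀ i, M.mult i (f * f'⁻¹) = 0 := fun i => by
    rw [M.mult_mul (hS f hfS).1.1 (inv_ne_zero (hS f' hf'S).1.1), M.mult_inv, (hS f hfS).2 i,
      (hS f' hf'S).2 i, neg_zero, add_zero]
  have hwQ : ∀ i, wQ i ^ n = M.redF i (f * f'⁻¹) := by
    intro i
    rw [M.redF_mul (M.mem_V.2 (hval f hfS i).le)
      (M.mem_V.2 (by rw [map_inv₀, hval f' hf'S i, inv_one])), M.redF_inv (hval f' hf'S i),
      hw i f hfS, hw i f' hf'S, hrep₀ f hf i, hrep₀ f' hf' i]
    have : rep i f₀ ≠ 0 := left_ne_zero_of_mul ((hw i f₀ hf₀) ▸ hred0 f₀ hf₀ i)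
    have := hw0 i f' hf'S
    simp only [wQ, div_pow, ← map_pow, hζ f hf i, hζ f' hf' i, map_one, div_one]
    field_simp
  obtain ⟨c', g, -, hg⟩ := eq_const_mul_pow_of_roots hπK hKfrac hconst hn hQK hQm hwQ (by
    intro x P' hP' zz hzzv hzz1 hzz2 i j
    have hPx : (P x).IsCrossing x := hP x
    set zQ := z f x * (z f' x)⁻¹ with hzQ
    set y := zz * zQ⁻¹ with hy
    have hy1 : y ^ n ∈ (P x).loc := by
      have : y ^ n = (zz ^ n * (f * f'⁻¹)⁻¹) *
          ((f * (z f x ^ n)⁻¹) * (z f' x ^ n * f'⁻¹)) := by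
        rw [hy, hzQ]
        have := (hS f hfS).1.1
        have := (hS f' hf'S).1.1
        field_simp
        ring
      rw [this]
      exact mul_mem (hP'.loc_le hPx hzz2) (mul_mem (hzl f hfS x) (hzi f' hf'S x))
    have hy2 : y⁻¹ ^ n ∈ (P x).loc := by
      have : y⁻¹ ^ n = ((f * f'⁻¹) * (zz ^ n)⁻¹) *
          ((z f x ^ n * f⁻¹) * (f' * (z f' x ^ n)⁻¹)) := by
        rw [hy, hzQ]
        have := (hS f hfS).1.1
        have := (hS f' hf'S).1.1
        field_simp
        ring
      rw [this]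
      exact mul_mem (hP'.loc_le hPx hzz1) (mul_mem (hzi f hfS x) (hzl f' hf'S x))
    have hyl := (P x).mem_loc_of_pow_mem hy1
    have hyil := (P x).mem_loc_of_pow_mem hy2
    have hplace : ∀ l, P'.place l = (P x).place l := fun l => by rw [hP'.2 l, hPx.2 l]
    have key : ∀ l, rv (P'.place l) (wQ l / M.redF l zz) =
        ((ρ f x l / ζ f l) / (ρ f' x l / ζ f' l)) * (β f x i₀ / β f' x i₀) /
          rv ((P x).place l) (M.redF l y) := by
      intro l
      have hz1 := hzv f hfS x l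
      have hz2 := hzv f' hf'S x l
      have hz0 := hzv f₀ hf₀ x l
      have hyv : M.val l y = 1 := by
        rw [hy, hzQ]; simp only [map_mul, map_inv₀, hzzv l, hz1, hz2]; simp
      have hyord : ((P x).place l).ord (M.redF l y) = 0 := by
        have h1 := FF.ord_nonneg_of_mem_placeRing _ ((P x).redF_mem_place hyl (hPbr x l))
        have h2 := FF.ord_nonneg_of_mem_placeRing _ ((P x).redF_mem_place hyil (hPbr x l))
        rw [M.redF_inv hyv, Place.ord_inv] at h2
        omega
      have hzz : M.redF l zz = M.redF l y * (M.redF l (z f x) / M.redF l (z f' x)) := by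
        rw [div_eq_mul_inv, ← M.redF_inv hz2, ← M.redF_mul (M.mem_V.2 hz1.le)
          (M.mem_V.2 (by rw [map_inv₀, hz2, inv_one])),
          ← M.redF_mul (M.mem_V.2 hyv.le)
            (M.mem_V.2 (by rw [map_mul, map_inv₀, hz1, hz2]; simp)), hy, hzQ]
        have hzf : z f x ≠ 0 := fun h => by rw [h, map_zero] at hz1; exact zero_ne_one hz1
        have hzf' : z f' x ≠ 0 := fun h => by rw [h, map_zero] at hz2; exact zero_ne_one hz2
        congr 1
        field_simp
      have heq : wQ l / M.redF l zz = (al f x l / al f' x l) *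
          algebraMap k (E l) (ζ f' l / ζ f l) / M.redF l y := by
        rw [hzz, map_div₀]
        simp only [wQ, al]
        have := hw0 l f₀ hf₀
        have := M.redF_ne_zero_of_val hz0
        have := M.redF_ne_zero_of_val hz1
        have := M.redF_ne_zero_of_val hz2
        have := hw0 l f' hf'S
        have := hζE f hf l
        have := hζE f' hf' l
        field_simp
      have ha := halg f hf x l
      have ha' := halg f' hf' x l
      have hmul : al f x l / al f' x l ∈ ((P x).place l).toValuationSubring :=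
        mem_of_ord_eq_zero _ (by rw [FF.ord_div _ ha.1 ha'.1, ha.2.1, ha'.2.1, sub_zero])
      rw [hplace l, heq, rv_div _ (mul_mem hmul (Place.algebraMap_mem' _ _))
        (M.redF_ne_zero_of_val hyv) hyord, rv_mul _ hmul (Place.algebraMap_mem' _ _),
        rv_div _ (mem_of_ord_eq_zero _ ha.2.1) ha'.1 ha'.2.1, rv_algebraMap]
      congr 1
      simp only [β, ρ]
      have h1 : rv ((P x).place i₀) (al f x i₀) ≠ 0 := (halg f hf x i₀).2.2.1
      have h2 : rv ((P x).place i₀) (al f' x i₀) ≠ 0 := (halg f' hf' x i₀).2.2.1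
      have h3 : rv ((P x).place l) (al f' x l) ≠ 0 := (halg f' hf' x l).2.2.1
      have := hζ0 f hf l
      have := hζ0 f' hf' l
      field_simp
    have hone : ∀ l, (ρ f x l / ζ f l) / (ρ f' x l / ζ f' l) = 1 := fun l => by
      rw [hcode x l]
      exact div_self (div_ne_zero (div_ne_zero (halg f' hf' x l).2.2.1
        (halg f' hf' x i₀).2.2.1) (hζ0 f' hf' l))
    rw [key i, key j, hone i, hone j, (P x).rv_loc_eq hyl (hPbr x i) (hPbr x j)])
  refine hdist f hfS f' hf'S hne ⟨c', g, ?_⟩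
  rw [mul_assoc, ← hg, mul_left_comm, mul_inv_cancel₀ (hS f' hf'S).1.1, mul_one]

/-- Upper bound for the classes without vertical part, given bounds for the components. -/
theorem _root_.FLTAgent.TwoChart.card_vertTrivial_le (M : Model W k res F π t ι E X) [Nonempty ι]
    (hπK : algebraMap W K π ≠ 0)
    (hKfrac : ∀ c : K, ∃ (w : W) (m : ℕ), c * algebraMap W K π ^ m = algebraMap W K w)
    (hconst : ∀ x : F, IsIntegral K x → x ∈ (algebraMap K F).range)
    {n : ℕ} [NeZero n] (hn : IsUnit (n : W)) (B : ι → ℕ)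
    (hB : ∀ (i : ι) (T : Finset (E i)), (∀ u ∈ T, IsKummer k n u) →
      (∀ u ∈ T, ∀ u' ∈ T, u ≠ u' → ¬ ∃ w : E i, u = u' * w ^ n) → T.card ≤ B i)
    (S : Finset F) (hS : ∀ f ∈ S, IsKummer K n f ∧ ∀ i, (n : ℤ) ∣ M.mult i f)
    (hdist : ∀ f ∈ S, ∀ f' ∈ S, f ≠ f' →
      ¬ ∃ (c : K) (g : F), f = f' * algebraMap K F c * g ^ n) :
    S.card ≤ n ^ ((Fintype.card ι - 1) * (Fintype.card X - 1)) * ∏ i, B i := by
  classical
  choose x hx0 hxi hxj using M.exists_mult_indicator
  let G : F → F := fun f => ∏ i, x i ^ (M.mult i f / n)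
  have hG0 : ∀ f, G f ≠ 0 := fun f =>
    Finset.prod_ne_zero_iff.2 fun i _ => zpow_ne_zero _ (hx0 i)
  have hGm : ∀ f j, M.mult j (G f) = M.mult j f / n := by
    intro f j
    rw [M.mult_prod _ _ (fun i _ => zpow_ne_zero _ (hx0 i)), Finset.sum_eq_single j]
    · rw [M.mult_zpow, hxi, mul_one]
    · intro i _ hij
      rw [M.mult_zpow, hxj i j hij.symm, mul_zero]
    · simp
  let φ : F → F := fun f => f * (G f ^ n)⁻¹
  have hφ : ∀ f ∈ S, IsKummer K n (φ f) ∧ ∀ i, M.mult i (φ f) = 0 := by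
    intro f hf
    obtain ⟨⟨hf0, hfo⟩, hfm⟩ := hS f hf
    have hGn : (G f ^ n)⁻¹ ≠ 0 := inv_ne_zero (pow_ne_zero _ (hG0 f))
    refine ⟨⟨mul_ne_zero hf0 hGn, fun v => ?_⟩, fun i => ?_⟩
    · rw [Place.ord_mul _ hf0 hGn, Place.ord_inv, FF.ord_pow]
      exact dvd_add (hfo v) (dvd_neg.2 (dvd_mul_right _ _))
    · rw [M.mult_mul hf0 hGn, M.mult_inv, ← zpow_natCast, M.mult_zpow, hGm,
        Int.mul_ediv_cancel' (hfm i), add_neg_cancel]
  have hd : ∀ f ∈ S, ∀ f' ∈ S, f ≠ f' →
      ¬ ∃ (c : K) (g : F), φ f = φ f' * algebraMap K F c * g ^ n := by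
    rintro f hf f' hf' hne ⟨c, g, hg⟩
    refine hdist f hf f' hf' hne ⟨c, g * G f * (G f')⁻¹, ?_⟩
    have h1 := congrArg (· * G f ^ n) hg
    simp only [φ] at h1
    rw [mul_assoc f, inv_mul_cancel₀ (pow_ne_zero n (hG0 f)), mul_one] at h1
    conv_lhs => rw [h1]
    rw [mul_pow, mul_pow, inv_pow]
    ring
  have hinj : Set.InjOn φ S := fun f hf f' hf' h => by
    by_contra hne
    exact hd f hf f' hf' hne ⟨1, 1, by rw [h]; simp⟩
  rw [← Finset.card_image_of_injOn hinj]
  refine M.card_le_of_mult_zero hπK hKfrac hconst hn B hB _ ?_ ?_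
  · intro u hu
    obtain ⟨f, hf, rfl⟩ := Finset.mem_image.1 hu
    exact hφ f hf
  · intro u hu u' hu' hne
    obtain ⟨f, hf, rfl⟩ := Finset.mem_image.1 hu
    obtain ⟨f', hf', rfl⟩ := Finset.mem_image.1 hu'
    exact hd f hf f' hf' (fun h => hne (h ▸ rfl))

end Model

end FLTAgent.TwoChart
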