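import Fermat.Agent.TwoChart.VerticalCongr
import Fermat.Agent.TwoChart.CardBound

/-!
# Two-chart models: counting Kummer classes of level `p ^ (c + m)`

`card_le_of_kummer`: if some component has multiplicity one and `p ^ (c + 1)` does not divide
`#X * ∑ e i`, then Kummer classes of level `p ^ (c + m)`, read modulo `p ^ m`-th powers and
constants, obey the bound of `card_vertTrivial_le`. The intersection congruences `vertical_congr`
make all vertical multiplicities divisible by `p ^ m` after a twist by a power of the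
uniformiser.
-/

set_option autoImplicit false

noncomputable section

open AlgebraicCurve WithZero

namespace FLTAgent.TwoChart

variable {W : Type} [CommRing W] [IsNoetherianRing W] {k : Type} [Field k] [IsAlgClosed k]
  {res : W →+* k} {F : Type} [Field F] [Algebra W F] {π : W} {t : F} {ι : Type} [Fintype ι]
  {E : ι → Type} [∀ i, Field (E i)] [∀ i, Algebra k (E i)] [∀ i, FF.IsFF k (E i)] {X : Type}
  [Fintype X] {K : Type} [Field K] [Algebra W K] [Algebra K F] [IsScalarTower W K F]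

/-- With a component of multiplicity one, Kummer classes of level `p ^ (c+m)` are bounded modulo
`p ^ m`-th powers as soon as `p ^ c` absorbs the intersection numbers. -/
theorem card_le_of_kummer (M : Model W k res F π t ι E X) (hπK : algebraMap W K π ≠ 0)
    (hKfrac : ∀ c : K, ∃ (w : W) (m : ℕ), c * algebraMap W K π ^ m = algebraMap W K w)
    (hconst : ∀ x : F, IsIntegral K x → x ∈ (algebraMap K F).range)
    {p : ℕ} (hp : p.Prime) (hpW : IsUnit (p : W)) {i₀ : ι} (he : M.e i₀ = 1) {c : ℕ} (m : ℕ)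
    (hc : ¬ p ^ (c + 1) ∣ Fintype.card X * ∑ i, M.e i) (B : ι → ℕ)
    (hB : ∀ (i : ι) (T : Finset (E i)), (∀ u ∈ T, IsKummer k (p ^ m) u) →
      (∀ u ∈ T, ∀ u' ∈ T, u ≠ u' → ¬ ∃ w : E i, u = u' * w ^ (p ^ m)) → T.card ≤ B i)
    (S : Finset F) (hS : ∀ f ∈ S, IsKummer K (p ^ (c + m)) f)
    (hdist : ∀ f ∈ S, ∀ f' ∈ S, f ≠ f' →
      ¬ ∃ (a : K) (g : F), f = f' * algebraMap K F a * g ^ (p ^ m)) :
    S.card ≤ (p ^ m) ^ ((Fintype.card ι - 1) * (Fintype.card X - 1)) * ∏ i, B i := by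
  classical
  have : NeZero (p ^ m) := ⟨pow_ne_zero _ hp.ne_zero⟩
  have : NeZero (p ^ (c + m)) := ⟨pow_ne_zero _ hp.ne_zero⟩
  have : Nonempty ι := ⟨i₀⟩
  have hπ0 : algebraMap W F π ≠ 0 := M.algebraMap_pi_ne_zero i₀
  let φ : F → F := fun f => f * algebraMap W F π ^ (-M.mult i₀ f)
  have hφK : ∀ f, φ f = f * algebraMap K F (algebraMap W K π ^ (-M.mult i₀ f)) := fun f => by
    simp only [φ]
    rw [map_zpow₀, ← IsScalarTower.algebraMap_apply W K F]
  have hpos : ∀ a ≠ (0 : F), ∀ j, M.mult j (φ a) = M.mult j a - M.e j * M.mult i₀ a := by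
    intro a ha j
    rw [M.mult_mul ha (zpow_ne_zero _ hπ0), M.mult_zpow]
    simp only [Model.mult, M.val_pi, WithZero.log_exp]
    ring
  have hdiv : ∀ f ∈ S, ∀ j, ((p ^ m : ℕ) : ℤ) ∣ M.mult j f - M.e j * M.mult i₀ f := by
    intro f hf j
    have h0 := vertical_congr M hπK hKfrac (hS f hf) i₀
    have hj := vertical_congr M hπK hKfrac (hS f hf) j
    set N : ℤ := (Fintype.card X : ℤ) with hN
    have key : N * ∑ i, ((M.e j : ℤ) * M.mult i f - (M.e i : ℤ) * M.mult j f)
        - (M.e j : ℤ) * (N * ∑ i, ((M.e i₀ : ℤ) * M.mult i f - (M.e i : ℤ) * M.mult i₀ f))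
        = -(((Fintype.card X * ∑ i, M.e i : ℕ) : ℤ)
            * (M.mult j f - M.e j * M.mult i₀ f)) := by
      simp only [Finset.sum_sub_distrib, ← Finset.mul_sum, ← Finset.sum_mul, he, hN]
      push_cast
      ring
    have h := dvd_sub hj (h0.mul_left (M.e j : ℤ))
    rw [key, dvd_neg] at h
    have hp' : Prime (p : ℤ) := Nat.prime_iff_prime_int.1 hp
    push_cast at h ⊢
    obtain ⟨l, u, hu, hlu⟩ := WfDvdMonoid.max_power_factor
      (show ((Fintype.card X * ∑ i, M.e i : ℕ) : ℤ) ≠ 0 from fun h0 =>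
        hc (by rw [Nat.cast_eq_zero.1 h0]; exact dvd_zero _)) hp'.irreducible
    have hl : l ≤ c := by
      by_contra hl
      refine hc (Int.natCast_dvd_natCast.1 ?_)
      rw [hlu]
      push_cast
      exact (pow_dvd_pow _ (by omega)).mul_right _
    push_cast at hlu
    rw [hlu, mul_assoc] at h
    have h2 : (p : ℤ) ^ l * (p : ℤ) ^ m ∣
        (p : ℤ) ^ l * (u * (M.mult j f - M.e j * M.mult i₀ f)) := by
      rw [← pow_add]
      exact (pow_dvd_pow _ (by omega)).trans h
    exact hp'.pow_dvd_of_dvd_mul_left m hu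
      ((mul_dvd_mul_iff_left (pow_ne_zero _ hp'.ne_zero)).1 h2)
  have hS' : ∀ f ∈ S, IsKummer K (p ^ m) (φ f) ∧ ∀ j, ((p ^ m : ℕ) : ℤ) ∣ M.mult j (φ f) := by
    intro f hf
    refine ⟨⟨mul_ne_zero (hS f hf).1 (zpow_ne_zero _ hπ0), fun v => ?_⟩, fun j => ?_⟩
    · rw [Place.ord_mul _ (hS f hf).1 (zpow_ne_zero _ hπ0), Place.ord_zpow,
        IsScalarTower.algebraMap_apply W K F, FF.ord_algebraMap, mul_zero, add_zero]
      exact (Int.natCast_dvd_natCast.2 (pow_dvd_pow p (Nat.le_add_left m c))).trans ((hS f hf).2 v)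
    · rw [hpos f (hS f hf).1 j]
      exact hdiv f hf j
  have hd : ∀ f ∈ S, ∀ f' ∈ S, f ≠ f' →
      ¬ ∃ (a : K) (g : F), φ f = φ f' * algebraMap K F a * g ^ (p ^ m) := by
    rintro f hf f' hf' hne ⟨a, g, h⟩
    refine hdist f hf f' hf' hne ⟨algebraMap W K π ^ (-M.mult i₀ f') * a *
      (algebraMap W K π ^ (-M.mult i₀ f))⁻¹, g, ?_⟩
    rw [hφK f, hφK f'] at h
    have h0 : algebraMap K F (algebraMap W K π ^ (-M.mult i₀ f)) ≠ 0 :=
      (map_ne_zero _).2 (zpow_ne_zero _ hπK)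
    rw [map_mul, map_mul, map_inv₀]
    apply mul_right_cancel₀ h0
    rw [h]
    field_simp
  have hinj : Set.InjOn φ S := fun f hf f' hf' h => by
    by_contra hne
    exact hd f hf f' hf' hne ⟨1, 1, by rw [h]; simp⟩
  rw [← Finset.card_image_of_injOn hinj]
  refine card_vertTrivial_le M hπK hKfrac hconst (by push_cast; exact hpW.pow m) B hB _ ?_ ?_
  · intro u hu
    obtain ⟨f, hf, rfl⟩ := Finset.mem_image.1 hu
    exact hS' f hf
  · intro u hu u' hu' hne
    obtain ⟨f, hf, rfl⟩ := Finset.mem_image.1 hu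
    obtain ⟨f', hf', rfl⟩ := Finset.mem_image.1 hu'
    exact hd f hf f' hf' (fun h => hne (h ▸ rfl))

end FLTAgent.TwoChart
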