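import Mathlib

/-!
# The valuation of a locally principal prime

`exists_valuation_of_locally_principal`: a prime `P` of a Noetherian domain which is generated
by one element near itself gives a normalised discrete valuation on the fraction field, whose
valuation ring is the localisation at `P`. The localisation is a local Noetherian domain with
principal maximal ideal, hence a discrete valuation ring.
-/

set_option autoImplicit false

noncomputable section

open WithZero IsDedekindDomain

namespace FLTAgent.TwoChart

/-- A prime `P` of a Noetherian domain which is generated by `g` near itself has a normalised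
valuation on the fraction field. -/
theorem exists_valuation_of_locally_principal {A : Type*} [CommRing A] [IsDomain A]
    [IsNoetherianRing A] {F : Type*} [Field F] [Algebra A F] [IsFractionRing A F] (P : Ideal A)
    [P.IsPrime] {g : A} (hg0 : g ≠ 0) (hgP : g ∈ P)
    (hgen : ∀ a ∈ P, ∃ s ∉ P, ∃ u, s * a = u * g) :
    ∃ v : Valuation F ℤᵐ⁰, (∀ a, v (algebraMap A F a) ≤ 1) ∧
      (∀ a, v (algebraMap A F a) < 1 ↔ a ∈ P) ∧ v (algebraMap A F g) = exp (-1 : ℤ) ∧
      ∀ x, v x ≤ 1 → ∃ a b, b ∉ P ∧ x * algebraMap A F b = algebraMap A F a := by
  classical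
  let L : Subalgebra A F :=
    Localization.subalgebra.ofField F P.primeCompl P.primeCompl_le_nonZeroDivisors
  have : IsLocalization.AtPrime L P :=
    Localization.subalgebra.isLocalization_ofField F P.primeCompl P.primeCompl_le_nonZeroDivisors
  have : IsLocalRing L := IsLocalization.AtPrime.isLocalRing L P
  have : IsNoetherianRing L := IsLocalization.isNoetherianRing P.primeCompl L inferInstance
  have : IsFractionRing L F :=
    IsFractionRing.isFractionRing_of_isDomain_of_isLocalization P.primeCompl L F
  have hmax : IsLocalRing.maximalIdeal L = Ideal.span {algebraMap A L g} := by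
    refine le_antisymm ?_ ?_
    · intro x hx
      obtain ⟨⟨a, s⟩, hs⟩ := IsLocalization.surj P.primeCompl x
      simp only at hs
      have ha : a ∈ P := (IsLocalization.AtPrime.to_map_mem_maximal_iff L P a).1
        (hs ▸ Ideal.mul_mem_right _ _ hx)
      obtain ⟨s', hs', u, hu⟩ := hgen a ha
      have hsu : IsUnit (algebraMap A L (s * s')) := IsLocalization.map_units L
        (⟨s * s', mul_mem s.2 (show s' ∈ P.primeCompl from hs')⟩ : P.primeCompl)
      obtain ⟨w, hw⟩ := hsu.exists_right_inv
      rw [Ideal.mem_span_singleton']
      refine ⟨w * algebraMap A L u, ?_⟩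
      rw [mul_assoc, ← map_mul, ← hu, map_mul, ← hs,
        show w * (algebraMap A L s' * (x * algebraMap A L s)) =
          x * (algebraMap A L (s * s') * w) by rw [map_mul]; ring, hw, mul_one]
    · rw [Ideal.span_singleton_le_iff_mem, IsLocalization.AtPrime.to_map_mem_maximal_iff L P]
      exact hgP
  have hinj : Function.Injective (algebraMap A L) :=
    IsLocalization.injective L P.primeCompl_le_nonZeroDivisors
  have hgL : algebraMap A L g ≠ 0 := fun h => hg0 (hinj (by rw [h, map_zero]))
  have hnf : ¬ IsField L := fun hf => by
    have := IsLocalRing.isField_iff_maximalIdeal_eq.1 hf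
    rw [hmax, Ideal.span_singleton_eq_bot] at this
    exact hgL this
  have : IsDiscreteValuationRing L :=
    ((IsDiscreteValuationRing.TFAE L hnf).out 0 4 : IsDiscreteValuationRing L ↔
      (IsLocalRing.maximalIdeal L).IsPrincipal).2 ⟨⟨_, hmax⟩⟩
  set m := IsDiscreteValuationRing.maximalIdeal L with hm
  refine ⟨m.valuation F, fun a => ?_, fun a => ?_, ?_, fun x hx => ?_⟩
  · rw [IsScalarTower.algebraMap_apply A L F]
    exact m.valuation_le_one _
  · rw [IsScalarTower.algebraMap_apply A L F]
    refine (m.valuation_lt_one_iff_mem (K := F) _).trans ?_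
    show algebraMap A L a ∈ IsLocalRing.maximalIdeal L ↔ a ∈ P
    exact IsLocalization.AtPrime.to_map_mem_maximal_iff L P a
  · rw [IsScalarTower.algebraMap_apply A L F, m.valuation_of_algebraMap]
    exact m.intValuation_singleton hgL hmax
  · obtain ⟨y, rfl⟩ := IsDiscreteValuationRing.exists_lift_of_le_one hx
    obtain ⟨⟨a, b⟩, hab⟩ := IsLocalization.surj P.primeCompl y
    refine ⟨a, b, b.2, ?_⟩
    have := congrArg (algebraMap L F) hab
    rwa [map_mul, ← IsScalarTower.algebraMap_apply, ← IsScalarTower.algebraMap_apply] at this

end FLTAgent.TwoChart
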