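import Fermat.Agent.TwoChart.ChartValuation
import Fermat.Agent.TwoChart.Basic
import Fermat.Agent.FF.PlacesMain

/-!
# Two-chart models: the data of one chart

`Chart` describes the special fibre of one chart: every component is a copy of one curve, given
by a Dedekind ring `C` inside its function field `E`, with ring maps `comp i` onto `C`, crossing
points and local equations of the components. From these data we derive the places of closed
points (`exists_place_of_isMaximal`), the local rings of the components (`exists_unit_mul_mem`)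
and the normalised valuation of each component (`exists_val`). `FromCharts.lean` turns two
compatible charts into a `Model`.
-/

set_option autoImplicit false
set_option linter.unusedSectionVars false

noncomputable section

open AlgebraicCurve WithZero

namespace FLTAgent.TwoChart

/-- The special fibre of one chart: every component is a copy of the smooth curve `C`. -/
structure Chart (W : Type) [CommRing W] {k : Type} [Field k] (res : W →+* k) {F : Type} [Field F]
    [Algebra W F] (π : W) (s : F) {E : Type} [Field E] [Algebra k E] (sbar : E) {ι : Type}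
    (e : ι → ℕ) where
  /-- Restriction to a component. -/
  comp : ι → intCl W ({s} : Set F) →+* E
  /-- The coordinate ring of each component. -/
  C : Subalgebra k E
  dedekind : IsDedekindDomain C
  fraction : IsFractionRing C E
  C_integral : ∀ c ∈ C, IsIntegral (Algebra.adjoin k ({sbar} : Set E)) c
  comp_range : ∀ i, Set.range (comp i) = (C : Set E)
  sbar_mem : sbar ∈ C
  /-- The coordinate on a component is, up to ramification, the coordinate of the curve. -/
  comp_s : ∀ i, comp i ⟨s, subset_intCl _ rfl⟩ ≠ 0 ∧ ∃ d : ℕ, 0 < d ∧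
    ∀ v : Place k E, v.ord (comp i ⟨s, subset_intCl _ rfl⟩) = (d : ℤ) * v.ord sbar
  comp_const : ∀ i (w : W),
    comp i (algebraMap W (intCl W ({s} : Set F)) w) = algebraMap k E (res w)
  /-- The whole special fibre. -/
  exists_ker_le : ∀ P : Ideal (intCl W ({s} : Set F)), P.IsPrime →
    algebraMap W (intCl W ({s} : Set F)) π ∈ P → ∃ i, RingHom.ker (comp i) ≤ P
  /-- The crossing points. -/
  Cross : Place k E → Prop
  /-- Crossings are away from `0` and `∞`. -/
  ord_cross : ∀ v, Cross v → v.ord sbar = 0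
  /-- A crossing is the same point on all components. -/
  cross_same : ∀ v, Cross v → ∀ i j a, comp i a ≠ 0 ∧ v.ord (comp i a) = 0 →
    comp j a ≠ 0 ∧ v.ord (comp j a) = 0
  /-- Outside the crossings the components are disjoint. -/
  separated : ∀ i v, 0 ≤ v.ord sbar → ¬ Cross v → ∀ j, j ≠ i →
    ∃ r, comp j r = 0 ∧ comp i r ≠ 0 ∧ v.ord (comp i r) = 0
  /-- Each component is a Cartier divisor, meeting the others transversally. -/
  principal : ∀ i v, 0 ≤ v.ord sbar → ∃ g,
    g ≠ 0 ∧ comp i g = 0 ∧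
    (∀ a, comp i a = 0 → ∃ u b, comp i u ≠ 0 ∧ v.ord (comp i u) = 0 ∧ u * a = b * g) ∧
    (∃ u w, comp i u ≠ 0 ∧ comp i w ≠ 0 ∧
      u * algebraMap W (intCl W ({s} : Set F)) π = w * g ^ e i) ∧
    (Cross v → ∀ j, j ≠ i → comp j g ≠ 0 ∧ v.ord (comp j g) = 1)

namespace Chart

variable {W : Type} [CommRing W] {k : Type} [Field k] {res : W →+* k} {F : Type} [Field F]
  [Algebra W F] {π : W} {s : F} {E : Type} [Field E] [Algebra k E] {sbar : E} {ι : Type}
  {e : ι → ℕ} (c : Chart W res π s sbar e)

theorem comp_mem (i : ι) (a : intCl W ({s} : Set F)) : c.comp i a ∈ c.C := by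
  rw [← SetLike.mem_coe, ← c.comp_range i]
  exact ⟨a, rfl⟩

theorem exists_comp_eq (i : ι) {x : E} (hx : x ∈ c.C) : ∃ a, c.comp i a = x := by
  rwa [← SetLike.mem_coe, ← c.comp_range i] at hx

theorem ord_comp_s_eq_zero (i : ι) {v : Place k E} (h : v.ord sbar = 0) :
    v.ord (c.comp i ⟨s, subset_intCl _ rfl⟩) = 0 := by
  obtain ⟨-, d, -, hd⟩ := c.comp_s i
  rw [hd, h, mul_zero]

theorem ord_comp_s_nonneg_iff (i : ι) (v : Place k E) :
    0 ≤ v.ord (c.comp i ⟨s, subset_intCl _ rfl⟩) ↔ 0 ≤ v.ord sbar := by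
  obtain ⟨-, d, hd0, hd⟩ := c.comp_s i
  rw [hd]
  exact ⟨fun h => (mul_nonneg_iff_of_pos_left (by exact_mod_cast hd0)).1 h,
    fun h => mul_nonneg (by omega) h⟩

/-- Functions on the curve are regular where the coordinate is finite. -/
theorem mem_place_of_mem {v : Place k E} (hv : 0 ≤ v.ord sbar) {x : E} (hx : x ∈ c.C) :
    x ∈ v.toValuationSubring := by
  have hadj : ∀ y ∈ Algebra.adjoin k ({sbar} : Set E), y ∈ v.toValuationSubring := by
    intro y hy
    induction hy using Algebra.adjoin_induction with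
    | mem y hy => exact (FF.mem_iff v y).2 (Or.inr (by rw [Set.mem_singleton_iff.1 hy]; exact hv))
    | algebraMap r => exact v.algebraMap_mem' r
    | add a b _ _ ha hb => exact add_mem ha hb
    | mul a b _ _ ha hb => exact mul_mem ha hb
  obtain ⟨p, hp, hpx⟩ := c.C_integral x hx
  let φ : Algebra.adjoin k ({sbar} : Set E) →+* v.toValuationSubring :=
    (Algebra.adjoin k ({sbar} : Set E)).val.toRingHom.codRestrict v.toValuationSubring.toSubring
      fun y => hadj y y.2
  have hint : IsIntegral v.toValuationSubring x := ⟨p.map φ, hp.map φ, by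
    rw [Polynomial.eval₂_map]; exact hpx⟩
  obtain ⟨y, hy⟩ := (IsIntegrallyClosed.isIntegral_iff (R := v.toValuationSubring) (K := E)).1 hint
  exact hy ▸ y.2

theorem ord_comp_nonneg {v : Place k E} (hv : 0 ≤ v.ord sbar) (i : ι)
    (a : intCl W ({s} : Set F)) : 0 ≤ v.ord (c.comp i a) :=
  FF.ord_nonneg_of_mem_placeRing v (c.mem_place_of_mem hv (c.comp_mem i a))

/-- The local ring of the curve at a place over the chart. -/
theorem exists_unit_mul_mem {v : Place k E} (hv : 0 ≤ v.ord sbar) {x : E} (hx : 0 ≤ v.ord x) :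
    ∃ d ∈ c.C, d ≠ 0 ∧ v.ord d = 0 ∧ x * d ∈ c.C := by
  have := c.dedekind
  have := c.fraction
  obtain ⟨P, hP⟩ := FF.exists_eq_ofHeightOneSpectrum (R := c.C) (K := k) (F := E) v fun r =>
    c.mem_place_of_mem hv r.2
  have hle : P.valuation E x ≤ 1 := by
    rw [← FF.mem_ofHeightOneSpectrum_iff (K := k) (F := E) P x, ← hP, FF.mem_iff]
    exact Or.inr hx
  obtain ⟨n, ⟨d, hd⟩, hnd⟩ := P.exists_primeCompl_mul_eq_of_integer x hle
  have hd0 : (d : E) ≠ 0 := fun h => hd (by
    have h0 : d = 0 := Subtype.ext h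
    rw [h0]; exact zero_mem _)
  have hval : P.valuation E (algebraMap c.C E d) = 1 :=
    le_antisymm (P.valuation_le_one d)
      (not_lt.1 fun h => hd ((P.valuation_lt_one_iff_mem (K := E) d).1 h))
  have hinv : (d : E)⁻¹ ∈ v.toValuationSubring := by
    rw [hP, FF.mem_ofHeightOneSpectrum_iff, map_inv₀]
    exact le_of_eq (by rw [show (d : E) = algebraMap c.C E d from rfl, hval, inv_one])
  refine ⟨d, d.2, hd0, le_antisymm ?_ (FF.ord_nonneg_of_mem_placeRing v
    (c.mem_place_of_mem hv d.2)), ?_⟩
  · have := FF.ord_nonneg_of_mem_placeRing v hinv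
    rw [Place.ord_inv] at this
    omega
  · have h := n.2
    rwa [show x * (d : E) = (n : E) from hnd]

variable [IsAlgClosed k] [FF.IsFF k E]

/-- Maximal ideals of the curve are places over the chart. -/
theorem exists_place_of_isMaximal (hs : Transcendental k sbar) {Q : Ideal c.C}
    (hQ : Q.IsMaximal) :
    ∃ v : Place k E, 0 ≤ v.ord sbar ∧
      ∀ x : c.C, x ∈ Q ↔ ((x : E) = 0 ∨ 0 < v.ord (x : E)) := by
  have := c.dedekind
  have := c.fraction
  have hne : Q ≠ ⊥ := by
    intro hbot
    obtain ⟨w, hw⟩ := FF.exists_zero (K := k) hs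
    have hf : IsField c.C := by
      refine ⟨⟨0, 1, zero_ne_one⟩, mul_comm, fun {a} ha => ?_⟩
      have hu : IsUnit a := by
        by_contra hu
        obtain ⟨m, hm, ham⟩ := exists_max_ideal_of_mem_nonunits hu
        have := (Ideal.isMaximal_iff.1 hQ)
        have hmQ : m = Q := (hQ.eq_of_le hm.ne_top (hbot ▸ bot_le)).symm
        rw [hmQ, hbot] at ham
        exact ha ham
      exact hu.exists_right_inv
    obtain ⟨b, hb⟩ := hf.mul_inv_cancel (a := (⟨sbar, c.sbar_mem⟩ : c.C)) (fun h => by
      have h0 : sbar = 0 := congrArg Subtype.val h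
      rw [h0, Place.ord_zero] at hw
      exact lt_irrefl _ hw)
    have h1 : sbar * (b : E) = 1 := congrArg Subtype.val hb
    have h2 := FF.ord_nonneg_of_mem_placeRing w (c.mem_place_of_mem hw.le b.2)
    have h3 : sbar ≠ 0 := left_ne_zero_of_mul_eq_one h1
    have h4 : (b : E) ≠ 0 := right_ne_zero_of_mul_eq_one h1
    have h5 := congrArg w.ord h1
    rw [Place.ord_mul _ h3 h4, ← map_one (algebraMap k E), FF.ord_algebraMap] at h5
    omega
  let P : IsDedekindDomain.HeightOneSpectrum c.C := ⟨Q, hQ.isPrime, hne⟩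
  set v : Place k E := Place.ofHeightOneSpectrum P with hv
  have hmem : ∀ r : c.C, (r : E) ∈ v.toValuationSubring := fun r => by
    rw [hv, FF.mem_ofHeightOneSpectrum_iff]
    exact P.valuation_le_one r
  refine ⟨v, FF.ord_nonneg_of_mem_placeRing v (hmem ⟨sbar, c.sbar_mem⟩), fun x => ?_⟩
  rcases eq_or_ne (x : E) 0 with hx | hx
  · simp only [hx, true_or, iff_true]
    rw [show x = 0 from Subtype.ext hx]
    exact zero_mem _
  have h1 := P.valuation_lt_one_iff_mem (K := E) x
  have h2 : P.valuation E (algebraMap c.C E x) ≤ 1 := P.valuation_le_one x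
  have h3 : ((x : E)⁻¹ ∈ v.toValuationSubring) ↔ ¬ x ∈ Q := by
    rw [hv, FF.mem_ofHeightOneSpectrum_iff, map_inv₀, inv_le_one₀
      (pos_of_ne_zero ((Valuation.ne_zero_iff _).2 hx))]
    exact ⟨fun h h' => absurd h (not_le.2 (h1.2 h')), fun h => not_lt.1 fun h' => h (h1.1 h')⟩
  rw [FF.mem_iff, or_iff_right (inv_ne_zero hx), Place.ord_inv] at h3
  simp only [hx, false_or]
  constructor
  · intro h
    by_contra hle
    exact h3.1 (by omega) h
  · intro h
    by_contra hnot
    have := h3.2 hnot
    omega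

/-- A component and a place on it in a given chart. -/
theorem exists_place (hs : Transcendental k sbar) : ∃ v : Place k E, 0 ≤ v.ord sbar :=
  let ⟨w, hw⟩ := FF.exists_zero (K := k) hs
  ⟨w, hw.le⟩

variable [IsNoetherianRing (intCl W ({s} : Set F))]
  [IsFractionRing (intCl W ({s} : Set F)) F]

/-- The valuation of a component, read on a chart. -/
theorem exists_val (hs : Transcendental k sbar) (i : ι) : ∃ v : Valuation F ℤᵐ⁰,
    (∀ a : intCl W ({s} : Set F), v (a : F) ≤ 1) ∧
    (∀ a : intCl W ({s} : Set F), v (a : F) < 1 ↔ c.comp i a = 0) ∧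
    (∃ g : intCl W ({s} : Set F), v (g : F) = exp (-1 : ℤ)) ∧
    v (algebraMap W F π) = exp (-(e i : ℤ)) ∧
    ∀ x, v x ≤ 1 → ∃ a b : intCl W ({s} : Set F), c.comp i b ≠ 0 ∧ x * (b : F) = (a : F) := by
  obtain ⟨w, hw⟩ := exists_place hs
  obtain ⟨g, hg0, hgi, hgen, ⟨u, z, hu, hz, hπ⟩, -⟩ := c.principal i w hw
  have : (RingHom.ker (c.comp i)).IsPrime := RingHom.ker_isPrime _
  obtain ⟨v, hle, hlt, hg, hfrac⟩ := exists_valuation_of_locally_principal (F := F)
    (RingHom.ker (c.comp i)) hg0 hgi fun a ha => by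
      obtain ⟨u, b, hu, -, h⟩ := hgen a ha
      exact ⟨u, hu, b, h⟩
  refine ⟨v, hle, hlt, ⟨g, hg⟩, ?_, hfrac⟩
  have h1 : ∀ a, c.comp i a ≠ 0 → v (algebraMap (intCl W ({s} : Set F)) F a) = 1 := fun a ha =>
    le_antisymm (hle a) (not_lt.1 fun h => ha ((hlt a).1 h))
  have h2 := congrArg (fun y => v (algebraMap (intCl W ({s} : Set F)) F y)) hπ
  simp only [map_mul, map_pow, h1 u hu, h1 z hz, one_mul, hg] at h2
  rw [← exp_nsmul, nsmul_eq_mul, mul_neg, mul_one,
    ← IsScalarTower.algebraMap_apply W (intCl W ({s} : Set F)) F] at h2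
  exact h2

end Chart

end FLTAgent.TwoChart
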