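import Fermat.Agent.TwoChart.Basic

/-!
# Two-chart models: finiteness of `H¹` and global functions

Over a Noetherian base, the root module on the overlap modulo those of the two charts is a
finite module (`exists_finite_H1`), so its `π`-power torsion has bounded exponent
(`exists_torsion_bound`). A function in both charts is integral over the constant field
(`isIntegral_of_mem_both`).
-/

set_option autoImplicit false

namespace FLTAgent.TwoChart

open Submodule

variable {W : Type*} [CommRing W] {F : Type*} [Field F] [Algebra W F]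

/-- A nonzero denominator in the chart for any element algebraic over `W[s]`. -/
theorem exists_mul_mem_intCl {s : Set F} (halg : Algebra.IsAlgebraic (Algebra.adjoin W s) F)
    (f : F) : ∃ b ∈ intCl W s, b ≠ 0 ∧ f * b ∈ intCl W s := by
  obtain ⟨d, hd0, hd⟩ := (halg.isAlgebraic f).exists_integral_multiple
  refine ⟨(d : F), adjoin_le_intCl s d.2, fun h => hd0 (Subtype.ext h), ?_⟩
  rw [mul_comm]
  exact hd

/-- The lattice `rootModule` is finite over `W[t]`. -/
theorem exists_finite_generators [IsNoetherianRing W] {n : ℕ} [NeZero n] {f : F} (hf : f ≠ 0)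
    {t : F} (halg : Algebra.IsAlgebraic (Algebra.adjoin W ({t} : Set F)) F)
    (hfin : Module.Finite (Algebra.adjoin W ({t} : Set F))
      (integralClosure (Algebra.adjoin W ({t} : Set F)) F)) :
    ∃ S : Finset F, (S : Set F) ⊆ rootModule W n f {t} ∧
      ∀ l ∈ rootModule W n f {t},
        l ∈ Submodule.span (Algebra.adjoin W ({t} : Set F)) (S : Set F) := by
  have : IsNoetherianRing (Algebra.adjoin W ({t} : Set F)) :=
    isNoetherianRing_of_fg (Subalgebra.fg_adjoin_finset {t} |> fun h => by simpa using h)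
  obtain ⟨b, hb, hb0, hfb⟩ := exists_mul_mem_intCl halg f
  -- multiplication by `b` maps the lattice into the chart
  let L : Submodule (Algebra.adjoin W ({t} : Set F)) F :=
    { carrier := rootModule W n f {t}
      zero_mem' := Submodule.zero_mem _
      add_mem' := Submodule.add_mem _
      smul_mem' := fun c g hg => mul_mem_rootModule (adjoin_le_intCl _ c.2) hg }
  have hbmem : ∀ g ∈ L, b * g ∈ intCl W {t} := by
    intro g hg
    refine mem_intCl_of_pow_mem (Nat.pos_of_ne_zero (NeZero.ne n)) ?_
    obtain ⟨m, hm⟩ : ∃ m, n = m + 1 := ⟨n - 1, by have := NeZero.ne n; omega⟩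
    have : (b * g) ^ n = (g ^ n * f⁻¹) * ((f * b) * b ^ m) := by
      rw [hm, mul_pow, pow_succ b m]
      field_simp
    rw [this]
    exact mul_mem hg (mul_mem hfb (pow_mem hb m))
  let ψ : L →ₗ[Algebra.adjoin W ({t} : Set F)] integralClosure (Algebra.adjoin W ({t} : Set F)) F :=
    { toFun := fun g => ⟨b * (g : F), hbmem g g.2⟩
      map_add' := fun g h => Subtype.ext (mul_add b (g : F) (h : F))
      map_smul' := fun c g => Subtype.ext (mul_left_comm b ((c : F)) (g : F)) }
  have hψ : Function.Injective ψ := fun g h hgh =>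
    Subtype.ext (mul_left_cancel₀ hb0 (congrArg Subtype.val hgh))
  have : Module.Finite (Algebra.adjoin W ({t} : Set F)) L := Module.Finite.of_injective ψ hψ
  obtain ⟨S, hS⟩ := (Module.Finite.iff_fg.1 this : L.FG)
  exact ⟨S, fun g hg => hS.le (Submodule.subset_span hg), fun l hl => hS.ge hl⟩

/-- `H¹` of the lattice pair is generated by finitely many elements over `W`. -/
theorem exists_finite_H1 [IsNoetherianRing W] {n : ℕ} [NeZero n] {f : F} (hf : f ≠ 0)
    {t : F} (ht : t ≠ 0) (halg : Algebra.IsAlgebraic (Algebra.adjoin W ({t} : Set F)) F)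
    (hfin : Module.Finite (Algebra.adjoin W ({t} : Set F))
      (integralClosure (Algebra.adjoin W ({t} : Set F)) F)) :
    ∃ T : Submodule W F, T.FG ∧ rootModule W n f {t, t⁻¹} ≤
      rootModule W n f {t} ⊔ rootModule W n f {t⁻¹} ⊔ T := by
  classical
  obtain ⟨S, hSL, hS⟩ := exists_finite_generators (n := n) hf halg hfin
  set A₀ := rootModule W n f {t} with hA₀
  set A₁ := rootModule W n f {t⁻¹} with hA₁
  -- each generator moves into the other chart
  have hm : ∀ g ∈ S, ∃ m : ℕ, ∀ j, m ≤ j → (t⁻¹) ^ j * g ∈ A₁ := by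
    intro g hg
    have hmem : g ^ n * f⁻¹ ∈ intCl W {t⁻¹, (t⁻¹)⁻¹} := by
      rw [inv_inv, Set.pair_comm]
      exact intCl_le_pair_left t (hSL hg)
    obtain ⟨a, ha⟩ := exists_pow_mul_mem (inv_ne_zero ht) hmem
    refine ⟨a, fun j hj => ?_⟩
    have hjn : a ≤ j * n := hj.trans (Nat.le_mul_of_pos_right j (Nat.pos_of_ne_zero (NeZero.ne n)))
    rw [hA₁, mem_rootModule, mul_pow, ← pow_mul,
      show j * n = (j * n - a) + a by omega, pow_add, mul_assoc, mul_assoc]
    exact mul_mem (pow_mem (subset_intCl _ (Set.mem_singleton _)) _) ha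
  choose! e he using hm
  let gens : Finset F := S.biUnion fun g => (Finset.range (e g)).image fun j => (t⁻¹) ^ j * g
  refine ⟨span W (gens : Set F), ⟨gens, rfl⟩, fun l hl => ?_⟩
  set A := A₀ ⊔ A₁ ⊔ span W (gens : Set F) with hA
  -- all monomial multiples of the generators lie in `A`
  have hz : ∀ g ∈ S, ∀ i m : ℕ, t ^ i * ((t⁻¹) ^ m * g) ∈ A := by
    intro g hg i m
    rcases le_total m i with h | h
    · refine mem_sup_left (mem_sup_left ?_)
      have : t ^ i * ((t⁻¹) ^ m * g) = t ^ (i - m) * g := by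
        rw [← mul_assoc, inv_pow, ← pow_sub₀ t ht h]
      rw [this]
      exact mul_mem_rootModule (pow_mem (subset_intCl _ (Set.mem_singleton t)) _) (hSL hg)
    · have : t ^ i * ((t⁻¹) ^ m * g) = (t⁻¹) ^ (m - i) * g := by
        rw [← mul_assoc]
        congr 1
        rw [pow_sub₀ _ (inv_ne_zero ht) h, inv_pow t i, inv_inv, mul_comm]
      rw [this]
      rcases le_or_gt (e g) (m - i) with h' | h'
      · exact mem_sup_left (mem_sup_right (he g hg _ h'))
      · exact mem_sup_right (subset_span (Finset.mem_biUnion.2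
          ⟨g, hg, Finset.mem_image.2 ⟨m - i, Finset.mem_range.2 h', rfl⟩⟩))
  obtain ⟨m', hm'⟩ := exists_pow_mul_mem ht (mem_rootModule.1 hl)
  have htl : t ^ m' * l ∈ A₀ := by
    obtain ⟨r, hr⟩ : ∃ r, n = r + 1 := ⟨n - 1, by have := NeZero.ne n; omega⟩
    rw [hA₀, mem_rootModule, mul_pow, mul_assoc, hr, pow_succ (t ^ m') r, mul_assoc, ← hr]
    exact mul_mem (pow_mem (pow_mem (subset_intCl _ (Set.mem_singleton t)) _) _) hm'
  have key : ∀ x ∈ span (Algebra.adjoin W ({t} : Set F)) (S : Set F), (t⁻¹) ^ m' * x ∈ A := by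
    intro x hx
    obtain ⟨c, -, rfl⟩ := Submodule.mem_span_finset.1 hx
    rw [Finset.mul_sum]
    refine sum_mem fun g hg => ?_
    obtain ⟨cg, hcg⟩ := c g
    have hcg' := hcg
    rw [Algebra.adjoin_singleton_eq_range_aeval] at hcg'
    obtain ⟨q, rfl⟩ := hcg'
    change (t⁻¹) ^ m' * (Polynomial.aeval t q * g) ∈ A
    rw [Polynomial.aeval_eq_sum_range, Finset.sum_mul, Finset.mul_sum]
    refine sum_mem fun i _ => ?_
    rw [smul_mul_assoc, mul_smul_comm, mul_left_comm]
    exact A.smul_mem _ (hz g hg i m')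
  have := key _ (hS _ htl)
  rwa [← mul_assoc, inv_pow, inv_mul_cancel₀ (pow_ne_zero _ ht), one_mul] at this

/-- The torsion of `H¹` has bounded exponent. -/
theorem exists_torsion_bound [IsNoetherianRing W] {n : ℕ} [NeZero n] {f : F} (hf : f ≠ 0)
    {t : F} (ht : t ≠ 0) (halg : Algebra.IsAlgebraic (Algebra.adjoin W ({t} : Set F)) F)
    (hfin : Module.Finite (Algebra.adjoin W ({t} : Set F))
      (integralClosure (Algebra.adjoin W ({t} : Set F)) F)) (π : W) :
    ∃ c : ℕ, ∀ (k : ℕ) (l : F), l ∈ rootModule W n f {t, t⁻¹} →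
      π ^ k • l ∈ rootModule W n f {t} ⊔ rootModule W n f {t⁻¹} →
      π ^ c • l ∈ rootModule W n f {t} ⊔ rootModule W n f {t⁻¹} := by
  obtain ⟨T, hT, hle⟩ := exists_finite_H1 (n := n) hf ht halg hfin
  set P := rootModule W n f {t} ⊔ rootModule W n f {t⁻¹} with hP
  let Tq : Submodule W (F ⧸ P) := T.map P.mkQ
  have : Module.Finite W Tq := Module.Finite.iff_fg.2 (hT.map _)
  let ker : ℕ →o Submodule W Tq :=
    ⟨fun k => LinearMap.ker (π ^ k • (LinearMap.id : Tq →ₗ[W] Tq)), by
      intro a b hab x hx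
      simp only [LinearMap.mem_ker, LinearMap.smul_apply, LinearMap.id_apply] at hx ⊢
      rw [show b = (b - a) + a by omega, pow_add, mul_smul, hx, smul_zero]⟩
  obtain ⟨c, hc⟩ := monotone_stabilizes_iff_noetherian.2 inferInstance ker
  refine ⟨c, fun k l hl hk => ?_⟩
  rcases le_total k c with h | h
  · rw [show c = (c - k) + k by omega, pow_add, mul_smul]
    exact Submodule.smul_mem _ _ hk
  · obtain ⟨a, ha, y, hy, rfl⟩ := Submodule.mem_sup.1 (hle hl)
    have hyP : π ^ k • y ∈ P := by
      have := sub_mem hk (Submodule.smul_mem P (π ^ k) ha)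
      rwa [smul_add, add_sub_cancel_left] at this
    have hmem : (⟨P.mkQ y, y, hy, rfl⟩ : Tq) ∈ ker k := by
      refine LinearMap.mem_ker.2 (Subtype.ext ?_)
      show π ^ k • P.mkQ y = 0
      rw [← map_smul]
      exact (Submodule.Quotient.mk_eq_zero P).2 hyP
    rw [← hc k h] at hmem
    have : π ^ c • P.mkQ y = 0 := congrArg Subtype.val (LinearMap.mem_ker.1 hmem)
    rw [← map_smul] at this
    rw [smul_add]
    exact add_mem (Submodule.smul_mem P _ ha) ((Submodule.Quotient.mk_eq_zero P).1 this)

/-- A function integral on both charts is integral over the constants. -/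
theorem isIntegral_of_mem_both {K : Type*} [Field K] [Algebra W K] [Algebra K F]
    [IsScalarTower W K F] {t : F} {x : F} (h₀ : x ∈ intCl W {t}) (h₁ : x ∈ intCl W {t⁻¹}) :
    IsIntegral K x := by
  by_contra hx
  have : IsIntegrallyClosedIn (integralClosure K F).toSubring F :=
    inferInstanceAs (IsIntegrallyClosedIn (integralClosure K F) F)
  obtain ⟨V, hKV, hxV⟩ := Subring.exists_le_valuationSubring_of_isIntegrallyClosedIn
    (R := (integralClosure K F).toSubring) (x := x) hx
  have hW : ∀ w : W, algebraMap W F w ∈ V := fun w => by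
    rw [IsScalarTower.algebraMap_apply W K F]
    exact hKV (isIntegral_algebraMap)
  have key : ∀ u : F, u ∈ V → x ∈ intCl W {u} → x ∈ V := by
    intro u hu hx'
    have hle : ∀ c ∈ Algebra.adjoin W ({u} : Set F), c ∈ V := by
      intro c hc
      induction hc using Algebra.adjoin_induction with
      | mem y hy => rcases hy with rfl; exact hu
      | algebraMap r => exact hW r
      | add y z _ _ hy hz => exact add_mem hy hz
      | mul y z _ _ hy hz => exact mul_mem hy hz
    obtain ⟨p, hp, hpx⟩ := hx'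
    let emb : Algebra.adjoin W ({u} : Set F) →+* V :=
      { toFun := fun c => ⟨c, hle c c.2⟩
        map_one' := rfl, map_mul' := fun _ _ => rfl, map_zero' := rfl, map_add' := fun _ _ => rfl }
    have hint : IsIntegral V x := ⟨p.map emb, hp.map _, by rw [Polynomial.eval₂_map]; exact hpx⟩
    obtain ⟨y, hy⟩ := (IsIntegrallyClosed.isIntegral_iff (R := V) (K := F)).1 hint
    exact hy ▸ y.2
  rcases V.mem_or_inv_mem t with ht | ht
  · exact hxV (key t ht h₀)
  · exact hxV (key t⁻¹ ht h₁)

end FLTAgent.TwoChart
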