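import Fermat.Agent.TwoChart.GlueLocal
import Fermat.Agent.TwoChart.Glue

/-!
# Two-chart models: global roots and prescribed multiplicities

`eq_const_mul_pow_of_roots`: a Kummer function without vertical part, with roots on the
components which agree at the crossings, is a constant times an `n`-th power (chart roots from
`GlueLocal.lean`, glued by `Glue.lean`). `exists_mult_indicator` provides functions with
multiplicity one on one component and zero on the others.
-/

set_option autoImplicit false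

noncomputable section

open AlgebraicCurve WithZero

namespace FLTAgent.TwoChart

variable {W : Type} [CommRing W] [IsNoetherianRing W] {k : Type} [Field k] [IsAlgClosed k]
  {res : W →+* k} {F : Type} [Field F] [Algebra W F] {π : W} {t : F} {ι : Type} [Fintype ι]
  {E : ι → Type} [∀ i, Field (E i)] [∀ i, Algebra k (E i)] [∀ i, FF.IsFF k (E i)] {X : Type}
  {K : Type} [Field K] [Algebra W K] [Algebra K F] [IsScalarTower W K F]

namespace Model

variable {M : Model W k res F π t ι E X}

omit [IsNoetherianRing W] [IsAlgClosed k] [Fintype ι] [∀ i, FF.IsFF k (E i)] in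
/-- On the overlap too, a function vanishing on all components is in the radical of `π`. -/
theorem small_pair_of_val_lt {r : F} (hr : r ∈ intCl W {t, t⁻¹}) (h : ∀ i, M.val i r < 1) :
    Small W π ({t, t⁻¹} : Set F) r := by
  obtain ⟨m, hm⟩ := exists_pow_mul_mem M.t_ne_zero hr
  have hlt : ∀ i, M.val i (t ^ m * r) < 1 := fun i => by
    rw [map_mul, map_pow, M.val_t i, one_pow, one_mul]; exact h i
  have hs := Small.mono (intCl_le_pair_left (W := W) t)
    (M.radical t (Set.mem_insert _ _) _ hm hlt)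
  have := hs.mul (pow_mem (subset_intCl (W := W) ({t, t⁻¹} : Set F) (Or.inr rfl)) m)
  rwa [← mul_assoc, inv_pow, inv_mul_cancel₀ (pow_ne_zero _ M.t_ne_zero), one_mul] at this

/-- Roots on the components agreeing at the crossings come from a global root. -/
theorem eq_const_mul_pow_of_roots [Nonempty ι]
    (hπK : algebraMap W K π ≠ 0)
    (hKfrac : ∀ c : K, ∃ (w : W) (m : ℕ), c * algebraMap W K π ^ m = algebraMap W K w)
    (hconst : ∀ x : F, IsIntegral K x → x ∈ (algebraMap K F).range)
    {n : ℕ} [NeZero n] (hn : IsUnit (n : W)) {f : F} (hf : IsKummer K n f)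
    (hmult : ∀ i, M.mult i f = 0) {w : ∀ i, E i} (hw : ∀ i, w i ^ n = M.redF i f)
    (hagree : M.RootsAgree n f w) :
    ∃ (c : K) (g : F), c ≠ 0 ∧ f = algebraMap K F c * g ^ n := by
  have hvf : ∀ i, M.val i f = 1 := fun i => M.val_eq_one_of_mult_eq_zero hf.1 (hmult i)
  have ht : t ∈ ({t, t⁻¹} : Set F) := Set.mem_insert _ _
  have ht' : t⁻¹ ∈ ({t, t⁻¹} : Set F) := Or.inr rfl
  obtain ⟨g₀, hg₀, hw₀⟩ := exists_chart_root ht hπK hKfrac hn hf hmult hw hagree
  obtain ⟨g₁, hg₁, hw₁⟩ := exists_chart_root ht' hπK hKfrac hn hf hmult hw hagree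
  have hred : ∀ (g : F), (∀ i, g ∈ M.V i) → (∀ i, M.redF i g = w i) →
      ∀ i, M.val i (g ^ n * f⁻¹ - 1) < 1 := by
    intro g hgV hg i
    have hV : g ^ n * f⁻¹ ∈ M.V i :=
      mul_mem (pow_mem (hgV i) n) (M.mem_V.2 (by rw [map_inv₀, hvf i, inv_one]))
    rw [← M.redF_eq_zero_iff (sub_mem hV (one_mem _)), M.redF_sub hV (one_mem _),
      M.redF_mul (pow_mem (hgV i) n) (M.mem_V.2 (by rw [map_inv₀, hvf i, inv_one])),
      M.redF_inv (hvf i), M.redF_pow (hgV i), hg i, hw i, M.redF_one,
      mul_inv_cancel₀ (M.redF_ne_zero_of_val (hvf i)), sub_self]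
  have hgV₀ := fun i => root_mem_V ht (hvf i) hg₀
  have hgV₁ := fun i => root_mem_V ht' (hvf i) hg₁
  refine eq_const_mul_pow_of_glue (K := K) hconst M.t_ne_zero (M.alg t ht) (M.fin t ht)
    (π := π) ?_ hn hf.1 hg₀ (M.radical t ht _ (sub_mem hg₀ (one_mem _)) (hred g₀ hgV₀ hw₀))
    hg₁ (M.radical _ ht' _ (sub_mem hg₁ (one_mem _)) (hred g₁ hgV₁ hw₁)) ?_
  · rintro ⟨m, b, hb, hmb⟩
    obtain ⟨i⟩ := ‹Nonempty ι›
    have := congrArg (M.val i) hmb
    rw [one_pow, map_one, map_mul, M.val_pi] at this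
    have h1 : exp (-(M.e i : ℤ)) * M.val i b ≤ exp (-(M.e i : ℤ)) :=
      mul_le_of_le_one_right' (M.mem_V.1 (M.chart_le_V ht hb i))
    rw [← this, ← exp_zero, exp_le_exp] at h1
    have := M.e_pos i
    omega
  · have hpair : (g₀ - g₁) ^ n * f⁻¹ ∈ intCl W {t, t⁻¹} :=
      mem_rootModule.1 (Submodule.sub_mem _
        (rootModule_mono (n := n) f (intCl_le_pair_left (W := W) t) hg₀)
        (rootModule_mono (n := n) f (intCl_le_pair_right (W := W) t) hg₁))
    refine small_pair_of_val_lt (M := M) hpair fun i => ?_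
    rw [← M.redF_eq_zero_iff (M.pair_le_V hpair i),
      M.redF_mul (pow_mem (sub_mem (hgV₀ i) (hgV₁ i)) n)
        (M.mem_V.2 (by rw [map_inv₀, hvf i, inv_one])),
      M.redF_pow (sub_mem (hgV₀ i) (hgV₁ i)), M.redF_sub (hgV₀ i) (hgV₁ i), hw₀ i, hw₁ i,
      sub_self, zero_pow (NeZero.ne n), zero_mul]

variable (M) [Fintype X]

/-- A regular place of a component which is not a crossing. -/
theorem exists_reg_not_crossing (i : ι) :
    ∃ v : Place k (E i), M.IsReg t i v ∧ ∀ x, v ≠ M.pt x i := by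
  classical
  have : Infinite (Place k (E i)) := FF.infinite_places
  have hfin := ((FF.finite_ord_ne_zero (K := k) (M.redF i t)).union
    (Set.finite_range fun x => M.pt x i))
  obtain ⟨v, hv⟩ := hfin.exists_notMem
  simp only [Set.mem_union, Set.mem_ofPred_eq, Set.mem_range, not_or, not_exists, ne_eq,
    not_not] at hv
  exact ⟨v, by rw [IsReg, hv.1], fun x hx => hv.2 x hx.symm⟩

theorem val_lt_one_le {i : ι} {x : F} (h : M.val i x < 1) : M.val i x ≤ exp (-1 : ℤ) := by
  rcases eq_or_ne (M.val i x) 0 with h0 | h0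
  · rw [h0]; exact zero_le
  · rw [← exp_log h0, ← exp_zero, exp_lt_exp] at h
    rw [← exp_log h0, exp_le_exp]
    omega

/-- A function with multiplicity `1` along one component and `0` along the others. -/
theorem exists_mult_indicator (i : ι) :
    ∃ x : F, x ≠ 0 ∧ M.mult i x = 1 ∧ ∀ j, j ≠ i → M.mult j x = 0 := by
  classical
  have ht : t ∈ ({t, t⁻¹} : Set F) := Set.mem_insert _ _
  have hne : ∀ i, Nonempty (Place k (E i)) := fun i => FF.place_nonempty
  choose v hv hvx using M.exists_reg_not_crossing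
  have hsep : ∀ l j, j ≠ l → ∃ r : intCl W ({t} : Set F),
      M.val j (r : F) < 1 ∧ M.UnitAt l (v l) r := fun l j h => M.separated' ht (hv l) (hvx l) h
  choose r hr hru using hsep
  let q : ι → F := fun l => ∏ j, if h : j ≠ l then (r l j h : F) else 1
  have hfacmem : ∀ l j, (if h : j ≠ l then (r l j h : F) else 1) ∈ intCl W ({t} : Set F) := by
    intro l j
    split_ifs
    exacts [(r l j _).2, one_mem _]
  have hqle : ∀ l j, M.val j (q l) ≤ 1 := fun l j =>
    M.mem_V.1 (M.chart_le_V ht (prod_mem fun j _ => hfacmem l j) j)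
  have hqone : ∀ l, M.val l (q l) = 1 := by
    intro l
    simp only [q]
    rw [map_prod]
    refine Finset.prod_eq_one fun j _ => ?_
    split_ifs with h
    · exact (M.redF_ne_zero_iff (M.chart_le_V ht (r l j h).2 l)).1 (hru l j h).1
    · exact map_one _
  have hqlt : ∀ l j, j ≠ l → M.val j (q l) < 1 := by
    intro l j h
    simp only [q]
    rw [← Finset.mul_prod_erase Finset.univ _ (Finset.mem_univ j), map_mul, dif_pos h]
    exact lt_of_le_of_lt (mul_le_of_le_one_right'
      (M.mem_V.1 (M.chart_le_V ht (prod_mem fun j _ => hfacmem l j) j))) (hr l j h)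
  have : Nonempty ι := ⟨i⟩
  obtain ⟨P, hPbr, -⟩ := M.exists_pt_smooth hne ht (hv i) (hvx i)
  have hi : i ∈ P.br := by rw [hPbr]; exact Finset.mem_singleton_self i
  set y := ∑ l ∈ Finset.univ.erase i, q l with hy
  have hyi : M.val i y < 1 := by
    rw [hy]
    exact Valuation.map_sum_lt _ one_ne_zero fun l hl => hqlt l i (Finset.ne_of_mem_erase hl).symm
  have hyj : ∀ j, j ≠ i → M.val j y = 1 := by
    intro j hj
    rw [hy, ← Finset.add_sum_erase _ _ (Finset.mem_erase.2 ⟨hj, Finset.mem_univ j⟩),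
      Valuation.map_add_eq_of_lt_left, hqone j]
    rw [hqone j]
    exact Valuation.map_sum_lt _ one_ne_zero fun l hl => hqlt l j (Finset.ne_of_mem_erase hl).symm
  set x := P.gen i * q i + y ^ 2 with hx
  have hxi : M.val i x = exp (-1 : ℤ) := by
    have h1 : M.val i (P.gen i * q i) = exp (-1 : ℤ) := by
      rw [map_mul, P.val_gen hi, hqone i, mul_one]
    rw [hx, Valuation.map_add_eq_of_lt_left, h1]
    rw [h1, map_pow]
    refine lt_of_le_of_lt (pow_le_pow_left' (M.val_lt_one_le hyi) 2) ?_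
    rw [pow_two, ← exp_add, exp_lt_exp]
    norm_num
  have hxj : ∀ j, j ≠ i → M.val j x = 1 := by
    intro j hj
    rw [hx, Valuation.map_add_eq_of_lt_right]
    · rw [map_pow, hyj j hj, one_pow]
    · rw [map_pow, hyj j hj, one_pow, map_mul]
      exact lt_of_le_of_lt (mul_le_of_le_one_left'
        (M.mem_V.1 (M.chart_le_V ht (P.gen_mem i hi) j))) (hqlt i j hj)
  refine ⟨x, fun h => ?_, ?_, fun j hj => ?_⟩
  · rw [h, map_zero] at hxi; exact exp_ne_zero hxi.symm
  · rw [Model.mult, hxi, log_exp, neg_neg]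
  · rw [Model.mult, hxj j hj, log_one, neg_zero]

end Model

end FLTAgent.TwoChart
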