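import Fermat.Agent.TwoChart.LocalRing
import Fermat.Agent.FF.PlacesMain

/-!
# Intersection congruences for Kummer functions

`vertical_congr`: for a Kummer function `f` of level `n` with multiplicities `m i` on components
of multiplicities `e i`, `n` divides `#X * ∑ i, (e j * m i - e i * m j)`. Proof: after twisting
by a power of `π` the function is a unit along component `j`, and the divisor of its reduction,
computed locally by `Pt.exists_ord_redF`, has degree zero.
-/

set_option autoImplicit false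

noncomputable section

open AlgebraicCurve WithZero

namespace FLTAgent.TwoChart

variable {W : Type} [CommRing W] {k : Type} [Field k] {res : W →+* k} {F : Type} [Field F]
  [Algebra W F] {π : W} {t : F} {ι : Type} {E : ι → Type} [∀ i, Field (E i)]
  [∀ i, Algebra k (E i)] {X : Type} {K : Type} [Field K] [Algebra W K] [Algebra K F]
  [IsScalarTower W K F]

namespace Model

variable (M : Model W k res F π t ι E X)

/-- A chart in which a given place is regular. -/
theorem exists_reg (i : ι) (v : Place k (E i)) :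
    ∃ s ∈ ({t, t⁻¹} : Set F), M.IsReg s i v := by
  by_cases h : 0 ≤ v.ord (M.redF i t)
  · exact ⟨t, Set.mem_insert _ _, h⟩
  · refine ⟨t⁻¹, Or.inr rfl, ?_⟩
    rw [IsReg, M.redF_inv (M.val_t i), Place.ord_inv]
    omega

theorem val_eq_one_of_mult_eq_zero {i : ι} {f : F} (hf : f ≠ 0) (h : M.mult i f = 0) :
    M.val i f = 1 := by
  have h0 : WithZero.log (M.val i f) = 0 := by rw [Model.mult, neg_eq_zero] at h; exact h
  rw [← exp_log ((Valuation.ne_zero_iff (M.val i)).2 hf), h0, exp_zero]

/-- The order of the reduction of a function with trivial multiplicity at a point. -/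
theorem Pt.exists_ord_redF [IsNoetherianRing W] [Fintype ι] {s : F} (P : M.Pt s)
    (hπK : algebraMap W K π ≠ 0)
    (hKfrac : ∀ c : K, ∃ (w : W) (m : ℕ), c * algebraMap W K π ^ m = algebraMap W K w)
    {n : ℕ} [NeZero n] {g : F} (hg : IsKummer K n g) {j : ι} (hj : j ∈ P.br)
    (hgj : M.mult j g = 0) :
    ∃ z : E j, (P.place j).ord (M.redF j g) =
      (∑ i ∈ P.br, M.mult i g * (P.place j).ord (M.redF j (P.gen i))) +
        n * (P.place j).ord z := by
  classical
  obtain ⟨a, b, z, ha, hb, hz0, hgz, hzval⟩ := P.exists_decomp hπK hKfrac hg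
  have hva := P.val_eq_one_of_not_mem ha hj
  have hvb := P.val_eq_one_of_not_mem hb hj
  have hvgen : ∀ i ∈ P.br, M.val j (P.gen i ^ M.mult i g) = 1 := by
    intro i hi
    rcases eq_or_ne i j with rfl | hij
    · rw [hgj, zpow_zero, map_one]
    · rw [map_zpow₀, P.val_gen_of_ne hi hj hij, one_zpow]
  have mV : ∀ {x : F}, M.val j x = 1 → x ∈ M.V j := fun h => M.mem_V.2 h.le
  have hvprod : M.val j (∏ i ∈ P.br, P.gen i ^ M.mult i g) = 1 := by
    rw [map_prod]; exact Finset.prod_eq_one hvgen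
  have hvab : M.val j ((a : F) * (b : F)⁻¹) = 1 := by
    rw [map_mul, map_inv₀, hva, hvb, inv_one, mul_one]
  have hzj : M.val j (z ^ n) = 1 := by rw [map_pow, hzval j hj, one_pow]
  have hfac : ∀ i ∈ P.br, M.redF j (P.gen i ^ M.mult i g) = M.redF j (P.gen i) ^ M.mult i g := by
    intro i hi
    rcases eq_or_ne i j with rfl | hij
    · rw [hgj, zpow_zero, zpow_zero, M.redF_one]
    · rw [M.redF_zpow (P.val_gen_of_ne hi hj hij)]
  refine ⟨M.redF j z, ?_⟩
  have hua := P.redF_ne_zero_of_not_mem ha hj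
  have hub := P.redF_ne_zero_of_not_mem hb hj
  conv_lhs => rw [hgz]
  rw [M.redF_mul (mV (by rw [map_mul, hvab, hvprod, one_mul])) (mV hzj),
    M.redF_mul (mV hvab) (mV hvprod), P.redF_div hb hj,
    M.redF_prod _ _ (fun i hi => mV (hvgen i hi)), M.redF_pow (mV (hzval j hj)),
    Finset.prod_congr rfl hfac]
  have hne : ∀ i ∈ P.br, M.redF j (P.gen i) ^ M.mult i g ≠ 0 := by
    intro i hi
    rcases eq_or_ne i j with rfl | hij
    · rw [hgj, zpow_zero]; exact one_ne_zero
    · exact zpow_ne_zero _ (P.gen_trans i hi j hj hij).1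
  rw [Place.ord_mul _ (mul_ne_zero (mul_ne_zero hua.1 (inv_ne_zero hub.1))
      (Finset.prod_ne_zero_iff.2 hne)) (pow_ne_zero _ (M.redF_ne_zero_of_val (hzval j hj))),
    Place.ord_mul _ (mul_ne_zero hua.1 (inv_ne_zero hub.1)) (Finset.prod_ne_zero_iff.2 hne),
    Place.ord_mul _ hua.1 (inv_ne_zero hub.1), Place.ord_inv, hua.2, hub.2,
    FF.ord_prod _ _ _ hne, FF.ord_pow]
  rw [neg_zero, add_zero, zero_add]
  congr 1
  exact Finset.sum_congr rfl fun i _ => Place.ord_zpow _ _ _

/-- The intersection congruences for the vertical multiplicities. -/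
theorem _root_.FLTAgent.TwoChart.vertical_congr [IsNoetherianRing W] [IsAlgClosed k] [Fintype ι]
    [Fintype X] (M : Model W k res F π t ι E X) [∀ i, FF.IsFF k (E i)]
    (hπK : algebraMap W K π ≠ 0)
    (hKfrac : ∀ c : K, ∃ (w : W) (m : ℕ), c * algebraMap W K π ^ m = algebraMap W K w)
    {n : ℕ} [NeZero n] {f : F} (hf : IsKummer K n f) (j : ι) :
    (n : ℤ) ∣ (Fintype.card X : ℤ) *
      ∑ i ∈ Finset.univ, ((M.e j : ℤ) * M.mult i f - (M.e i : ℤ) * M.mult j f) := by
  classical
  have : Nonempty ι := ⟨j⟩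
  have hne : ∀ i, Nonempty (Place k (E i)) := fun i => FF.place_nonempty
  set c := ∑ i ∈ Finset.univ, ((M.e j : ℤ) * M.mult i f - (M.e i : ℤ) * M.mult j f) with hc
  set g := f ^ M.e j * (algebraMap W F π) ^ (-M.mult j f) with hg
  have hπ0 := M.algebraMap_pi_ne_zero j
  have hg0 : g ≠ 0 := mul_ne_zero (pow_ne_zero _ hf.1) (zpow_ne_zero _ hπ0)
  have hmult : ∀ i, M.mult i g = (M.e j : ℤ) * M.mult i f - (M.e i : ℤ) * M.mult j f := by
    intro i
    rw [hg, Model.mult, map_mul, map_pow, map_zpow₀, M.val_pi, WithZero.log_mul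
      (pow_ne_zero _ ((Valuation.ne_zero_iff _).2 hf.1)) (zpow_ne_zero _ exp_ne_zero),
      WithZero.log_pow, WithZero.log_zpow, WithZero.log_exp, nsmul_eq_mul, smul_eq_mul]
    simp only [Model.mult]
    ring
  have hgK : IsKummer K n g := by
    refine ⟨hg0, fun v => ?_⟩
    rw [hg, Place.ord_mul _ (pow_ne_zero _ hf.1) (zpow_ne_zero _ hπ0), FF.ord_pow, Place.ord_zpow,
      IsScalarTower.algebraMap_apply W K F, FF.ord_algebraMap, mul_zero, add_zero]
    exact Dvd.dvd.mul_left (hf.2 v) _
  have hgj : M.mult j g = 0 := by rw [hmult j]; ring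
  have hu : M.redF j g ≠ 0 :=
    M.redF_ne_zero_of_val (M.val_eq_one_of_mult_eq_zero hg0 hgj)
  let D : Divisor k (E j) := FF.divisorOf (M.redF j g)
  have key : ∀ v : Place k (E j),
      (n : ℤ) ∣ D v - if ∃ x, v = M.pt x j then c else 0 := by
    intro v
    obtain ⟨s, hs, hv⟩ := M.exists_reg j v
    obtain ⟨P, hP, hjP, hcase⟩ := M.exists_pt hne hs hv
    obtain ⟨z, hz⟩ := Pt.exists_ord_redF M P hπK hKfrac hgK hjP hgj
    rw [FF.divisorOf_apply, ← hP, hz]
    rcases hcase with ⟨hbr, hx⟩ | ⟨x, hx, hbr, hpl⟩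
    · rw [if_neg (by rw [hP]; rintro ⟨x, hx'⟩; exact hx x hx'), hbr, Finset.sum_singleton, hgj,
        zero_mul, zero_add, sub_zero]
      exact dvd_mul_right _ _
    · rw [if_pos ⟨x, by rw [hP]; exact hx⟩, hbr]
      have : ∑ i ∈ Finset.univ, M.mult i g * (P.place j).ord (M.redF j (P.gen i)) = c := by
        rw [hc]
        refine Finset.sum_congr rfl fun i _ => ?_
        rw [← hmult i]
        rcases eq_or_ne i j with rfl | hij
        · rw [hgj, zero_mul]
        · rw [(P.gen_trans i (hbr ▸ Finset.mem_univ i) j hjP hij).2, mul_one]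
      rw [this, add_sub_cancel_left]
      exact dvd_mul_right _ _
  let S : Finset (Place k (E j)) := D.support ∪ Finset.univ.image fun x => M.pt x j
  have h0 : ∑ v ∈ S, D v = 0 := by
    have := FF.degree_divisorOf (K := k) (M.redF j g)
    rw [FF.degree_eq_sum, Finsupp.sum] at this
    rw [← this]
    exact (Finset.sum_subset Finset.subset_union_left fun v _ hv =>
      Finsupp.notMem_support_iff.1 hv).symm
  have h1 : ∑ v ∈ S, (if ∃ x, v = M.pt x j then c else 0) = (Fintype.card X : ℤ) * c := by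
    rw [Finset.sum_ite, Finset.sum_const_zero, add_zero, Finset.sum_const, nsmul_eq_mul]
    congr 2
    rw [← Finset.card_univ, ← Finset.card_image_of_injective Finset.univ (M.pt_injective j)]
    congr 1
    ext v
    simp only [S, Finset.mem_filter, Finset.mem_union, Finset.mem_image, Finset.mem_univ,
      true_and]
    exact ⟨fun ⟨_, x, hx⟩ => ⟨x, hx.symm⟩,
      fun ⟨x, hx⟩ => ⟨Or.inr ⟨x, hx⟩, x, hx.symm⟩⟩
  have h2 : (n : ℤ) ∣ ∑ v ∈ S, (D v - if ∃ x, v = M.pt x j then c else 0) :=
    Finset.dvd_sum fun v _ => key v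
  rw [Finset.sum_sub_distrib, h0, h1, zero_sub, dvd_neg] at h2
  exact h2

end Model

end FLTAgent.TwoChart
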