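import Fermat.Agent.TwoChart.LocalRing
import Fermat.Agent.TwoChart.VerticalCongr
import Fermat.Agent.TwoChart.Residue

/-!
# Two-chart models: roots on components glue on a chart

`exists_redF_eq_of_crossing`: at a crossing, functions on the branches with equal values are
the reductions of one element of the local ring (seminormality, by successive approximation).
`exists_chart_root` then glues `n`-th roots on the components satisfying `RootsAgree` to a root
on each chart: the ideal of possible numerators is contained in no maximal ideal.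
-/

set_option autoImplicit false

noncomputable section

open AlgebraicCurve WithZero

namespace FLTAgent.TwoChart

variable {W : Type} [CommRing W] {k : Type} [Field k] {res : W →+* k} {F : Type} [Field F]
  [Algebra W F] {π : W} {t : F} {ι : Type} {E : ι → Type} [∀ i, Field (E i)]
  [∀ i, Algebra k (E i)] {X : Type} [Fintype ι]

namespace Model

variable {M : Model W k res F π t ι E X} {s : F}

theorem root_mem_V (hs : s ∈ ({t, t⁻¹} : Set F)) {n : ℕ} [NeZero n] {f g : F} {i : ι}
    (hf : M.val i f = 1) (hg : g ^ n * f⁻¹ ∈ intCl W ({s} : Set F)) : g ∈ M.V i := by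
  have h := M.mem_V.1 (M.chart_le_V hs hg i)
  rw [map_mul, map_inv₀, hf, inv_one, mul_one, map_pow] at h
  exact M.mem_V.2 ((pow_le_one_iff (NeZero.ne n)).1 h)

/-- The point is the crossing `x`. -/
def Pt.IsCrossing (P : M.Pt s) (x : X) : Prop :=
  P.br = Finset.univ ∧ ∀ j, P.place j = M.pt x j

namespace Pt

variable (P : M.Pt s)

theorem redF_mem_place {y : F} (hy : y ∈ P.loc) {i : ι} (hi : i ∈ P.br) :
    M.redF i y ∈ (P.place i).toValuationSubring := by
  obtain ⟨a, b, hb, rfl⟩ := P.mem_loc_iff.1 hy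
  rw [P.redF_div hb hi]
  have hu := P.redF_ne_zero_of_not_mem hb hi
  exact mul_mem (M.mem_place_of_mem P.hs (P.reg i hi) a.2)
    (mem_of_ord_eq_zero _ (by rw [Place.ord_inv, hu.2, neg_zero]))

variable [IsAlgClosed k] [∀ i, FF.IsFF k (E i)]

theorem rv_eq_zero_of_mem {r : intCl W ({s} : Set F)} (hr : r ∈ P.m) {i : ι} (hi : i ∈ P.br) :
    rv (P.place i) (M.redF i r) = 0 := by
  have hmem := M.mem_place_of_mem P.hs (P.reg i hi) r.2
  by_contra h
  refine (P.mem_iff i hi r).1 hr ?_
  rw [rv_eq_zero_iff _ hmem, IsLocalRing.mem_maximalIdeal, mem_nonunits_iff, not_not,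
    ← (P.place i).adicValuation_coe_eq_one_iff] at h
  have h0 : M.redF i (r : F) ≠ 0 := fun h' => by simp [h'] at h
  refine ⟨h0, ?_⟩
  rw [Place.ord, show (P.place i).adicValuation (M.redF i (r : F)) = 1 from h, WithZero.log_one,
    neg_zero]

theorem rv_chart_eq {r : F} (hr : r ∈ intCl W ({s} : Set F)) {i j : ι} (hi : i ∈ P.br)
    (hj : j ∈ P.br) : rv (P.place i) (M.redF i r) = rv (P.place j) (M.redF j r) := by
  obtain ⟨w, hw⟩ := M.res_surjective (rv (P.place i) (M.redF i r))
  have key : ∀ l ∈ P.br, rv (P.place l) (M.redF l (r - algebraMap W F w)) = 0 ↔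
      rv (P.place l) (M.redF l r) = res w := by
    intro l hl
    rw [M.redF_sub (M.chart_le_V P.hs hr l) (M.mem_V.2 (M.val_base l w)), M.redF_algebraMap,
      rv_sub_eq_zero_iff _ (M.mem_place_of_mem P.hs (P.reg l hl) hr) (Place.algebraMap_mem' _ _),
      rv_algebraMap]
  let r' : intCl W ({s} : Set F) :=
    ⟨r - algebraMap W F w, sub_mem hr (Subalgebra.algebraMap_mem _ w)⟩
  have hm : r' ∈ P.m := by
    rw [P.mem_iff i hi]
    intro hu
    exact rv_ne_zero _ hu.1 hu.2 ((key i hi).2 hw.symm)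
  exact hw.symm.trans ((key j hj).1 (P.rv_eq_zero_of_mem hm hj)).symm

/-- An element of the local ring has the same value on all branches. -/
theorem rv_loc_eq {y : F} (hy : y ∈ P.loc) {i j : ι} (hi : i ∈ P.br) (hj : j ∈ P.br) :
    rv (P.place i) (M.redF i y) = rv (P.place j) (M.redF j y) := by
  obtain ⟨a, b, hb, rfl⟩ := P.mem_loc_iff.1 hy
  have h : ∀ l ∈ P.br, rv (P.place l) (M.redF l ((a : F) * (b : F)⁻¹)) =
      rv (P.place l) (M.redF l a) * (rv (P.place l) (M.redF l b))⁻¹ := by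
    intro l hl
    have hu := P.redF_ne_zero_of_not_mem hb hl
    rw [P.redF_div hb hl, rv_mul _ (M.mem_place_of_mem P.hs (P.reg l hl) a.2)
      (mem_of_ord_eq_zero _ (by rw [Place.ord_inv, hu.2, neg_zero])), rv_inv _ hu.1 hu.2]
  rw [h i hi, h j hj, P.rv_chart_eq a.2 hi hj, P.rv_chart_eq b.2 hi hj]

omit [IsAlgClosed k] [∀ i, FF.IsFF k (E i)] in
theorem inv_mem_loc {y : F} (hy : y ∈ P.loc) {i : ι} (hi : i ∈ P.br)
    (hu : M.UnitAt i (P.place i) y) : y⁻¹ ∈ P.loc := by
  obtain ⟨a, b, hb, rfl⟩ := P.mem_loc_iff.1 hy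
  have hub := P.redF_ne_zero_of_not_mem hb hi
  have ha : a ∉ P.m := by
    intro ham
    refine (P.mem_iff i hi a).1 ham ?_
    obtain ⟨h1, h2⟩ := hu
    rw [P.redF_div hb hi] at h1 h2
    rw [Place.ord_mul _ (left_ne_zero_of_mul h1) (inv_ne_zero hub.1), Place.ord_inv, hub.2] at h2
    exact ⟨left_ne_zero_of_mul h1, by omega⟩
  rw [mul_inv, inv_inv, mul_comm]
  exact P.mem_loc_iff.2 ⟨b, a, ha, rfl⟩

omit [IsAlgClosed k] [∀ i, FF.IsFF k (E i)] in
/-- Functions on the overlap are regular at crossings. -/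
theorem IsCrossing.mem_loc_of_pair {P : M.Pt s} {x : X} (hP : P.IsCrossing x) {r : F}
    (hr : r ∈ intCl W {t, t⁻¹}) : r ∈ P.loc := by
  obtain ⟨i, hi⟩ := P.br_nonempty
  have hr' : r ∈ intCl W {s, s⁻¹} := by
    rcases P.hs with h | h <;> rw [h]
    · exact hr
    · rwa [inv_inv, Set.pair_comm]
  obtain ⟨m, hm⟩ := exists_pow_mul_mem (M.chart_ne_zero P.hs) hr'
  have hs1 : M.UnitAt i (P.place i) s := by
    have ht : t ∈ M.V i := M.mem_V.2 (M.val_t i).le
    refine ⟨M.redF_ne_zero_of_val (M.val_chart P.hs i), ?_⟩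
    have h0 := M.ord_pt x i ht
    rw [← M.redF_of_mem ht, ← hP.2 i] at h0
    rcases P.hs with h | h
    · subst h; exact h0
    · rw [Set.mem_singleton_iff] at h
      subst h
      rw [M.redF_inv (M.val_t i), Place.ord_inv, h0, neg_zero]
  have hsinv : s⁻¹ ∈ P.loc :=
    P.inv_mem_loc (P.mem_loc (subset_intCl _ (Set.mem_singleton s))) hi hs1
  have := mul_mem (pow_mem hsinv m) (P.mem_loc hm)
  rwa [← mul_assoc, inv_pow, inv_mul_cancel₀ (pow_ne_zero _ (M.chart_ne_zero P.hs)), one_mul]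
    at this

omit [IsAlgClosed k] [∀ i, FF.IsFF k (E i)] in
theorem IsCrossing.loc_le {s' : F} {P : M.Pt s} {P' : M.Pt s'} {x : X} (hP : P.IsCrossing x)
    (hP' : P'.IsCrossing x) {y : F} (hy : y ∈ P.loc) : y ∈ P'.loc := by
  obtain ⟨i, hi⟩ := P.br_nonempty
  obtain ⟨a, b, hb, rfl⟩ := P.mem_loc_iff.1 hy
  have hpair : ∀ {r : F}, r ∈ intCl W ({s} : Set F) → r ∈ intCl W {t, t⁻¹} := fun {r} hr =>
    intCl_mono (fun _ hx => subset_intCl _ (Set.mem_singleton_iff.1 hx ▸ P.hs)) hr
  refine mul_mem (hP'.mem_loc_of_pair (hpair a.2))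
    (P'.inv_mem_loc (hP'.mem_loc_of_pair (hpair b.2)) (i := i) ?_ ?_)
  · rw [hP'.1]; exact Finset.mem_univ i
  · rw [hP'.2 i, ← hP.2 i]
    exact P.redF_ne_zero_of_not_mem hb hi

omit [IsAlgClosed k] [∀ i, FF.IsFF k (E i)] in
/-- The local ring is closed under roots. -/
theorem mem_loc_of_pow_mem [IsNoetherianRing W] {n : ℕ} [NeZero n] {y : F} (hy : y ^ n ∈ P.loc) :
    y ∈ P.loc := by
  have := P.isUFD
  have hint : IsIntegral P.loc y :=
    IsIntegral.of_pow (Nat.pos_of_ne_zero (NeZero.ne n))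
      (isIntegral_algebraMap (R := P.loc) (A := F) (x := ⟨_, hy⟩))
  obtain ⟨z, hz⟩ := (IsIntegrallyClosed.isIntegral_iff (R := P.loc) (K := F)).1 hint
  exact hz ▸ z.2

/-- Seminormality: values on the branches with a power in the local ring and equal values at the
point come from the local ring. -/
theorem exists_redF_eq_of_crossing [IsNoetherianRing W] [Nonempty ι] {x : X}
    (hP : P.IsCrossing x) {n : ℕ} [NeZero n] (hn : IsUnit (n : W)) (lam : ∀ i, E i)
    (hl0 : ∀ i, lam i ≠ 0) (hlord : ∀ i, (P.place i).ord (lam i) = 0)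
    (hval : ∀ i j, rv (P.place i) (lam i) = rv (P.place j) (lam j))
    (hpow : ∃ ρ ∈ P.loc, ∀ i, M.redF i ρ = lam i ^ n) :
    ∃ y ∈ P.loc, ∀ i, M.redF i y = lam i := by
  classical
  have hall : ∀ i, i ∈ P.br := fun i => hP.1 ▸ Finset.mem_univ i
  let O : ι → Type := fun i => (P.place i).toValuationSubring
  let ψ : P.loc →+* (∀ i, (P.place i).toValuationSubring) :=
    { toFun := fun y i => ⟨M.redF i y, P.redF_mem_place y.2 (hall i)⟩
      map_one' := funext fun i => Subtype.ext (M.redF_one i)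
      map_mul' := fun y z => funext fun i =>
        Subtype.ext (M.redF_mul (P.loc_le_V y.2 (hall i)) (P.loc_le_V z.2 (hall i)))
      map_zero' := funext fun i => Subtype.ext (M.redF_zero i)
      map_add' := fun y z => funext fun i =>
        Subtype.ext (M.redF_add (P.loc_le_V y.2 (hall i)) (P.loc_le_V z.2 (hall i))) }
  let J : Ideal (∀ i, (P.place i).toValuationSubring) :=
    ⨅ i, (IsLocalRing.maximalIdeal (P.place i).toValuationSubring).comap
      (Pi.evalRingHom (fun i => (P.place i).toValuationSubring) i)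
  -- elements of high order on every branch come from the local ring
  have hJ : ((J ^ (Fintype.card ι - 1) : Ideal (∀ i, (P.place i).toValuationSubring)) :
      Set (∀ i, (P.place i).toValuationSubring)) ⊆
        (ψ.range : Set (∀ i, (P.place i).toValuationSubring)) := by
    intro ε hε
    have hord : ∀ i, (ε i : E i) ≠ 0 →
        ((Fintype.card ι - 1 : ℕ) : ℤ) ≤ (P.place i).ord (ε i : E i) := by
      intro i hne
      have h1 : ε i ∈ IsLocalRing.maximalIdeal (P.place i).toValuationSubring ^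
          (Fintype.card ι - 1) := by
        have h2 := Ideal.mem_map_of_mem (Pi.evalRingHom (fun i => (P.place i).toValuationSubring) i) hε
        rw [Ideal.map_pow] at h2
        exact Ideal.pow_right_mono (Ideal.map_le_iff_le_comap.2 (iInf_le _ i)) _ h2
      obtain ⟨p, hp⟩ := IsDiscreteValuationRing.exists_irreducible (P.place i).toValuationSubring
      rw [hp.maximalIdeal_eq, Ideal.span_singleton_pow, Ideal.mem_span_singleton] at h1
      obtain ⟨c, hc⟩ := h1
      have hc0 : (c : E i) ≠ 0 := by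
        intro h0
        apply hne
        rw [hc, MulMemClass.coe_mul, h0, mul_zero]
      rw [hc, MulMemClass.coe_mul, SubmonoidClass.coe_pow, Place.ord_mul _ (pow_ne_zero _
        (fun h => hp.ne_zero (Subtype.ext h))) hc0, FF.ord_pow, Place.ord_coe_irreducible _ hp,
        mul_one]
      have := FF.ord_nonneg_of_mem_placeRing _ c.2
      omega
    have hsingle : ∀ i, ∃ y ∈ P.loc, ∀ j, M.redF j y = if j = i then (ε j : E j) else 0 := by
      intro i
      set H := ∏ l ∈ Finset.univ.erase i, P.gen l with hH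
      have hHmem : H ∈ P.loc := prod_mem fun l _ => P.mem_loc (P.gen_mem l (hall l))
      have hgV : ∀ j, ∀ l ∈ Finset.univ.erase i, P.gen l ∈ M.V j := fun j l _ =>
        M.chart_le_V P.hs (P.gen_mem l (hall l)) j
      have hgne : ∀ l ∈ Finset.univ.erase i, M.redF i (P.gen l) ≠ 0 := fun l hl =>
        (P.gen_trans l (hall l) i (hall i) (Finset.ne_of_mem_erase hl)).1
      have hHi : M.redF i H ≠ 0 ∧
          (P.place i).ord (M.redF i H) = ((Fintype.card ι - 1 : ℕ) : ℤ) := by
        rw [hH, M.redF_prod _ _ (hgV i)]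
        refine ⟨Finset.prod_ne_zero_iff.2 hgne, ?_⟩
        rw [FF.ord_prod _ _ _ hgne, Finset.sum_congr rfl fun l hl =>
          (P.gen_trans l (hall l) i (hall i) (Finset.ne_of_mem_erase hl)).2]
        simp
      have hHj : ∀ j, j ≠ i → M.redF j H = 0 := by
        intro j hj
        rw [hH, M.redF_prod _ _ (hgV j)]
        exact Finset.prod_eq_zero (Finset.mem_erase.2 ⟨hj, Finset.mem_univ j⟩)
          ((M.redF_eq_zero_iff (M.chart_le_V P.hs (P.gen_mem j (hall j)) j)).2
            (P.gen_lt j (hall j)))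
      obtain ⟨r, b, hru, hrb⟩ := M.smooth' P.hs (P.reg i (hall i))
        (a := (ε i : E i) / M.redF i H) (by
          rcases eq_or_ne (ε i : E i) 0 with h0 | h0
          · rw [h0, zero_div, Place.ord_zero]
          · rw [FF.ord_div _ h0 hHi.1, hHi.2]
            have := hord i h0
            omega)
      have hrm : r ∉ P.m := fun h => (P.mem_iff i (hall i) r).1 h hru
      have hy : (b : F) * (r : F)⁻¹ ∈ P.loc := P.mem_loc_iff.2 ⟨b, r, hrm, rfl⟩
      refine ⟨(b : F) * (r : F)⁻¹ * H, mul_mem hy hHmem, fun j => ?_⟩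
      rw [M.redF_mul (P.loc_le_V hy (hall j)) (P.loc_le_V hHmem (hall j))]
      split_ifs with hji
      · subst hji
        rw [P.redF_div hrm (hall j), ← hrb]
        have := hru.1
        have := hHi.1
        field_simp
      · rw [hHj j hji, mul_zero]
    choose y hy hyr using hsingle
    have hmem : ∑ i, y i ∈ P.loc := sum_mem fun i _ => hy i
    refine ⟨⟨_, hmem⟩, funext fun j => Subtype.ext ?_⟩
    have : (⟨∑ i, y i, hmem⟩ : P.loc) = ∑ i, (⟨y i, hy i⟩ : P.loc) :=
      Subtype.ext (by rw [AddSubmonoidClass.coe_finsetSum])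
    rw [this, map_sum, Finset.sum_apply, AddSubmonoidClass.coe_finsetSum]
    show ∑ i, M.redF j (y i) = _
    simp [hyr]
  let i₀ : ι := Classical.arbitrary ι
  set c := rv (P.place i₀) (lam i₀) with hc
  have hc0 : c ≠ 0 := rv_ne_zero _ (hl0 i₀) (hlord i₀)
  obtain ⟨wc, hwc⟩ := M.res_surjective c
  obtain ⟨wi, hwi⟩ := M.res_surjective c⁻¹
  obtain ⟨ninv, hninv⟩ := hn.exists_right_inv
  have hconst : ∀ (w : W) (i : ι), (ψ (algebraMap (intCl W ({s} : Set F)) P.loc (algebraMap W _ w)) i : E i) =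
      algebraMap k (E i) (res w) := fun w i => M.redF_algebraMap i w
  let lamO : ∀ i, (P.place i).toValuationSubring := fun i =>
    ⟨lam i, mem_of_ord_eq_zero _ (hlord i)⟩
  let w := lamO * ψ (algebraMap (intCl W ({s} : Set F)) P.loc (algebraMap W _ wi))
  have hw : w - 1 ∈ J := by
    rw [Ideal.mem_iInf]
    intro i
    rw [Ideal.mem_comap]
    show (lamO i * ψ (algebraMap (intCl W ({s} : Set F)) P.loc (algebraMap W _ wi)) i - 1) ∈ _
    rw [← rv_eq_zero_iff _ (SetLike.coe_mem _)]
    show rv (P.place i) (lam i * (ψ (algebraMap (intCl W ({s} : Set F)) P.loc (algebraMap W _ wi)) i : E i) - 1) = 0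
    rw [hconst, hwi, rv_sub_eq_zero_iff _
      (mul_mem (mem_of_ord_eq_zero _ (hlord i)) (Place.algebraMap_mem' _ _)) (one_mem _),
      rv_mul _ (mem_of_ord_eq_zero _ (hlord i)) (Place.algebraMap_mem' _ _), rv_algebraMap,
      rv_one, hval i i₀, ← hc, mul_inv_cancel₀ hc0]
  obtain ⟨ρ, hρ, hρl⟩ := hpow
  have hwn : w ^ n ∈ ψ.range := by
    refine ⟨⟨ρ, hρ⟩ * algebraMap (intCl W ({s} : Set F)) P.loc (algebraMap W _ wi) ^ n, ?_⟩
    rw [map_mul, map_pow, mul_pow]
    congr 1
    exact funext fun i => Subtype.ext (hρl i)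
  have hnn : (n : ∀ i, (P.place i).toValuationSubring) *
      ψ (algebraMap (intCl W ({s} : Set F)) P.loc (algebraMap W _ ninv)) = 1 := by
    rw [← map_natCast ψ, ← map_mul, ← map_natCast (algebraMap (intCl W ({s} : Set F)) P.loc),
      ← map_mul, ← map_natCast (algebraMap W (intCl W ({s} : Set F))), ← map_mul, hninv, map_one,
      map_one, map_one]
  obtain ⟨y, hy⟩ := mem_of_pow_mem_of_pow_le ψ.range J hJ hnn ⟨_, rfl⟩ hw hwn
  have hwcm : algebraMap W F wc ∈ P.loc := P.mem_loc (Subalgebra.algebraMap_mem _ wc)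
  refine ⟨(y : F) * algebraMap W F wc, mul_mem y.2 hwcm, fun i => ?_⟩
  rw [M.redF_mul (P.loc_le_V y.2 (hall i)) (P.loc_le_V hwcm (hall i))]
  have h1 : M.redF i (y : F) = lam i * algebraMap k (E i) (res wi) := by
    have := congrArg (fun z => (z i : E i)) hy
    exact this.trans (congrArg (lam i * ·) (hconst wi i))
  rw [h1, M.redF_algebraMap, hwi, hwc, mul_assoc, ← map_mul, inv_mul_cancel₀ hc0, map_one,
    mul_one]

end Pt

variable [IsAlgClosed k] [∀ i, FF.IsFF k (E i)]

variable (M) in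
/-- The compatibility of chosen roots at the crossings. -/
def RootsAgree (n : ℕ) (f : F) (w : ∀ i, E i) : Prop :=
  ∀ (x : X) (P : M.Pt t), P.IsCrossing x → ∀ z : F, (∀ i, M.val i z = 1) →
    f * (z ^ n)⁻¹ ∈ P.loc → z ^ n * f⁻¹ ∈ P.loc →
    ∀ i j, rv (P.place i) (w i / M.redF i z) = rv (P.place j) (w j / M.redF j z)

variable {K : Type} [Field K] [Algebra W K] [Algebra K F] [IsScalarTower W K F]

/-- Roots on the components agreeing at the crossings glue to a root on a chart. -/
theorem exists_chart_root [IsNoetherianRing W] [Nonempty ι]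
    (hs : s ∈ ({t, t⁻¹} : Set F))
    (hπK : algebraMap W K π ≠ 0)
    (hKfrac : ∀ c : K, ∃ (w : W) (m : ℕ), c * algebraMap W K π ^ m = algebraMap W K w)
    {n : ℕ} [NeZero n] (hn : IsUnit (n : W)) {f : F} (hf : IsKummer K n f)
    (hmult : ∀ i, M.mult i f = 0) {w : ∀ i, E i} (hw : ∀ i, w i ^ n = M.redF i f)
    (hagree : M.RootsAgree n f w) :
    ∃ g : F, g ^ n * f⁻¹ ∈ intCl W ({s} : Set F) ∧ ∀ i, M.redF i g = w i := by
  classical
  have hne : ∀ i, Nonempty (Place k (E i)) := fun i => FF.place_nonempty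
  have hvf : ∀ i, M.val i f = 1 := fun i => M.val_eq_one_of_mult_eq_zero hf.1 (hmult i)
  have hw0 : ∀ i, w i ≠ 0 := fun i h =>
    M.redF_ne_zero_of_val (hvf i) (by rw [← hw i, h, zero_pow (NeZero.ne n)])
  let I : Ideal (intCl W ({s} : Set F)) :=
    { carrier := {r | ∃ g : F, g ^ n * f⁻¹ ∈ intCl W ({s} : Set F) ∧
        ∀ i, M.redF i g = M.redF i r * w i}
      zero_mem' := ⟨0, by simp [zero_pow (NeZero.ne n)], fun i => by
        rw [ZeroMemClass.coe_zero, M.redF_zero, zero_mul]⟩
      add_mem' := by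
        rintro a b ⟨g, hg, hga⟩ ⟨g', hg', hgb⟩
        refine ⟨g + g', (rootModule W n f _).add_mem hg hg', fun i => ?_⟩
        rw [M.redF_add (root_mem_V hs (hvf i) hg) (root_mem_V hs (hvf i) hg'), Subalgebra.coe_add,
          M.redF_add (M.chart_le_V hs a.2 i) (M.chart_le_V hs b.2 i), hga, hgb, add_mul]
      smul_mem' := by
        rintro c a ⟨g, hg, hga⟩
        refine ⟨(c : F) * g, mul_mem_rootModule c.2 hg, fun i => ?_⟩
        rw [smul_eq_mul, Subalgebra.coe_mul,
          M.redF_mul (M.chart_le_V hs c.2 i) (root_mem_V hs (hvf i) hg),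
          M.redF_mul (M.chart_le_V hs c.2 i) (M.chart_le_V hs a.2 i), hga, mul_assoc] }
  suffices hI : I = ⊤ by
    obtain ⟨g, hg, hgw⟩ := (Ideal.eq_top_iff_one I).1 hI
    exact ⟨g, hg, fun i => by rw [hgw i, OneMemClass.coe_one, M.redF_one, one_mul]⟩
  by_contra hI
  obtain ⟨m, hm, hIm⟩ := Ideal.exists_le_maximal I hI
  have hπ : algebraMap W (intCl W ({s} : Set F)) π ∈ m := by
    refine hIm ⟨0, by simp [zero_pow (NeZero.ne n)], fun i => ?_⟩
    rw [M.redF_zero, show ((algebraMap W (intCl W ({s} : Set F)) π : intCl W ({s} : Set F)) : F) =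
      algebraMap W F π from rfl, M.redF_pi, zero_mul]
  obtain ⟨P, rfl, hcase⟩ := M.exists_pt_of_isMaximal hne hs m hm hπ
  obtain ⟨a, b, z, ha, hb, hz0, hfz, hzv⟩ := P.exists_decomp hπK hKfrac hf
  have hG : (∏ i ∈ P.br, P.gen i ^ M.mult i f) = 1 :=
    Finset.prod_eq_one fun i _ => by rw [hmult i, zpow_zero]
  rw [hG, mul_one] at hfz
  set gx := (a : F) * z with hgx
  have ha0 : (a : F) ≠ 0 := fun h => ha (by rw [show a = 0 from Subtype.ext h]; exact zero_mem _)
  have hb0 : (b : F) ≠ 0 := fun h => hb (by rw [show b = 0 from Subtype.ext h]; exact zero_mem _)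
  obtain ⟨j, hj⟩ : ∃ j, n = j + 1 := ⟨n - 1, by have := NeZero.ne n; omega⟩
  have hgx' : gx ^ n * f⁻¹ = ((a ^ j * b : intCl W ({s} : Set F)) : F) := by
    rw [hgx, hfz, hj, Subalgebra.coe_mul, Subalgebra.coe_pow]
    field_simp
    ring
  have hgxR : gx ^ n * f⁻¹ ∈ intCl W ({s} : Set F) := by rw [hgx']; exact SetLike.coe_mem _
  have hρm : a ^ j * b ∉ P.m := fun h => (Ideal.IsPrime.mem_or_mem inferInstance h).elim
    (fun h' => ha (Ideal.IsPrime.mem_of_pow_mem inferInstance _ h')) hb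
  have hgV : ∀ i, gx ∈ M.V i := fun i => root_mem_V hs (hvf i) hgxR
  set lam : ∀ i, E i := fun i => M.redF i gx / w i with hlam
  have hlamn : ∀ i, lam i ^ n = M.redF i ((a ^ j * b : intCl W ({s} : Set F)) : F) := by
    intro i
    rw [← hgx', M.redF_mul (pow_mem (hgV i) n) (M.mem_V.2 (by rw [map_inv₀, hvf i, inv_one])),
      M.redF_inv (hvf i), M.redF_pow (hgV i), ← hw i, hlam, div_pow, div_eq_mul_inv]
  have hlu : ∀ i ∈ P.br, lam i ≠ 0 ∧ (P.place i).ord (lam i) = 0 := by
    intro i hi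
    have hu := P.redF_ne_zero_of_not_mem hρm hi
    have h0 : lam i ≠ 0 := fun h => hu.1 (by rw [← hlamn i, h, zero_pow (NeZero.ne n)])
    refine ⟨h0, ?_⟩
    have h2 := hu.2
    rw [← hlamn i, FF.ord_pow] at h2
    exact (mul_eq_zero.1 h2).resolve_left (by exact_mod_cast NeZero.ne n)
  obtain ⟨r, b', hr, hb', hrb⟩ : ∃ r b' : intCl W ({s} : Set F), r ∉ P.m ∧ b' ∉ P.m ∧
      ∀ i ∈ P.br, lam i * M.redF i r = M.redF i b' := by
    have hbm : ∀ {r b' : intCl W ({s} : Set F)}, r ∉ P.m →
        (∀ i ∈ P.br, lam i * M.redF i r = M.redF i b') → b' ∉ P.m := by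
      intro r b' hr hrb hbm
      obtain ⟨i, hi⟩ := P.br_nonempty
      have hu := P.redF_ne_zero_of_not_mem hr hi
      refine (P.mem_iff i hi b').1 hbm ?_
      rw [UnitAt, ← hrb i hi]
      exact ⟨mul_ne_zero (hlu i hi).1 hu.1,
        by rw [Place.ord_mul _ (hlu i hi).1 hu.1, (hlu i hi).2, hu.2, add_zero]⟩
    rcases hcase with ⟨i, hbr⟩ | ⟨x, hbr, hpl⟩
    · have hi : i ∈ P.br := by rw [hbr]; exact Finset.mem_singleton_self i
      obtain ⟨r, b', hru, hrb⟩ := M.smooth' P.hs (P.reg i hi) (a := lam i) (hlu i hi).2.ge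
      have hr : r ∉ P.m := fun h => (P.mem_iff i hi r).1 h hru
      have hall : ∀ l ∈ P.br, lam l * M.redF l r = M.redF l b' := by
        intro l hl
        rw [hbr, Finset.mem_singleton] at hl
        subst hl
        exact hrb
      exact ⟨r, b', hr, hbm hr hall, hall⟩
    · have hP : P.IsCrossing x := ⟨hbr, hpl⟩
      have hall : ∀ i, i ∈ P.br := fun i => hbr ▸ Finset.mem_univ i
      obtain ⟨P₀, hP₀br, hP₀pl⟩ := M.exists_pt_crossing (Set.mem_insert t {t⁻¹}) x
      have hP₀ : P₀.IsCrossing x := ⟨hP₀br, hP₀pl⟩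
      have hvgx : ∀ i, M.val i gx = 1 := fun i => by
        rw [hgx, map_mul, P.val_eq_one_of_not_mem ha (hall i), hzv i (hall i), one_mul]
      have hval : ∀ i l, rv (P.place i) (lam i) = rv (P.place l) (lam l) := by
        intro i l
        have hρ0 : gx ^ n * f⁻¹ ∈ P.loc := P.mem_loc hgxR
        have hρinv : f * (gx ^ n)⁻¹ ∈ P.loc := by
          have := P.inv_mem_loc hρ0 (hall i) (by
            rw [hgx']; exact P.redF_ne_zero_of_not_mem hρm (hall i))
          rwa [mul_inv, inv_inv, mul_comm] at this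
        have := hagree x P₀ hP₀ gx hvgx (hP.loc_le hP₀ hρinv) (hP.loc_le hP₀ hρ0) i l
        rw [hP₀pl i, hP₀pl l, ← hpl i, ← hpl l] at this
        have hinv : ∀ e, rv (P.place e) (lam e) = (rv (P.place e) (w e / M.redF e gx))⁻¹ := by
          intro e
          have h1 := (hlu e (hall e))
          rw [show w e / M.redF e gx = (lam e)⁻¹ by rw [hlam, inv_div], rv_inv _ h1.1 h1.2,
            inv_inv]
        rw [hinv i, hinv l, this]
      obtain ⟨y, hy, hyl⟩ := P.exists_redF_eq_of_crossing hP hn lam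
        (fun i => (hlu i (hall i)).1) (fun i => (hlu i (hall i)).2) hval
        ⟨_, P.mem_loc hgxR, fun i => by rw [hgx', hlamn i]⟩
      obtain ⟨b', r, hr, rfl⟩ := P.mem_loc_iff.1 hy
      have hall' : ∀ l ∈ P.br, lam l * M.redF l r = M.redF l b' := by
        intro l _
        rw [← hyl l, P.redF_div hr (hall l), mul_assoc,
          inv_mul_cancel₀ (P.redF_ne_zero_of_not_mem hr (hall l)).1, mul_one]
      exact ⟨r, b', hr, hbm hr hall', hall'⟩
  -- make everything vanish on the components which do not pass through the point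
  choose sp hspm hspv using P.sep
  let S : intCl W ({s} : Set F) :=
    ∏ i, if h : i ∈ P.br then (1 : intCl W ({s} : Set F)) else sp i h
  have hSm : S ∉ P.m := by
    intro h
    obtain ⟨i, -, hi⟩ := ((inferInstance : P.m.IsPrime).prod_mem_iff).1 h
    by_cases hib : i ∈ P.br
    · simp only [dif_pos hib] at hi
      exact Ideal.IsPrime.one_notMem inferInstance hi
    · simp only [dif_neg hib] at hi
      exact hspm i hib hi
  have hS0 : ∀ i ∉ P.br, M.redF i (S : F) = 0 := by
    intro i hib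
    rw [M.redF_eq_zero_iff (M.chart_le_V hs S.2 i)]
    simp only [S]
    rw [← Finset.mul_prod_erase Finset.univ _ (Finset.mem_univ i), Subalgebra.coe_mul, map_mul,
      dif_neg hib]
    exact lt_of_le_of_lt (mul_le_of_le_one_right' (M.mem_V.1 (M.chart_le_V hs (SetLike.coe_mem _) i)))
      (hspv i hib)
  refine (fun h => (Ideal.IsPrime.mem_or_mem inferInstance h).elim hb' hSm)
    (hIm (show b' * S ∈ I from ⟨((r * S : intCl W ({s} : Set F)) : F) * gx,
      mul_mem_rootModule (SetLike.coe_mem _) hgxR, fun i => ?_⟩))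
  rw [M.redF_mul (M.chart_le_V hs (SetLike.coe_mem _) i) (hgV i), Subalgebra.coe_mul,
    Subalgebra.coe_mul, M.redF_mul (M.chart_le_V hs r.2 i) (M.chart_le_V hs S.2 i),
    M.redF_mul (M.chart_le_V hs b'.2 i) (M.chart_le_V hs S.2 i)]
  by_cases hib : i ∈ P.br
  · rw [← hrb i hib, hlam]
    have := hw0 i
    field_simp
  · rw [hS0 i hib]
    ring

end Model

end FLTAgent.TwoChart
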