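import Mathlib
import Fermat.Agent.Small.FreeOfDepth

/-!
# Two-dimensional regular local rings are factorial

`ufd_of_two_generators`: a Noetherian local domain whose maximal ideal is generated by a prime
`a` and an element `b` not divisible by it is factorial: `a, b` is regular on any prime ideal not
containing `a`, which is hence free (`Small.free_of_isWeaklyRegular`) and so principal.
`exists_unit_mul_pow` extracts
`n`-th roots up to units in a factorial ring.
-/

set_option autoImplicit false

namespace FLTAgent.TwoChart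

open IsLocalRing

/-- A Noetherian local domain whose maximal ideal is generated by a prime element `a` and an
element outside `(a)` is factorial. -/
theorem ufd_of_two_generators {A : Type} [CommRing A] [IsDomain A] [IsLocalRing A]
    [IsNoetherianRing A] {a b : A} (ha : Prime a) (hb : ¬ a ∣ b)
    (hm : Ideal.span {a, b} = maximalIdeal A) : UniqueFactorizationMonoid A := by
  rw [UniqueFactorizationMonoid.iff_exists_prime_mem_of_isPrime]
  intro P hP0 hP
  by_cases haP : a ∈ P
  · exact ⟨a, haP, ha⟩
  -- the regular sequence `a, b` shows that `P` is free, hence principal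
  have hreg : RingTheory.Sequence.IsWeaklyRegular P [a, b] := by
    refine (RingTheory.Sequence.isWeaklyRegular_cons_iff P a [b]).2 ⟨?_,
      (RingTheory.Sequence.isWeaklyRegular_singleton_iff (QuotSMulTop a P) b).2 ?_⟩
    · exact .of_right_eq_zero_of_smul fun x hx =>
        Subtype.ext ((mul_eq_zero.1 (congrArg Subtype.val hx)).resolve_left ha.ne_zero)
    · refine .of_right_eq_zero_of_smul fun q hq => ?_
      obtain ⟨x, rfl⟩ := Submodule.mkQ_surjective _ q
      rw [Submodule.mkQ_apply, ← Submodule.Quotient.mk_smul, Submodule.Quotient.mk_eq_zero,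
        Submodule.mem_smul_pointwise_iff_exists] at hq
      obtain ⟨y, -, hy⟩ := hq
      have hy' : a * (y : A) = b * (x : A) := congrArg Subtype.val hy
      obtain ⟨z, hz⟩ := (ha.dvd_or_dvd ⟨(y : A), hy'.symm⟩).resolve_left hb
      have hzP : z ∈ P := (hP.mem_or_mem (hz ▸ x.2)).resolve_left haP
      rw [Submodule.mkQ_apply, Submodule.Quotient.mk_eq_zero,
        Submodule.mem_smul_pointwise_iff_exists]
      exact ⟨⟨z, hzP⟩, Submodule.mem_top, Subtype.ext hz.symm⟩
  have hfree : Module.Free A P := by
    refine FLTAgent.Small.free_of_isWeaklyRegular 2 ![a, b] ?_ [a, b] rfl ?_ hreg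
    · rw [← hm]
      exact congrArg Ideal.span (Matrix.range_cons_cons_empty a b ![])
    · intro y hy
      rw [← hm]
      exact Ideal.subset_span (by simpa using hy)
  let B := Module.Free.chooseBasis A P
  obtain ⟨i⟩ : Nonempty (Module.Free.ChooseBasisIndex A P) := by
    obtain ⟨x, hxP, hx0⟩ := Submodule.exists_mem_ne_zero_of_ne_bot hP0
    have : Nontrivial P := ⟨⟨x, hxP⟩, 0, fun h => hx0 (congrArg Subtype.val h)⟩
    exact B.index_nonempty
  have hone : ∀ j, j = i := by
    intro j
    by_contra hji
    have h : (B j : A) • B i = (B i : A) • B j := Subtype.ext (mul_comm _ _)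
    have := congrArg (fun x => B.repr x i) h
    simp only [map_smul, Module.Basis.repr_self, Finsupp.smul_single, smul_eq_mul, mul_one,
      Finsupp.single_eq_same, Finsupp.single_eq_of_ne (fun h' => hji h'.symm)] at this
    exact B.ne_zero j (Subtype.ext this)
  refine ⟨(B i : A), (B i).2, ?_⟩
  have hspan : P = Ideal.span {(B i : A)} := by
    refine le_antisymm (fun x hx => ?_) ((Ideal.span_singleton_le_iff_mem _).2 (B i).2)
    have : Unique (Module.Free.ChooseBasisIndex A P) := ⟨⟨i⟩, hone⟩
    have := congrArg Subtype.val (B.sum_repr ⟨x, hx⟩)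
    rw [Fintype.sum_unique] at this
    refine Ideal.mem_span_singleton'.2 ⟨B.repr ⟨x, hx⟩ i, ?_⟩
    rw [hone default] at this
    exact this
  refine (Ideal.span_singleton_prime ?_).1 (hspan ▸ hP)
  exact fun h => B.ne_zero i (Subtype.ext h)

/-- In a factorial domain an element all whose prime valuations are divisible by `n` is a unit
times an `n`-th power. -/
theorem exists_unit_mul_pow {A F : Type*} [CommRing A] [IsDomain A] [UniqueFactorizationMonoid A]
    [Field F] [Algebra A F] [IsFractionRing A F] {n : ℕ} (hn : 0 < n) {f : F} (hf : f ≠ 0)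
    (H : ∀ p : A, Prime p → ∃ v : Valuation F (WithZero (Multiplicative ℤ)),
      v (algebraMap A F p) = WithZero.exp (-1 : ℤ) ∧
      (∀ x : A, ¬ p ∣ x → v (algebraMap A F x) = 1) ∧ (n : ℤ) ∣ WithZero.log (v f)) :
    ∃ (u : Aˣ) (z : F), z ≠ 0 ∧ f = algebraMap A F u * z ^ n := by
  classical
  choose v hvp hvx hvf using H
  have key : ∀ a : A, a ≠ 0 →
      (∀ p (hp : Prime p), (n : ℤ) ∣ WithZero.log (v p hp (algebraMap A F a))) →
      ∃ (u : Aˣ) (z : A), a = u * z ^ n := by
    intro a
    induction a using UniqueFactorizationMonoid.induction_on_coprime with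
    | h0 => exact fun h => absurd rfl h
    | h1 hx => exact fun _ _ => ⟨hx.unit, 1, by simp⟩
    | @hpr p i hp =>
      intro _ h
      have h' := h p hp
      rw [map_pow, map_pow, hvp, WithZero.log_pow, WithZero.log_exp] at h'
      obtain ⟨j, rfl⟩ : n ∣ i := by
        rw [← Int.natCast_dvd_natCast]; simpa using h'
      exact ⟨1, p ^ j, by rw [Units.val_one, one_mul, ← pow_mul, mul_comm]⟩
    | @hcp x y hxy ihx ihy =>
      intro hne h
      have hx0 := left_ne_zero_of_mul hne
      have hy0 := right_ne_zero_of_mul hne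
      have hne' : ∀ (w : A), w ≠ 0 → ∀ p (hp : Prime p), v p hp (algebraMap A F w) ≠ 0 := by
        intro w hw p hp
        rw [Valuation.ne_zero_iff]
        exact fun h' => hw (IsFractionRing.injective A F (h'.trans (map_zero _).symm))
      have split : ∀ p (hp : Prime p),
          WithZero.log (v p hp (algebraMap A F x)) + WithZero.log (v p hp (algebraMap A F y)) =
            WithZero.log (v p hp (algebraMap A F (x * y))) := fun p hp => by
        rw [map_mul, map_mul, WithZero.log_mul (hne' x hx0 p hp) (hne' y hy0 p hp)]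
      obtain ⟨u, z, rfl⟩ := ihx hx0 (fun p hp => by
        by_cases hpx : p ∣ x
        · have : ¬ p ∣ y := fun hpy => hp.not_isUnit (hxy hpx hpy)
          have h' := h p hp
          rwa [← split, hvx p hp y this, WithZero.log_one, add_zero] at h'
        · rw [hvx p hp x hpx, WithZero.log_one]; exact dvd_zero _)
      obtain ⟨u', z', rfl⟩ := ihy hy0 (fun p hp => by
        by_cases hpy : p ∣ y
        · have : ¬ p ∣ (u : A) * z ^ n := fun hpx => hp.not_isUnit (hxy hpx hpy)
          have h' := h p hp
          rwa [← split, hvx p hp _ this, WithZero.log_one, zero_add] at h'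
        · rw [hvx p hp y hpy, WithZero.log_one]; exact dvd_zero _)
      exact ⟨u * u', z * z', by rw [Units.val_mul]; ring⟩
  obtain ⟨x, y, hy, rfl⟩ := IsFractionRing.div_surjective (A := A) f
  have hyF : algebraMap A F y ≠ 0 := IsFractionRing.to_map_ne_zero_of_mem_nonZeroDivisors hy
  have hxF : algebraMap A F x ≠ 0 := fun h => hf (by rw [h, zero_div])
  have hne : x * y ^ (n - 1) ≠ 0 :=
    mul_ne_zero (fun h => hxF (by rw [h, map_zero]))
      (pow_ne_zero _ (fun h => hyF (by rw [h, map_zero])))
  have heq : algebraMap A F (x * y ^ (n - 1)) =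
      algebraMap A F x / algebraMap A F y * algebraMap A F y ^ n := by
    rw [map_mul, map_pow, div_mul_eq_mul_div, mul_div_assoc]
    congr 1
    obtain ⟨j, rfl⟩ : ∃ j, n = j + 1 := ⟨n - 1, by omega⟩
    rw [Nat.add_sub_cancel, pow_succ, mul_div_assoc, div_self hyF, mul_one]
  obtain ⟨u, z, hz⟩ := key _ hne (fun p hp => by
    rw [heq, map_mul, map_pow, WithZero.log_mul ((Valuation.ne_zero_iff _).2 hf)
      (pow_ne_zero _ ((Valuation.ne_zero_iff _).2 hyF)), WithZero.log_pow]
    refine dvd_add (hvf p hp) ?_
    rw [nsmul_eq_mul]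
    exact dvd_mul_right _ _)
  refine ⟨u, algebraMap A F z / algebraMap A F y, div_ne_zero (fun h => ?_) hyF, ?_⟩
  · refine hne ?_
    rw [hz, IsFractionRing.injective A F (h.trans (map_zero _).symm), zero_pow hn.ne', mul_zero]
  · rw [div_pow, ← mul_div_assoc, eq_div_iff (pow_ne_zero _ hyF), ← heq, hz, map_mul, map_pow]

end FLTAgent.TwoChart
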