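import Fermat.Agent.TwoChart.Model
import Fermat.Agent.TwoChart.Finite
import Fermat.Agent.TwoChart.Regular
import Fermat.Agent.FF.PlacesBasic

/-!
# Two-chart models: reductions and closed points

For a `Model`: the valuation rings `V`, reductions `redF` of functions, the regularity predicate
`IsReg`, and points of the special fibre with local equations of the branches through them
(structure `Pt`). Every maximal ideal of a chart containing `π` comes from such a point
(`exists_pt_crossing`, `exists_pt_smooth`, `exists_pt_of_isMaximal`).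
-/

set_option autoImplicit false

noncomputable section

open AlgebraicCurve WithZero

namespace FLTAgent.TwoChart

variable {W : Type} [CommRing W] {k : Type} [Field k] {res : W →+* k} {F : Type} [Field F]
  [Algebra W F] {π : W} {t : F} {ι : Type} {E : ι → Type} [∀ i, Field (E i)]
  [∀ i, Algebra k (E i)] {X : Type}

namespace Model

variable (M : Model W k res F π t ι E X)

/-- The valuation ring of a component. -/
abbrev V (i : ι) : ValuationSubring F := (M.val i).valuationSubring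

theorem mem_V {i : ι} {x : F} : x ∈ M.V i ↔ M.val i x ≤ 1 := Valuation.mem_valuationSubring_iff _ _

open Classical in
/-- Reduction, extended by zero outside the valuation ring. -/
def redF (i : ι) (x : F) : E i := if h : x ∈ M.V i then M.red i ⟨x, h⟩ else 0

theorem redF_of_mem {i : ι} {x : F} (h : x ∈ M.V i) : M.redF i x = M.red i ⟨x, h⟩ := dif_pos h

theorem redF_zero (i : ι) : M.redF i 0 = 0 := by
  rw [M.redF_of_mem (zero_mem _)]
  exact map_zero (M.red i)

theorem redF_one (i : ι) : M.redF i 1 = 1 := by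
  rw [M.redF_of_mem (one_mem _)]
  exact map_one (M.red i)

theorem redF_add {i : ι} {x y : F} (hx : x ∈ M.V i) (hy : y ∈ M.V i) :
    M.redF i (x + y) = M.redF i x + M.redF i y := by
  rw [M.redF_of_mem (add_mem hx hy), M.redF_of_mem hx, M.redF_of_mem hy, ← map_add]
  rfl

theorem redF_sub {i : ι} {x y : F} (hx : x ∈ M.V i) (hy : y ∈ M.V i) :
    M.redF i (x - y) = M.redF i x - M.redF i y := by
  rw [M.redF_of_mem (sub_mem hx hy), M.redF_of_mem hx, M.redF_of_mem hy, ← map_sub]
  rfl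

theorem redF_mul {i : ι} {x y : F} (hx : x ∈ M.V i) (hy : y ∈ M.V i) :
    M.redF i (x * y) = M.redF i x * M.redF i y := by
  rw [M.redF_of_mem (mul_mem hx hy), M.redF_of_mem hx, M.redF_of_mem hy, ← map_mul]
  rfl

theorem redF_pow {i : ι} {x : F} (hx : x ∈ M.V i) (n : ℕ) :
    M.redF i (x ^ n) = M.redF i x ^ n := by
  rw [M.redF_of_mem (pow_mem hx n), M.redF_of_mem hx, ← map_pow]
  rfl

theorem redF_eq_zero_iff {i : ι} {x : F} (hx : x ∈ M.V i) :
    M.redF i x = 0 ↔ M.val i x < 1 := by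
  rw [M.redF_of_mem hx, M.red_eq_zero]

theorem redF_ne_zero_iff {i : ι} {x : F} (hx : x ∈ M.V i) :
    M.redF i x ≠ 0 ↔ M.val i x = 1 := by
  rw [Ne, M.redF_eq_zero_iff hx, not_lt]
  exact ⟨fun h => le_antisymm (M.mem_V.1 hx) h, fun h => h.ge⟩

theorem redF_ne_zero_of_val {i : ι} {x : F} (h : M.val i x = 1) : M.redF i x ≠ 0 :=
  (M.redF_ne_zero_iff (M.mem_V.2 h.le)).2 h

theorem redF_inv {i : ι} {x : F} (h : M.val i x = 1) : M.redF i x⁻¹ = (M.redF i x)⁻¹ := by
  have hx : x ∈ M.V i := M.mem_V.2 h.le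
  have hxi : x⁻¹ ∈ M.V i := M.mem_V.2 (by rw [map_inv₀, h, inv_one])
  refine eq_inv_of_mul_eq_one_left ?_
  rw [← M.redF_mul hxi hx, inv_mul_cancel₀, M.redF_one]
  rintro rfl
  simp at h

theorem redF_zpow {i : ι} {x : F} (h : M.val i x = 1) (n : ℤ) :
    M.redF i (x ^ n) = M.redF i x ^ n := by
  have hx : x ∈ M.V i := M.mem_V.2 h.le
  rcases n with n | n
  · simpa using M.redF_pow hx n
  · rw [zpow_negSucc, zpow_negSucc, M.redF_inv (by rw [map_pow, h, one_pow]), M.redF_pow hx]

theorem redF_prod {α : Type*} {i : ι} (S : Finset α) (g : α → F) (hg : ∀ a ∈ S, g a ∈ M.V i) :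
    M.redF i (∏ a ∈ S, g a) = ∏ a ∈ S, M.redF i (g a) := by
  classical
  induction S using Finset.induction_on with
  | empty => simpa using M.redF_one i
  | insert a S ha ih =>
    rw [Finset.prod_insert ha, Finset.prod_insert ha,
      M.redF_mul (hg a (Finset.mem_insert_self a S))
        (prod_mem fun b hb => hg b (Finset.mem_insert_of_mem hb)),
      ih fun b hb => hg b (Finset.mem_insert_of_mem hb)]

theorem redF_algebraMap (i : ι) (w : W) :
    M.redF i (algebraMap W F w) = algebraMap k (E i) (res w) := by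
  have h : algebraMap W F w ∈ M.V i := M.mem_V.2 (M.val_base i w)
  rw [M.redF_of_mem h, M.red_const i w h]

theorem exists_redF_eq (i : ι) (a : E i) : ∃ x ∈ M.V i, M.redF i x = a := by
  obtain ⟨⟨x, hx⟩, rfl⟩ := M.red_surjective i a
  exact ⟨x, hx, M.redF_of_mem hx⟩

include M in
theorem chart_ne_zero {s : F} (hs : s ∈ ({t, t⁻¹} : Set F)) : s ≠ 0 := by
  rcases hs with rfl | rfl
  · exact M.t_ne_zero
  · exact inv_ne_zero M.t_ne_zero

theorem val_chart {s : F} (hs : s ∈ ({t, t⁻¹} : Set F)) (i : ι) : M.val i s = 1 := by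
  rcases hs with rfl | rfl
  · exact M.val_t i
  · rw [map_inv₀, M.val_t i, inv_one]

include M in
theorem algebraMap_pi_ne_zero (i : ι) : algebraMap W F π ≠ 0 := by
  intro h
  have := M.val_pi i
  rw [h, map_zero] at this
  exact exp_ne_zero this.symm

theorem intCl_le {S : Set F} (i : ι) (hS : ∀ x ∈ S, x ∈ M.V i) {r : F} (hr : r ∈ intCl W S) :
    r ∈ M.V i := by
  have hle : ∀ c ∈ Algebra.adjoin W S, c ∈ M.V i := by
    intro c hc
    induction hc using Algebra.adjoin_induction with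
    | mem y hy => exact hS y hy
    | algebraMap w => exact M.mem_V.2 (M.val_base i w)
    | add y z _ _ hy hz => exact add_mem hy hz
    | mul y z _ _ hy hz => exact mul_mem hy hz
  obtain ⟨p, hp, hpx⟩ := hr
  let emb : Algebra.adjoin W S →+* M.V i :=
    { toFun := fun c => ⟨c, hle c c.2⟩
      map_one' := rfl, map_mul' := fun _ _ => rfl, map_zero' := rfl, map_add' := fun _ _ => rfl }
  have hint : IsIntegral (M.V i) r := ⟨p.map emb, hp.map _, by rw [Polynomial.eval₂_map]; exact hpx⟩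
  obtain ⟨y, hy⟩ := (IsIntegrallyClosed.isIntegral_iff (R := M.V i) (K := F)).1 hint
  exact hy ▸ y.2

theorem chart_le_V {s : F} (hs : s ∈ ({t, t⁻¹} : Set F)) {r : F} (hr : r ∈ intCl W {s}) (i : ι) :
    r ∈ M.V i :=
  M.intCl_le i (fun _ hx => Set.mem_singleton_iff.1 hx ▸ M.mem_V.2 (M.val_chart hs i).le) hr

theorem pair_le_V {r : F} (hr : r ∈ intCl W {t, t⁻¹}) (i : ι) : r ∈ M.V i :=
  M.intCl_le i (fun _ hx => M.mem_V.2 (M.val_chart hx i).le) hr

/-- Reduction on a chart. -/
def redHom {s : F} (hs : s ∈ ({t, t⁻¹} : Set F)) (i : ι) : intCl W ({s} : Set F) →+* E i :=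
  (M.red i).comp
    { toFun := fun r => ⟨r, M.chart_le_V hs r.2 i⟩
      map_one' := rfl, map_mul' := fun _ _ => rfl, map_zero' := rfl, map_add' := fun _ _ => rfl }

theorem redHom_apply {s : F} (hs : s ∈ ({t, t⁻¹} : Set F)) (i : ι) (r : intCl W ({s} : Set F)) :
    M.redHom hs i r = M.redF i r := (M.redF_of_mem _).symm

/-- `s` is regular at the place `v` of the component `i`. -/
def IsReg (s : F) (i : ι) (v : Place k (E i)) : Prop := 0 ≤ v.ord (M.redF i s)

theorem IsReg.cond {s : F} {i : ι} {v : Place k (E i)} (h : M.IsReg s i v)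
    (hs : s ∈ (M.val i).valuationSubring) : 0 ≤ v.ord (M.red i ⟨s, hs⟩) := by
  have h' := h
  rwa [IsReg, M.redF_of_mem hs] at h'

/-- The reduction of a chart function is regular at every place lying in the chart. -/
theorem mem_place_of_mem {s : F} (hs : s ∈ ({t, t⁻¹} : Set F)) {i : ι} {v : Place k (E i)}
    (hv : M.IsReg s i v) {r : F} (hr : r ∈ intCl W {s}) :
    M.redF i r ∈ v.toValuationSubring := by
  have hsV : ∀ x ∈ ({s} : Set F), x ∈ M.V i := fun _ hx =>
    Set.mem_singleton_iff.1 hx ▸ M.mem_V.2 (M.val_chart hs i).le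
  have hle : ∀ c ∈ Algebra.adjoin W ({s} : Set F),
      c ∈ M.V i ∧ M.redF i c ∈ v.toValuationSubring := by
    intro c hc
    induction hc using Algebra.adjoin_induction with
    | mem y hy =>
      refine ⟨hsV y hy, ?_⟩
      rcases hy with rfl
      rw [FF.mem_iff]
      exact Or.inr hv
    | algebraMap w =>
      refine ⟨M.mem_V.2 (M.val_base i w), ?_⟩
      rw [M.redF_algebraMap]
      exact v.algebraMap_mem' _
    | add y z _ _ hy hz =>
      exact ⟨add_mem hy.1 hz.1, by rw [M.redF_add hy.1 hz.1]; exact add_mem hy.2 hz.2⟩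
    | mul y z _ _ hy hz =>
      exact ⟨mul_mem hy.1 hz.1, by rw [M.redF_mul hy.1 hz.1]; exact mul_mem hy.2 hz.2⟩
  have hint : IsIntegral v.toValuationSubring (M.redF i r) := by
    let φ := M.redHom hs i
    let emb : Algebra.adjoin W ({s} : Set F) →+* v.toValuationSubring :=
      (φ.comp (Subalgebra.inclusion (adjoin_le_intCl {s})).toRingHom).codRestrict _ (fun c => by
        show φ _ ∈ v.toValuationSubring
        rw [M.redHom_apply]
        exact (hle c c.2).2)
    obtain ⟨p, hp, hpx⟩ := hr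
    refine ⟨p.map emb, hp.map _, ?_⟩
    rw [Polynomial.eval₂_map]
    have h0 : Polynomial.eval₂ (Subalgebra.inclusion (adjoin_le_intCl (W := W) {s})).toRingHom
        (⟨r, ⟨p, hp, hpx⟩⟩ : intCl W ({s} : Set F)) p = 0 := by
      refine Subtype.ext ?_
      have := Polynomial.hom_eval₂ p (Subalgebra.inclusion (adjoin_le_intCl (W := W) {s})).toRingHom
        (intCl W ({s} : Set F)).val.toRingHom ⟨r, ⟨p, hp, hpx⟩⟩
      exact this.trans hpx
    have := congrArg φ h0
    rw [Polynomial.hom_eval₂, map_zero, M.redHom_apply] at this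
    exact this
  obtain ⟨y, hy⟩ := (IsIntegrallyClosed.isIntegral_iff (R := v.toValuationSubring) (K := E i)).1 hint
  exact hy ▸ y.2

theorem ord_redF_nonneg {s : F} (hs : s ∈ ({t, t⁻¹} : Set F)) {i : ι} {v : Place k (E i)}
    (hv : M.IsReg s i v) {r : F} (hr : r ∈ intCl W {s}) : 0 ≤ v.ord (M.redF i r) :=
  FF.ord_nonneg_of_mem_placeRing v (M.mem_place_of_mem hs hv hr)

/-- `r` is a unit at the place `v` of the component `i`. -/
def UnitAt (i : ι) (v : Place k (E i)) (r : F) : Prop :=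
  M.redF i r ≠ 0 ∧ v.ord (M.redF i r) = 0

/-- The ideal of a point. -/
def ptIdeal {s : F} (hs : s ∈ ({t, t⁻¹} : Set F)) {i : ι} {v : Place k (E i)}
    (hv : M.IsReg s i v) : Ideal (intCl W ({s} : Set F)) :=
  (IsLocalRing.maximalIdeal v.toValuationSubring).comap
    ((M.redHom hs i).codRestrict v.toValuationSubring (fun r => by
      rw [M.redHom_apply]; exact M.mem_place_of_mem hs hv r.2))

theorem mem_ptIdeal_iff {s : F} (hs : s ∈ ({t, t⁻¹} : Set F)) {i : ι} {v : Place k (E i)}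
    (hv : M.IsReg s i v) (r : intCl W ({s} : Set F)) :
    r ∈ M.ptIdeal hs hv ↔ ¬ M.UnitAt i v r := by
  rw [ptIdeal, Ideal.mem_comap, IsLocalRing.mem_maximalIdeal, mem_nonunits_iff, not_iff_not,
    ← v.adicValuation_coe_eq_one_iff]
  show v.adicValuation (M.redHom hs i r) = 1 ↔ _
  rw [M.redHom_apply, UnitAt]
  constructor
  · intro h
    have h0 : M.redF i (r : F) ≠ 0 := fun h' => by rw [h', map_zero] at h; exact zero_ne_one h
    refine ⟨h0, ?_⟩
    rw [Place.ord, h, WithZero.log_one, neg_zero]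
  · rintro ⟨h0, h1⟩
    rw [FF.val_eq_exp v h0, h1, neg_zero, exp_zero]

theorem ptIdeal_isPrime {s : F} (hs : s ∈ ({t, t⁻¹} : Set F)) {i : ι} {v : Place k (E i)}
    (hv : M.IsReg s i v) : (M.ptIdeal hs hv).IsPrime := Ideal.IsPrime.comap _

/-- A closed point of the special fibre in a chart, with its local equations. -/
structure Pt (s : F) where
  hs : s ∈ ({t, t⁻¹} : Set F)
  /-- The ideal of the point. -/
  m : Ideal (intCl W ({s} : Set F))
  /-- The components through the point. -/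
  br : Finset ι
  br_nonempty : br.Nonempty
  /-- The places of the point on these components. -/
  place : ∀ i, Place k (E i)
  reg : ∀ i ∈ br, M.IsReg s i (place i)
  mem_iff : ∀ i ∈ br, ∀ r : intCl W ({s} : Set F), r ∈ m ↔ ¬ M.UnitAt i (place i) r
  sep : ∀ j ∉ br, ∃ r : intCl W ({s} : Set F), r ∉ m ∧ M.val j (r : F) < 1
  /-- A local equation of each component. -/
  gen : ι → F
  gen_mem : ∀ i ∈ br, gen i ∈ intCl W {s}
  gen_ne : ∀ i ∈ br, gen i ≠ 0
  gen_lt : ∀ i ∈ br, M.val i (gen i) < 1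
  gen_spec : ∀ i ∈ br, ∀ r ∈ intCl W ({s} : Set F), M.val i r < 1 →
    ∃ u : intCl W ({s} : Set F), u ∉ m ∧ (u : F) * r * (gen i)⁻¹ ∈ intCl W {s}
  gen_trans : ∀ i ∈ br, ∀ j ∈ br, i ≠ j →
    M.redF j (gen i) ≠ 0 ∧ (place j).ord (M.redF j (gen i)) = 1

theorem isReg_pt {s : F} (hs : s ∈ ({t, t⁻¹} : Set F)) (x : X) (i : ι) :
    M.IsReg s i (M.pt x i) := by
  have ht : t ∈ M.V i := M.mem_V.2 (M.val_t i).le
  have h0 := M.ord_pt x i ht
  rcases hs with rfl | rfl
  · rw [IsReg, M.redF_of_mem ht, h0]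
  · rw [IsReg, M.redF_inv (M.val_t i), Place.ord_inv, M.redF_of_mem ht, h0, neg_zero]

theorem principal' {s : F} (hs : s ∈ ({t, t⁻¹} : Set F)) {i : ι} {v : Place k (E i)}
    (hv : M.IsReg s i v) :
    ∃ h ∈ intCl W {s}, h ≠ 0 ∧ M.val i h < 1 ∧
      (∀ r ∈ intCl W {s}, M.val i r < 1 →
        ∃ u : intCl W ({s} : Set F), M.UnitAt i v u ∧ (u : F) * r * h⁻¹ ∈ intCl W {s}) ∧
      ∀ x, v = M.pt x i → ∀ j, j ≠ i →
        M.redF j h ≠ 0 ∧ (M.pt x j).ord (M.redF j h) = 1 := by
  obtain ⟨h, hh, hh0, hlt, hspec, htr⟩ := M.principal s hs i v hv.cond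
  refine ⟨h, hh, hh0, hlt, fun r hr hr' => ?_, fun x hx j hj => ?_⟩
  · obtain ⟨u, hu, huV, h1, h2, h3⟩ := hspec r hr hr'
    exact ⟨⟨u, hu⟩, ⟨by rwa [M.redF_of_mem huV], by rwa [M.redF_of_mem huV]⟩, h3⟩
  · rw [M.redF_of_mem (M.chart_le_V hs hh j)]
    exact htr x hx j hj _

theorem separated' {s : F} (hs : s ∈ ({t, t⁻¹} : Set F)) {i : ι} {v : Place k (E i)}
    (hv : M.IsReg s i v) (hx : ∀ x, v ≠ M.pt x i) {j : ι} (hj : j ≠ i) :
    ∃ r : intCl W ({s} : Set F), M.val j (r : F) < 1 ∧ M.UnitAt i v r := by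
  obtain ⟨r, hr, hrV, h1, h2, h3⟩ := M.separated s hs i v hv.cond hx j hj
  exact ⟨⟨r, hr⟩, h1, by rwa [M.redF_of_mem hrV], by rwa [M.redF_of_mem hrV]⟩

theorem smooth' {s : F} (hs : s ∈ ({t, t⁻¹} : Set F)) {i : ι} {v : Place k (E i)}
    (hv : M.IsReg s i v) {a : E i} (ha : 0 ≤ v.ord a) :
    ∃ r b : intCl W ({s} : Set F),
      M.UnitAt i v r ∧ a * M.redF i r = M.redF i b := by
  obtain ⟨r, b, hr, hb, hrV, hbV, h1, h2, h3⟩ := M.smooth s hs i v hv.cond a ha
  refine ⟨⟨r, hr⟩, ⟨b, hb⟩, ⟨by rwa [M.redF_of_mem hrV], by rwa [M.redF_of_mem hrV]⟩, ?_⟩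
  rwa [M.redF_of_mem hrV, M.redF_of_mem hbV]

theorem unitAt_pt_iff {s : F} (hs : s ∈ ({t, t⁻¹} : Set F)) {r : F} (hr : r ∈ intCl W {s}) (x : X)
    (i j : ι) : M.UnitAt i (M.pt x i) r ↔ M.UnitAt j (M.pt x j) r := by
  simp only [UnitAt, M.redF_of_mem (M.chart_le_V hs hr i), M.redF_of_mem (M.chart_le_V hs hr j)]
  exact ⟨M.pt_center s hs r hr x i j _ _, M.pt_center s hs r hr x j i _ _⟩

/-- The point of a crossing. -/
theorem exists_pt_crossing [Fintype ι] [Nonempty ι] {s : F} (hs : s ∈ ({t, t⁻¹} : Set F))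
    (x : X) : ∃ P : M.Pt s, P.br = Finset.univ ∧ ∀ i, P.place i = M.pt x i := by
  classical
  have hreg := M.isReg_pt hs x
  choose h hmem hne0 hlt hspec htr using fun i => M.principal' hs (hreg i)
  let i₀ : ι := Classical.arbitrary ι
  have hmi : ∀ i, ∀ r : intCl W ({s} : Set F),
      r ∈ M.ptIdeal hs (hreg i₀) ↔ ¬ M.UnitAt i (M.pt x i) r := fun i r => by
    rw [M.mem_ptIdeal_iff, M.unitAt_pt_iff hs r.2 x i₀ i]
  refine ⟨{
      hs := hs
      m := M.ptIdeal hs (hreg i₀)
      br := Finset.univ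
      br_nonempty := Finset.univ_nonempty
      place := fun i => M.pt x i
      reg := fun i _ => hreg i
      mem_iff := fun i _ r => hmi i r
      sep := fun j hj => absurd (Finset.mem_univ j) hj
      gen := h
      gen_mem := fun i _ => hmem i
      gen_ne := fun i _ => hne0 i
      gen_lt := fun i _ => hlt i
      gen_spec := fun i _ r hr hr' => ?_
      gen_trans := fun i _ j _ hij => htr i x rfl j hij.symm }, rfl, fun i => rfl⟩
  obtain ⟨u, hu, hu'⟩ := hspec i r hr hr'
  exact ⟨u, fun hm => (hmi i u).1 hm hu, hu'⟩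

/-- The point of a place of a component which is not a crossing. -/
theorem exists_pt_smooth [Fintype ι] (hne : ∀ i, Nonempty (Place k (E i))) {s : F}
    (hs : s ∈ ({t, t⁻¹} : Set F)) {i : ι} {v : Place k (E i)} (hv : M.IsReg s i v)
    (hx : ∀ x, v ≠ M.pt x i) : ∃ P : M.Pt s, P.br = {i} ∧ P.place i = v := by
  classical
  obtain ⟨h, hmem, hne0, hlt, hspec, -⟩ := M.principal' hs hv
  refine ⟨{
      hs := hs
      m := M.ptIdeal hs hv
      br := {i}
      br_nonempty := Finset.singleton_nonempty i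
      place := Function.update (fun j => (hne j).some) i v
      reg := fun j hj => by
        obtain rfl := Finset.mem_singleton.1 hj
        rwa [Function.update_self]
      mem_iff := fun j hj r => by
        obtain rfl := Finset.mem_singleton.1 hj
        rw [Function.update_self]
        exact M.mem_ptIdeal_iff hs hv r
      sep := fun j hj => by
        obtain ⟨r, hr, hru⟩ := M.separated' hs hv hx (fun h' => hj (Finset.mem_singleton.2 h'))
        exact ⟨r, fun hm => (M.mem_ptIdeal_iff hs hv r).1 hm hru, hr⟩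
      gen := fun _ => h
      gen_mem := fun j _ => hmem
      gen_ne := fun j _ => hne0
      gen_lt := fun j hj => by obtain rfl := Finset.mem_singleton.1 hj; exact hlt
      gen_spec := fun j hj r hr hr' => by
        obtain rfl := Finset.mem_singleton.1 hj
        obtain ⟨u, hu, hu'⟩ := hspec r hr hr'
        exact ⟨u, fun hm => (M.mem_ptIdeal_iff hs hv u).1 hm hu, hu'⟩
      gen_trans := fun j hj l hl hne' => absurd
        ((Finset.mem_singleton.1 hj).trans (Finset.mem_singleton.1 hl).symm) hne' },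
    rfl, by simp⟩

/-- Every regular place of a component gives a point. -/
theorem exists_pt [Fintype ι] [Nonempty ι] (hne : ∀ i, Nonempty (Place k (E i))) {s : F}
    (hs : s ∈ ({t, t⁻¹} : Set F)) {i : ι} {v : Place k (E i)} (hv : M.IsReg s i v) :
    ∃ P : M.Pt s, P.place i = v ∧ i ∈ P.br ∧ (P.br = {i} ∧ (∀ x, v ≠ M.pt x i) ∨
      ∃ x, v = M.pt x i ∧ P.br = Finset.univ ∧ ∀ j, P.place j = M.pt x j) := by
  by_cases hx : ∃ x, v = M.pt x i
  · obtain ⟨x, rfl⟩ := hx
    obtain ⟨P, hP, hPp⟩ := M.exists_pt_crossing hs x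
    exact ⟨P, hPp i, hP ▸ Finset.mem_univ i, Or.inr ⟨x, rfl, hP, hPp⟩⟩
  · push Not at hx
    obtain ⟨P, hP, hPp⟩ := M.exists_pt_smooth hne hs hv hx
    exact ⟨P, hPp, hP ▸ Finset.mem_singleton_self i, Or.inl ⟨hP, hx⟩⟩

/-- Every maximal ideal over `π` in a chart is the ideal of a point. -/
theorem exists_pt_of_isMaximal [Fintype ι] [Nonempty ι] (hne : ∀ i, Nonempty (Place k (E i)))
    {s : F} (hs : s ∈ ({t, t⁻¹} : Set F)) (m : Ideal (intCl W ({s} : Set F))) (hm : m.IsMaximal)
    (hπ : algebraMap W (intCl W ({s} : Set F)) π ∈ m) :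
    ∃ P : M.Pt s, P.m = m ∧ ((∃ i, P.br = {i}) ∨
      ∃ x, P.br = Finset.univ ∧ ∀ j, P.place j = M.pt x j) := by
  obtain ⟨i, v, hreg, hiff⟩ := M.cover s hs m hm hπ
  have hsV : s ∈ M.V i := M.mem_V.2 (M.val_chart hs i).le
  have hv : M.IsReg s i v := by rw [IsReg, M.redF_of_mem hsV]; exact hreg hsV
  obtain ⟨P, hP, hiP, hcase⟩ := M.exists_pt hne hs hv
  refine ⟨P, ?_, hcase.imp (fun h => ⟨i, h.1⟩) (fun ⟨x, _, h⟩ => ⟨x, h⟩)⟩
  ext r
  have hV := M.chart_le_V hs r.2 i
  rw [P.mem_iff i hiP, hP, hiff r hV, UnitAt, M.redF_of_mem hV]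
  have h0 := M.ord_redF_nonneg hs hv r.2
  rw [M.redF_of_mem hV] at h0
  constructor
  · intro h
    by_cases h' : M.red i ⟨r, hV⟩ = 0
    · exact Or.inl h'
    · exact Or.inr (lt_of_le_of_ne h0 (fun h'' => h ⟨h', h''.symm⟩))
  · rintro (h | h) ⟨h1, h2⟩
    · exact h1 h
    · omega

end Model

end FLTAgent.TwoChart
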