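import Fermat.Agent.TwoChart.Local
import Fermat.Agent.TwoChart.Bound

/-!
# Two-chart models: factoriality of the local rings

The local ring `Pt.loc` of a closed point of the special fibre is Noetherian with maximal ideal
generated by two elements, hence factorial (`isUFD`). Its primes dividing `π` are the local
equations of the components (`exists_associated_gen`), which gives the local decomposition of a
Kummer function as a unit times local equations times an `n`-th power (`exists_decomp`); the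
auxiliary `exists_place_of_prime` finds the place of a prime element not dividing `π`.
-/

set_option autoImplicit false

noncomputable section

open AlgebraicCurve WithZero

namespace FLTAgent.TwoChart

/-- A prime of a Noetherian domain not dividing `π` gives a place of its fraction field over the
fraction field `K` of the base. -/
theorem exists_place_of_prime {W A F K : Type*} [CommRing W] [CommRing A] [IsDomain A]
    [IsNoetherianRing A] [Field F] [Algebra A F] [IsFractionRing A F] [Algebra W F] [Field K]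
    [Algebra W K] [Algebra K F] [IsScalarTower W K F] (ψ : W →+* A)
    (hψ : ∀ w, algebraMap A F (ψ w) = algebraMap W F w) {π : W} (hπK : algebraMap W K π ≠ 0)
    (hKfrac : ∀ c : K, ∃ (w : W) (m : ℕ), c * algebraMap W K π ^ m = algebraMap W K w)
    {p : A} (hp : Prime p) (hpπ : ¬ p ∣ ψ π) :
    ∃ pl : Place K F, pl.adicValuation (algebraMap A F p) = exp (-1 : ℤ) ∧
      ∀ x : A, ¬ p ∣ x → pl.adicValuation (algebraMap A F x) = 1 := by
  have hP : (Ideal.span {p}).IsPrime := (Ideal.span_singleton_prime hp.ne_zero).2 hp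
  have hle : (Ideal.span {p}).primeCompl ≤ nonZeroDivisors A :=
    Ideal.primeCompl_le_nonZeroDivisors _
  let B := Localization.subalgebra.ofField F (Ideal.span {p}).primeCompl hle
  have : IsLocalization.AtPrime B (Ideal.span {p}) :=
    Localization.subalgebra.isLocalization_ofField F _ hle
  have : IsNoetherianRing B :=
    IsLocalization.isNoetherianRing (Ideal.span {p}).primeCompl B inferInstance
  have : IsLocalRing B := IsLocalization.AtPrime.isLocalRing B (Ideal.span {p})
  have hmax : IsLocalRing.maximalIdeal B = Ideal.span {algebraMap A B p} := by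
    rw [← IsLocalization.AtPrime.map_eq_maximalIdeal (Ideal.span {p}) B, Ideal.map_span,
      Set.image_singleton]
  have hinjAB : Function.Injective (algebraMap A B) := IsLocalization.injective B hle
  have hp0 : algebraMap A B p ≠ 0 := fun h => hp.ne_zero (hinjAB (h.trans (map_zero _).symm))
  have hnf : ¬ IsField B := by
    rw [IsLocalRing.isField_iff_maximalIdeal_eq, hmax, Ideal.span_singleton_eq_bot]
    exact hp0
  have hprin : (IsLocalRing.maximalIdeal B).IsPrincipal := ⟨⟨_, hmax⟩⟩
  have : IsDiscreteValuationRing B :=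
    ((IsDiscreteValuationRing.TFAE B hnf).out 0 4).2 hprin
  have hπu : IsUnit (algebraMap A B (ψ π)) :=
    IsLocalization.map_units (M := (Ideal.span {p}).primeCompl) B
      ⟨ψ π, fun h => hpπ (Ideal.mem_span_singleton.1 h)⟩
  have hπF : algebraMap W F π ≠ 0 := by
    rw [IsScalarTower.algebraMap_apply W K F]
    exact (map_ne_zero _).2 hπK
  have hKB : ∀ c : K, algebraMap K F c ∈ B := by
    intro c
    obtain ⟨w, m, hwm⟩ := hKfrac c
    obtain ⟨u, hu⟩ := hπu
    have hinv : ((↑u⁻¹ : B) : F) = (algebraMap W F π)⁻¹ := by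
      refine eq_inv_of_mul_eq_one_left ?_
      rw [← hψ, IsScalarTower.algebraMap_apply A B F, ← hu]
      exact congrArg Subtype.val u.inv_mul
    have : algebraMap K F c = ((algebraMap A B (ψ w) * (↑u⁻¹ : B) ^ m : B) : F) := by
      rw [MulMemClass.coe_mul, SubmonoidClass.coe_pow, hinv, inv_pow,
        eq_mul_inv_iff_mul_eq₀ (pow_ne_zero _ hπF)]
      show _ = algebraMap B F (algebraMap A B (ψ w))
      rw [← IsScalarTower.algebraMap_apply A B F, hψ, IsScalarTower.algebraMap_apply W K F,
        IsScalarTower.algebraMap_apply W K F w, ← hwm, map_mul, map_pow]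
    rw [this]
    exact SetLike.coe_mem _
  let : Algebra K B := ((algebraMap K F).codRestrict B.toSubring hKB).toAlgebra
  have : IsScalarTower K B F := IsScalarTower.of_algebraMap_eq fun _ => rfl
  let w := IsDiscreteValuationRing.maximalIdeal B
  refine ⟨Place.ofHeightOneSpectrum w, ?_, fun x hx => ?_⟩
  · rw [FF.val_eq_exp _ (fun h => hp.ne_zero (IsFractionRing.injective A F
        (h.trans (map_zero _).symm))),
      FF.ord_ofHeightOneSpectrum, IsScalarTower.algebraMap_apply A B F,
      w.valuation_of_algebraMap (algebraMap A B p),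
      w.intValuation_singleton hp0 hmax, WithZero.log_exp, neg_neg]
  · have hx0 : x ≠ 0 := fun h => hx (h ▸ dvd_zero p)
    rw [FF.val_eq_exp _ (fun h => hx0 (IsFractionRing.injective A F (h.trans (map_zero _).symm))),
      FF.ord_ofHeightOneSpectrum, IsScalarTower.algebraMap_apply A B F]
    have hxu : algebraMap A B x ∉ w.asIdeal := by
      show algebraMap A B x ∉ IsLocalRing.maximalIdeal B
      rw [IsLocalRing.mem_maximalIdeal, mem_nonunits_iff, not_not]
      exact IsLocalization.map_units (M := (Ideal.span {p}).primeCompl) B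
        ⟨x, fun h => hx (Ideal.mem_span_singleton.1 h)⟩
    rw [(w.valuation_eq_one_iff_notMem (K := F)).2 hxu, WithZero.log_one, neg_zero, neg_zero,
      exp_zero]

variable {W : Type} [CommRing W] {k : Type} [Field k] {res : W →+* k} {F : Type} [Field F]
  [Algebra W F] {π : W} {t : F} {ι : Type} {E : ι → Type} [∀ i, Field (E i)]
  [∀ i, Algebra k (E i)] {X : Type}

namespace Model

variable (M : Model W k res F π t ι E X)

include M in
theorem isFractionRing_chart {s : F} (hs : s ∈ ({t, t⁻¹} : Set F)) :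
    IsFractionRing (intCl W ({s} : Set F)) F := by
  refine IsFractionRing.of_field _ F fun z => ?_
  obtain ⟨b, hb, hb0, hzb⟩ := exists_mul_mem_intCl (M.alg s hs) z
  exact ⟨⟨z * b, hzb⟩, ⟨b, hb⟩, by
    show z = z * b / b
    rw [mul_div_assoc, div_self hb0, mul_one]⟩

include M in
theorem isNoetherian_chart [IsNoetherianRing W] {s : F} (hs : s ∈ ({t, t⁻¹} : Set F)) :
    IsNoetherianRing (intCl W ({s} : Set F)) := by
  have : IsNoetherianRing (Algebra.adjoin W ({s} : Set F)) :=
    isNoetherianRing_of_fg (Subalgebra.fg_adjoin_finset {s} |> fun h => by simpa using h)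
  have := M.fin s hs
  exact IsNoetherianRing.of_finite (Algebra.adjoin W ({s} : Set F))
      (integralClosure (Algebra.adjoin W ({s} : Set F)) F)

theorem redF_pi (i : ι) : M.redF i (algebraMap W F π) = 0 := by
  rw [M.redF_algebraMap, (M.res_eq_zero π).2 dvd_rfl, map_zero]

variable {M} {s : F}

namespace Pt

variable (P : M.Pt s)

instance isPrime_m : P.m.IsPrime := by
  obtain ⟨i, hi⟩ := P.br_nonempty
  have : P.m = M.ptIdeal P.hs (P.reg i hi) := by
    ext r
    rw [P.mem_iff i hi, M.mem_ptIdeal_iff]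
  rw [this]
  exact M.ptIdeal_isPrime _ _

theorem primeCompl_le : P.m.primeCompl ≤ nonZeroDivisors (intCl W ({s} : Set F)) :=
  Ideal.primeCompl_le_nonZeroDivisors _

/-- The local ring of the point. -/
def loc : Subalgebra (intCl W ({s} : Set F)) F :=
  haveI := M.isFractionRing_chart P.hs
  Localization.subalgebra.ofField F P.m.primeCompl P.primeCompl_le

instance isLocalization_loc : IsLocalization.AtPrime P.loc P.m :=
  haveI := M.isFractionRing_chart P.hs
  Localization.subalgebra.isLocalization_ofField F _ P.primeCompl_le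

instance isFractionRing_loc : IsFractionRing P.loc F :=
  haveI := M.isFractionRing_chart P.hs
  inferInstance

instance isLocalRing_loc : IsLocalRing P.loc := IsLocalization.AtPrime.isLocalRing P.loc P.m

instance isNoetherianRing_loc [IsNoetherianRing W] : IsNoetherianRing P.loc :=
  IsLocalization.isNoetherianRing P.m.primeCompl P.loc (M.isNoetherian_chart P.hs)

theorem mem_loc_iff {x : F} : x ∈ P.loc ↔
    ∃ a b : intCl W ({s} : Set F), b ∉ P.m ∧ x = (a : F) * (b : F)⁻¹ := by
  show (∃ (a b : intCl W ({s} : Set F)) (_ : b ∈ P.m.primeCompl), x = _) ↔ _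
  exact ⟨fun ⟨a, b, hb, h⟩ => ⟨a, b, hb, h⟩, fun ⟨a, b, hb, h⟩ => ⟨a, b, hb, h⟩⟩

theorem mem_loc {r : F} (hr : r ∈ intCl W ({s} : Set F)) : r ∈ P.loc :=
  (algebraMap (intCl W ({s} : Set F)) P.loc ⟨r, hr⟩).2

theorem redF_ne_zero_of_not_mem {u : intCl W ({s} : Set F)} (hu : u ∉ P.m) {i : ι}
    (hi : i ∈ P.br) : M.UnitAt i (P.place i) u := by
  by_contra h
  exact hu ((P.mem_iff i hi u).2 h)

theorem val_eq_one_of_not_mem {u : intCl W ({s} : Set F)} (hu : u ∉ P.m) {i : ι} (hi : i ∈ P.br) :
    M.val i (u : F) = 1 :=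
  (M.redF_ne_zero_iff (M.chart_le_V P.hs u.2 i)).1 (P.redF_ne_zero_of_not_mem hu hi).1

theorem loc_le_V {x : F} (hx : x ∈ P.loc) {i : ι} (hi : i ∈ P.br) : x ∈ M.V i := by
  obtain ⟨a, b, hb, rfl⟩ := P.mem_loc_iff.1 hx
  rw [M.mem_V, map_mul, map_inv₀, P.val_eq_one_of_not_mem hb hi, inv_one, mul_one]
  exact M.mem_V.1 (M.chart_le_V P.hs a.2 i)

theorem redF_div {a b : intCl W ({s} : Set F)} (hb : b ∉ P.m) {i : ι} (hi : i ∈ P.br) :
    M.redF i ((a : F) * (b : F)⁻¹) = M.redF i a * (M.redF i b)⁻¹ := by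
  have hb' := P.val_eq_one_of_not_mem hb hi
  rw [M.redF_mul (M.chart_le_V P.hs a.2 i)
    (M.mem_V.2 (by rw [map_inv₀, hb', inv_one])), M.redF_inv hb']

theorem isUnit_algebraMap {u : intCl W ({s} : Set F)} (hu : u ∉ P.m) :
    IsUnit (algebraMap (intCl W ({s} : Set F)) P.loc u) :=
  IsLocalization.map_units (M := P.m.primeCompl) P.loc ⟨u, hu⟩

/-- The local equation as an element of the local ring. -/
def genL (i : ι) (hi : i ∈ P.br) : P.loc := ⟨P.gen i, P.mem_loc (P.gen_mem i hi)⟩

theorem gen_ne_zero {i : ι} (hi : i ∈ P.br) : P.gen i ≠ 0 := P.gen_ne i hi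

theorem gen_dvd_iff {i : ι} (hi : i ∈ P.br) (x : P.loc) :
    P.genL i hi ∣ x ↔ M.val i (x : F) < 1 := by
  constructor
  · rintro ⟨c, rfl⟩
    rw [MulMemClass.coe_mul, map_mul]
    calc M.val i (P.gen i) * M.val i (c : F) ≤ M.val i (P.gen i) * 1 :=
          mul_le_mul_right (M.mem_V.1 (P.loc_le_V c.2 hi)) _
      _ < 1 := by rw [mul_one]; exact P.gen_lt i hi
  · intro hx
    obtain ⟨a, b, hb, hab⟩ := P.mem_loc_iff.1 x.2
    have hva : M.val i (a : F) < 1 := by
      rwa [hab, map_mul, map_inv₀, P.val_eq_one_of_not_mem hb hi, inv_one, mul_one] at hx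
    obtain ⟨u, hu, hur⟩ := P.gen_spec i hi a a.2 hva
    have hub : u * b ∉ P.m := fun h => (Ideal.IsPrime.mem_or_mem inferInstance h).elim hu hb
    refine ⟨⟨(u : F) * a * (P.gen i)⁻¹ * ((u * b : intCl W ({s} : Set F)) : F)⁻¹,
      P.mem_loc_iff.2 ⟨⟨_, hur⟩, u * b, hub, rfl⟩⟩, Subtype.ext ?_⟩
    show (x : F) = P.gen i * _
    have hu0 : (u : F) ≠ 0 := fun h => hu (by rw [show u = 0 from Subtype.ext h]; exact zero_mem _)
    have hb0 : (b : F) ≠ 0 := fun h => hb (by rw [show b = 0 from Subtype.ext h]; exact zero_mem _)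
    have hh0 := P.gen_ne_zero hi
    rw [hab]
    push_cast
    field_simp

theorem genL_prime {i : ι} (hi : i ∈ P.br) : Prime (P.genL i hi) := by
  refine ⟨fun h => P.gen_ne_zero hi (congrArg Subtype.val h), fun h => ?_, fun x y hxy => ?_⟩
  · have := (P.gen_dvd_iff hi 1).1 (h.dvd)
    simp at this
  · rw [P.gen_dvd_iff hi, MulMemClass.coe_mul, map_mul] at hxy
    rw [P.gen_dvd_iff hi, P.gen_dvd_iff hi]
    by_contra h
    push Not at h
    exact absurd hxy (not_lt.2 (one_le_mul h.1 h.2))

/-- The local ring of a closed point is factorial. -/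
theorem isUFD [IsNoetherianRing W] : UniqueFactorizationMonoid P.loc := by
  classical
  obtain ⟨i, hi⟩ := P.br_nonempty
  obtain ⟨a, ha0, ha⟩ := FF.exists_ord_eq (P.place i) 1
  obtain ⟨r, b, hru, hrb⟩ := M.smooth' P.hs (P.reg i hi) (a := a) (by omega)
  have hrm : r ∉ P.m := fun h => (P.mem_iff i hi r).1 h hru
  have hbord : (P.place i).ord (M.redF i b) = 1 := by
    rw [← hrb, Place.ord_mul _ ha0 hru.1, ha, hru.2]; rfl
  have hb0 : M.redF i (b : F) ≠ 0 := by rw [← hrb]; exact mul_ne_zero ha0 hru.1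
  have hbm : b ∈ P.m := (P.mem_iff i hi b).2 (fun h => by have := h.2; omega)
  set bL := algebraMap (intCl W ({s} : Set F)) P.loc b with hbL
  have hmax : Ideal.span {P.genL i hi, bL} = IsLocalRing.maximalIdeal P.loc := by
    refine le_antisymm ?_ ?_
    · rw [Ideal.span_le]
      rintro y (rfl | rfl)
      · exact (IsLocalRing.mem_maximalIdeal _).2 (fun h => (P.genL_prime hi).not_isUnit h)
      · rw [← IsLocalization.AtPrime.map_eq_maximalIdeal P.m P.loc]
        exact Ideal.mem_map_of_mem _ hbm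
    · rw [← IsLocalization.AtPrime.map_eq_maximalIdeal P.m P.loc, Ideal.map_le_iff_le_comap]
      intro c hc
      rw [Ideal.mem_comap, Ideal.mem_span_pair]
      by_cases hc0 : M.redF i (c : F) = 0
      · obtain ⟨q, hq⟩ := (P.gen_dvd_iff hi (algebraMap _ P.loc c)).2
          ((M.redF_eq_zero_iff (M.chart_le_V P.hs c.2 i)).1 hc0)
        exact ⟨q, 0, by rw [zero_mul, add_zero, mul_comm]; exact hq.symm⟩
      · have hcord : 1 ≤ (P.place i).ord (M.redF i (c : F)) := by
          have h1 := M.ord_redF_nonneg P.hs (P.reg i hi) c.2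
          have h2 : ¬ M.UnitAt i (P.place i) c := (P.mem_iff i hi c).1 hc
          by_contra h3
          exact h2 ⟨hc0, by omega⟩
        obtain ⟨r', b', hr'u, hr'b⟩ := M.smooth' P.hs (P.reg i hi)
          (a := M.redF i (c : F) / M.redF i (b : F))
          (by rw [FF.ord_div _ hc0 hb0, hbord]; omega)
        have hr'm : r' ∉ P.m := fun h => (P.mem_iff i hi r').1 h hr'u
        obtain ⟨q, hq⟩ := (P.gen_dvd_iff hi (algebraMap _ P.loc (c * r' - b * b'))).2 (by
          refine (M.redF_eq_zero_iff (M.chart_le_V P.hs (c * r' - b * b').2 i)).1 ?_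
          have hcV := M.chart_le_V P.hs c.2 i
          have hrV := M.chart_le_V P.hs r'.2 i
          have hbV := M.chart_le_V P.hs b.2 i
          have hb'V := M.chart_le_V P.hs b'.2 i
          rw [Subalgebra.coe_sub, MulMemClass.coe_mul, MulMemClass.coe_mul,
            M.redF_sub (mul_mem hcV hrV) (mul_mem hbV hb'V), M.redF_mul hcV hrV,
            M.redF_mul hbV hb'V, ← hr'b]
          field_simp
          ring)
        obtain ⟨u, hu⟩ := P.isUnit_algebraMap hr'm
        refine ⟨q * ↑u⁻¹, algebraMap _ P.loc b' * ↑u⁻¹, ?_⟩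
        rw [map_sub, map_mul, map_mul] at hq
        calc q * ↑u⁻¹ * P.genL i hi + algebraMap _ P.loc b' * ↑u⁻¹ * bL
            = (algebraMap _ P.loc c * algebraMap _ P.loc r') * ↑u⁻¹ := by
              rw [hbL]; linear_combination (-(↑u⁻¹ : P.loc)) * hq
          _ = algebraMap _ P.loc c := by rw [← hu, mul_assoc, Units.mul_inv, mul_one]
  refine ufd_of_two_generators (P.genL_prime hi) (fun h => ?_) hmax
  exact hb0 ((M.redF_eq_zero_iff (M.chart_le_V P.hs b.2 i)).2 ((P.gen_dvd_iff hi bL).1 h))

theorem exists_eq_gen_pow_mul [IsNoetherianRing W] {i : ι} (hi : i ∈ P.br) {x : P.loc}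
    (hx : x ≠ 0) : ∃ (c : ℕ) (y : P.loc), x = P.genL i hi ^ c * y ∧ M.val i (y : F) = 1 := by
  have := P.isUFD
  obtain ⟨c, y, hy, rfl⟩ := WfDvdMonoid.max_power_factor hx (P.genL_prime hi).irreducible
  exact ⟨c, y, rfl, le_antisymm (M.mem_V.1 (P.loc_le_V y.2 hi))
    (not_lt.1 fun h => hy ((P.gen_dvd_iff hi y).2 h))⟩

/-- The local equation of a component has order one along it. -/
theorem val_gen [IsNoetherianRing W] {i : ι} (hi : i ∈ P.br) :
    M.val i (P.gen i) = exp (-1 : ℤ) := by
  obtain ⟨z, hz⟩ := M.val_norm i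
  have hz0 : z ≠ 0 := fun h => by rw [h, map_zero] at hz; exact exp_ne_zero hz.symm
  obtain ⟨a, b, hb, rfl⟩ := IsFractionRing.div_surjective (A := P.loc) z
  have ha : a ≠ 0 := fun h => hz0 (by rw [h, map_zero, zero_div])
  obtain ⟨c, a', rfl, ha'⟩ := P.exists_eq_gen_pow_mul hi ha
  obtain ⟨d, b', rfl, hb'⟩ := P.exists_eq_gen_pow_mul hi (nonZeroDivisors.ne_zero hb)
  have hg0 : M.val i (P.gen i) ≠ 0 := (Valuation.ne_zero_iff _).2 (P.gen_ne_zero hi)
  rw [map_mul, map_mul, map_pow, map_pow, map_div₀, map_mul, map_mul, map_pow, map_pow] at hz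
  change M.val i (P.gen i) ^ c * M.val i (a' : F) / (M.val i (P.gen i) ^ d * M.val i (b' : F)) = _
    at hz
  rw [ha', hb', mul_one, mul_one] at hz
  have hlog := congrArg WithZero.log hz
  rw [div_eq_mul_inv, WithZero.log_mul (pow_ne_zero _ hg0) (inv_ne_zero (pow_ne_zero _ hg0)),
    WithZero.log_inv, WithZero.log_pow, WithZero.log_pow, WithZero.log_exp, nsmul_eq_mul,
    nsmul_eq_mul] at hlog
  have hneg : WithZero.log (M.val i (P.gen i)) < 0 := by
    have := P.gen_lt i hi
    rwa [← exp_log hg0, ← exp_zero, exp_lt_exp] at this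
  have hfac : WithZero.log (M.val i (P.gen i)) * ((c : ℤ) - d) = -1 := by
    linarith
  rcases Int.eq_one_or_neg_one_of_mul_eq_neg_one' hfac with ⟨h1, -⟩ | ⟨h1, -⟩
  · omega
  · rw [← exp_log hg0, h1]

theorem val_gen_of_ne {i j : ι} (hi : i ∈ P.br) (hj : j ∈ P.br) (hij : i ≠ j) :
    M.val j (P.gen i) = 1 :=
  (M.redF_ne_zero_iff (M.chart_le_V P.hs (P.gen_mem i hi) j)).1 (P.gen_trans i hi j hj hij).1

/-- A prime of the local ring dividing `π` is a local equation of a component. -/
theorem exists_associated_gen [IsNoetherianRing W] [Fintype ι] {p : P.loc} (hp : Prime p)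
    (hpπ : p ∣ algebraMap (intCl W ({s} : Set F)) P.loc (algebraMap W _ π)) :
    ∃ (i : ι) (hi : i ∈ P.br), Associated p (P.genL i hi) := by
  classical
  choose r hrm hrv using P.sep
  let z : ι → intCl W ({s} : Set F) := fun j =>
    if hj : j ∈ P.br then ⟨P.gen j, P.gen_mem j hj⟩ else r j hj
  have hz : ∀ i, M.val i ((∏ j, z j : intCl W ({s} : Set F)) : F) < 1 := by
    intro i
    rw [← Finset.mul_prod_erase Finset.univ z (Finset.mem_univ i), MulMemClass.coe_mul, map_mul]
    refine lt_of_le_of_lt (mul_le_of_le_one_right' (M.mem_V.1 (M.chart_le_V P.hs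
      (SetLike.coe_mem _) i))) ?_
    by_cases hi : i ∈ P.br
    · simpa [z, hi] using P.gen_lt i hi
    · simpa [z, hi] using hrv i hi
  obtain ⟨m, b, hb, hmb⟩ := M.radical s P.hs _ (SetLike.coe_mem _) hz
  have hdvd : p ∣ algebraMap (intCl W ({s} : Set F)) P.loc (∏ j, z j) ^ m := by
    refine hpπ.trans ⟨algebraMap _ P.loc (⟨b, hb⟩ : intCl W ({s} : Set F)), Subtype.ext ?_⟩
    exact hmb
  obtain ⟨j, -, hj⟩ := hp.exists_mem_finset_dvd
    ((map_prod (algebraMap (intCl W ({s} : Set F)) P.loc) z Finset.univ) ▸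
      hp.dvd_of_dvd_pow hdvd)
  by_cases hjb : j ∈ P.br
  · refine ⟨j, hjb, hp.associated_of_dvd (P.genL_prime hjb) ?_⟩
    have : algebraMap (intCl W ({s} : Set F)) P.loc (z j) = P.genL j hjb := by
      simp only [z, dif_pos hjb]; rfl
    rwa [← this]
  · exfalso
    refine hp.not_isUnit (isUnit_of_dvd_unit hj (P.isUnit_algebraMap ?_))
    simp only [z, dif_neg hjb]
    exact hrm j hjb

variable {K : Type} [Field K] [Algebra W K] [Algebra K F] [IsScalarTower W K F]

/-- Local decomposition: a unit times the local equations times an `n`-th power. -/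
theorem exists_decomp [IsNoetherianRing W] [Fintype ι] (hπK : algebraMap W K π ≠ 0)
    (hKfrac : ∀ c : K, ∃ (w : W) (m : ℕ), c * algebraMap W K π ^ m = algebraMap W K w)
    {n : ℕ} [NeZero n] {f : F} (hf : IsKummer K n f) :
    ∃ (a b : intCl W ({s} : Set F)) (z : F), a ∉ P.m ∧ b ∉ P.m ∧ z ≠ 0 ∧
      f = (a : F) * (b : F)⁻¹ * (∏ i ∈ P.br, P.gen i ^ M.mult i f) * z ^ n ∧
      ∀ i ∈ P.br, M.val i z = 1 := by
  classical
  have := P.isUFD
  obtain ⟨hf0, hford⟩ := hf
  set G := ∏ i ∈ P.br, P.gen i ^ M.mult i f with hG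
  have hG0 : G ≠ 0 := Finset.prod_ne_zero_iff.2 fun i hi => zpow_ne_zero _ (P.gen_ne_zero hi)
  have hvalG : ∀ i ∈ P.br, M.val i G = M.val i f := by
    intro i hi
    rw [hG, map_prod, Finset.prod_eq_single_of_mem i hi]
    · rw [map_zpow₀, P.val_gen hi, ← exp_zsmul, smul_eq_mul, Model.mult]
      rw [show -WithZero.log (M.val i f) * -1 = WithZero.log (M.val i f) by ring,
        exp_log ((Valuation.ne_zero_iff _).2 hf0)]
    · intro j hj hji
      rw [map_zpow₀, P.val_gen_of_ne hj hi hji, one_zpow]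
  have hf' : f * G⁻¹ ≠ 0 := mul_ne_zero hf0 (inv_ne_zero hG0)
  obtain ⟨u, z, hz0, hfz⟩ := exists_unit_mul_pow (A := P.loc) (F := F)
    (Nat.pos_of_ne_zero (NeZero.ne n)) hf' (fun p hp => by
    by_cases hpπ : p ∣ algebraMap (intCl W ({s} : Set F)) P.loc (algebraMap W _ π)
    · obtain ⟨i, hi, hassoc⟩ := P.exists_associated_gen hp hpπ
      refine ⟨M.val i, ?_, fun x hx => ?_, ?_⟩
      · obtain ⟨u, hu⟩ := hassoc
        have hu1 : M.val i ((u : P.loc) : F) = 1 :=
          le_antisymm (M.mem_V.1 (P.loc_le_V (u : P.loc).2 hi)) (not_lt.1 fun h =>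
            (P.genL_prime hi).not_isUnit (isUnit_of_dvd_unit ((P.gen_dvd_iff hi _).2 h) u.isUnit))
        have := congrArg (fun y : P.loc => M.val i (y : F)) hu
        simp only [MulMemClass.coe_mul, map_mul, hu1, mul_one] at this
        exact this.trans (P.val_gen hi)
      · exact le_antisymm (M.mem_V.1 (P.loc_le_V x.2 hi))
          (not_lt.1 fun h => hx (hassoc.dvd_iff_dvd_left.2 ((P.gen_dvd_iff hi x).2 h)))
      · rw [map_mul, map_inv₀, hvalG i hi, mul_inv_cancel₀ ((Valuation.ne_zero_iff _).2 hf0),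
          WithZero.log_one]
        exact dvd_zero _
    · obtain ⟨pl, hplp, hplx⟩ := exists_place_of_prime (F := F) (K := K)
        ((algebraMap (intCl W ({s} : Set F)) P.loc).comp (algebraMap W _)) (fun w => rfl)
        hπK hKfrac hp hpπ
      refine ⟨pl.adicValuation, hplp, hplx, ?_⟩
      have hgen : ∀ i ∈ P.br, pl.adicValuation (P.gen i) = 1 := by
        intro i hi
        refine hplx (P.genL i hi) fun h => hpπ ?_
        have hd := (hp.associated_of_dvd (P.genL_prime hi) h).dvd.trans
          ((P.gen_dvd_iff hi (algebraMap (intCl W ({s} : Set F)) P.loc (algebraMap W _ π))).2 ?_)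
        · exact hd
        · show M.val i (algebraMap W F π) < 1
          rw [M.val_pi, ← exp_zero, exp_lt_exp]
          have := M.e_pos i
          omega
      have hG1 : pl.adicValuation G = 1 := by
        rw [hG, map_prod]
        exact Finset.prod_eq_one fun i hi => by rw [map_zpow₀, hgen i hi, one_zpow]
      rw [map_mul, map_inv₀, hG1, inv_one, mul_one]
      have := hford pl
      rwa [Place.ord, dvd_neg] at this)
  obtain ⟨a, b, hb, hab⟩ := P.mem_loc_iff.1 (u : P.loc).2
  have ha : a ∉ P.m := by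
    intro ham
    have h1 : algebraMap (intCl W ({s} : Set F)) P.loc a =
        (u : P.loc) * algebraMap (intCl W ({s} : Set F)) P.loc b := Subtype.ext (by
      show (a : F) = (u : P.loc) * (b : F)
      rw [hab, mul_assoc, inv_mul_cancel₀ (fun h => hb (by
        rw [show b = 0 from Subtype.ext h]; exact zero_mem _)), mul_one])
    have h2 := (u.isUnit.mul (P.isUnit_algebraMap hb))
    rw [← h1] at h2
    exact ((IsLocalization.AtPrime.isUnit_to_map_iff P.loc P.m a).1 h2) ham
  refine ⟨a, b, z, ha, hb, hz0, ?_, fun i hi => ?_⟩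
  · rw [← hab, mul_right_comm]
    show f = algebraMap P.loc F (u : P.loc) * z ^ n * G
    rw [← hfz, mul_assoc, inv_mul_cancel₀ hG0, mul_one]
  · have h1 := congrArg (M.val i) hfz
    rw [map_mul, map_inv₀, hvalG i hi, mul_inv_cancel₀ ((Valuation.ne_zero_iff _).2 hf0), map_mul,
      show algebraMap P.loc F (u : P.loc) = ((u : P.loc) : F) from rfl, hab, map_mul, map_inv₀,
      P.val_eq_one_of_not_mem ha hi, P.val_eq_one_of_not_mem hb hi, inv_one, mul_one, one_mul,
      map_pow] at h1
    have hne := (Valuation.ne_zero_iff (M.val i)).2 hz0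
    have h2 := congrArg WithZero.log h1
    rw [WithZero.log_one, WithZero.log_pow, nsmul_eq_mul] at h2
    have h3 : WithZero.log (M.val i z) = 0 := by
      rcases mul_eq_zero.1 h2.symm with h | h
      · exact absurd (by exact_mod_cast h) (NeZero.ne n)
      · exact h
    rw [← exp_log hne, h3, exp_zero]

end Pt

end Model

end FLTAgent.TwoChart
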