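import Fermat.Agent.TwoChart.Charts
import Fermat.Agent.BadQ.TwoDefs

/-!
# Chart data from the local structure at level `q²M`

`exists_chart_of_modelTwo` turns a `BadQ.Two.ModelTwo` of one chart into a `Chart`: local
generation and association at a point are converted into equations up to functions invertible
at the place (`exists_of_generatesAt`, `exists_of_associatedAt`), using that the centre of a
place on the coordinate ring is maximal.
-/

set_option autoImplicit false
set_option linter.unusedSectionVars false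
set_option linter.style.haveILetI false

noncomputable section

open AlgebraicCurve WithZero

namespace FLTAgent.TwoChart

section Local

variable {A : Type*} [CommRing A] [IsDomain A] {y : Ideal A} [y.IsPrime]

/-- Local generation read without localising. -/
theorem exists_of_generatesAt {I : Ideal A} {S : Set A} (h : BadQ.Two.GeneratesAt I S y) {a : A}
    (ha : a ∈ I) : ∃ u ∉ y, u * a ∈ Ideal.span S := by
  have h1 : algebraMap A (Localization.AtPrime y) a ∈
      (Ideal.span S).map (algebraMap A (Localization.AtPrime y)) := h ▸ Ideal.mem_map_of_mem _ ha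
  obtain ⟨⟨b, u⟩, hb⟩ := (IsLocalization.mem_map_algebraMap_iff y.primeCompl _).1 h1
  refine ⟨u, u.2, ?_⟩
  rw [← map_mul] at hb
  rw [mul_comm, IsLocalization.injective _ y.primeCompl_le_nonZeroDivisors hb]
  exact b.2

/-- Local association read without localising. -/
theorem exists_of_associatedAt {a b : A} (h : BadQ.Two.AssociatedAt a b y) :
    ∃ u ∉ y, ∃ w ∉ y, u * a = w * b := by
  obtain ⟨e, he⟩ := h
  obtain ⟨⟨u, w⟩, hu⟩ :=
    IsLocalization.surj y.primeCompl (e : Localization.AtPrime y)
  simp only at hu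
  have hu' : IsUnit (algebraMap A (Localization.AtPrime y) u) := by
    rw [← hu]; exact e.isUnit.mul (IsLocalization.map_units _ w)
  refine ⟨u, (IsLocalization.AtPrime.isUnit_to_map_iff (Localization.AtPrime y) y u).1 hu', w,
    w.2, IsLocalization.injective (Localization.AtPrime y) y.primeCompl_le_nonZeroDivisors ?_⟩
  rw [map_mul, map_mul, ← hu, ← he]
  ring

end Local

variable {k : Type} [Field k] {E : Type} [Field E] [Algebra k E]

/-- The centre of a place on a subalgebra on which it is regular. -/
def centre (C : Subalgebra k E) (v : Place k E) (hC : ∀ c ∈ C, c ∈ v.toValuationSubring) :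
    Ideal C :=
  (IsLocalRing.maximalIdeal v.toValuationSubring).comap
    (C.val.toRingHom.codRestrict v.toValuationSubring.toSubring fun c => hC c c.2)

variable {C : Subalgebra k E} {v : Place k E} {hC : ∀ c ∈ C, c ∈ v.toValuationSubring}

instance : (centre C v hC).IsPrime := Ideal.IsPrime.comap _

theorem mem_centre {x : C} : x ∈ centre C v hC ↔ ((x : E) = 0 ∨ 0 < v.ord (x : E)) := by
  rw [centre, Ideal.mem_comap, IsLocalRing.mem_maximalIdeal, mem_nonunits_iff]
  rcases eq_or_ne (x : E) 0 with hx | hx
  · simp only [hx, true_or, iff_true]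
    intro hu
    exact hu.ne_zero (Subtype.ext hx)
  simp only [hx, false_or]
  constructor
  · intro hu
    by_contra hle
    refine hu (IsUnit.of_mul_eq_one ⟨(x : E)⁻¹, (FF.mem_iff v _).2 (Or.inr (by
      rw [Place.ord_inv]; omega))⟩ (Subtype.ext (mul_inv_cancel₀ hx)))
  · intro hpos hu
    obtain ⟨u, hu1⟩ := hu.exists_right_inv
    have h1 : (x : E) * (u : E) = 1 := congrArg Subtype.val hu1
    have := FF.ord_nonneg_of_mem_placeRing v u.2
    have h5 := congrArg v.ord h1
    rw [Place.ord_mul _ hx (right_ne_zero_of_mul_eq_one h1), ← map_one (algebraMap k E),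
      FF.ord_algebraMap] at h5
    omega

theorem notMem_centre {x : C} : x ∉ centre C v hC ↔ ((x : E) ≠ 0 ∧ v.ord (x : E) = 0) := by
  rw [mem_centre]
  have := FF.ord_nonneg_of_mem_placeRing v (hC x x.2)
  constructor
  · intro h
    push Not at h
    exact ⟨h.1, le_antisymm h.2 this⟩
  · rintro ⟨h1, h2⟩ (h | h)
    · exact h1 h
    · omega

theorem centre_isMaximal [IsDedekindDomain C] [IsFractionRing C E] :
    (centre C v hC).IsMaximal := by
  refine Ideal.IsPrime.isMaximal inferInstance fun hbot => ?_
  obtain ⟨π, hπ0, hπ⟩ := FF.exists_ord_eq v 1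
  obtain ⟨⟨a, b⟩, hab⟩ := IsLocalization.surj (nonZeroDivisors C) π
  have hb0 : ((b : C) : E) ≠ 0 := fun h => nonZeroDivisors.coe_ne_zero b (Subtype.ext h)
  have hab' : π * ((b : C) : E) = (a : E) := hab
  have hb : (b : C) ∉ centre C v hC := fun h => by
    rw [hbot, Ideal.mem_bot] at h
    exact nonZeroDivisors.coe_ne_zero b h
  have ha : a ∉ centre C v hC := fun h => by
    rw [hbot, Ideal.mem_bot] at h
    rw [h] at hab'
    exact mul_ne_zero hπ0 hb0 hab'
  have h5 := congrArg v.ord hab'
  rw [Place.ord_mul _ hπ0 hb0, hπ, (notMem_centre.1 hb).2, (notMem_centre.1 ha).2] at h5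
  omega

variable {q : ℕ} {W : Type} [CommRing W] {F : Type} [Field F] [Algebra W F]
  {A₀ A₁ : Type} [CommRing A₀] [CommRing A₁] [Algebra W A₀] [Algebra W A₁]
  {F₁ : Type} [Field F₁] [Algebra W F₁] [Algebra A₁ F₁]

/-- A chart from the local structure of the level `q²M` model. -/
theorem exists_chart_of_modelTwo {s : F} {res : W →+* k} {sbar : E} (Cs : Subalgebra k E)
    [IsDedekindDomain Cs] [IsFractionRing Cs E] [Algebra W Cs]
    (hWC : ∀ w : W, ((algebraMap W Cs w : Cs) : E) = algebraMap k E (res w))
    (hint : ∀ c ∈ Cs, IsIntegral (Algebra.adjoin k ({sbar} : Set E)) c) (hsC : sbar ∈ Cs)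
    {h : BadQ.Two.StepData q W A₀ A₁ Cs F₁} {td : BadQ.Two.TowerData h (intCl W ({s} : Set F))}
    (m : BadQ.Two.ModelTwo td) (hqF : (q : F) ≠ 0)
    (hs : ∀ i, (m.comp i ⟨s, subset_intCl _ rfl⟩ : E) ≠ 0 ∧ ∃ d : ℕ, 0 < d ∧
      ∀ v : Place k E, v.ord (m.comp i ⟨s, subset_intCl _ rfl⟩ : E) = (d : ℤ) * v.ord sbar)
    (hcross : ∀ Q : Ideal Cs, Q.IsMaximal → h.Crossing Q → (⟨sbar, hsC⟩ : Cs) ∉ Q) :
    ∃ c : Chart W res (q : W) s sbar (BadQ.Two.mult q),
      (∀ i a, c.comp i a = (m.comp i a : E)) ∧
      (∀ v, c.Cross v ↔ 0 ≤ v.ord sbar ∧ ∃ Q : Ideal Cs, Q.IsMaximal ∧ h.Crossing Q ∧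
        ∀ x : Cs, x ∈ Q ↔ ((x : E) = 0 ∨ 0 < v.ord (x : E))) := by
  classical
  have hplace : ∀ v : Place k E, 0 ≤ v.ord sbar → ∀ c ∈ Cs, c ∈ v.toValuationSubring := by
    intro v hv c hc
    have hadj : ∀ y ∈ Algebra.adjoin k ({sbar} : Set E), y ∈ v.toValuationSubring := by
      intro y hy
      induction hy using Algebra.adjoin_induction with
      | mem y hy => exact (FF.mem_iff v y).2 (Or.inr (by rw [Set.mem_singleton_iff.1 hy]; exact hv))
      | algebraMap r => exact v.algebraMap_mem' r
      | add a b _ _ ha hb => exact add_mem ha hb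
      | mul a b _ _ ha hb => exact mul_mem ha hb
    obtain ⟨p, hp, hpc⟩ := hint c hc
    let φ : Algebra.adjoin k ({sbar} : Set E) →+* v.toValuationSubring :=
      (Algebra.adjoin k ({sbar} : Set E)).val.toRingHom.codRestrict v.toValuationSubring.toSubring
        fun y => hadj y y.2
    have hi : IsIntegral v.toValuationSubring c := ⟨p.map φ, hp.map φ, by
      rw [Polynomial.eval₂_map]; exact hpc⟩
    obtain ⟨y, hy⟩ := (IsIntegrallyClosed.isIntegral_iff (R := v.toValuationSubring) (K := E)).1 hi
    exact hy ▸ y.2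
  let φ : Fin 3 → intCl W ({s} : Set F) →+* E := fun i =>
    Cs.val.toRingHom.comp (m.comp i).toRingHom
  have hφ : ∀ i a, φ i a = (m.comp i a : E) := fun i a => rfl
  -- the points above a place
  have hunit : ∀ i (v : Place k E) (hv : 0 ≤ v.ord sbar) (a : intCl W ({s} : Set F)),
      a ∉ (centre Cs v (hplace v hv)).comap (m.comp i) →
        φ i a ≠ 0 ∧ v.ord (φ i a) = 0 := fun i v hv a ha =>
    (notMem_centre (hC := hplace v hv) (x := m.comp i a)).1 ha
  have hqA : algebraMap W (intCl W ({s} : Set F)) (q : W) = (q : intCl W ({s} : Set F)) :=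
    map_natCast _ _
  have hq0 : (q : intCl W ({s} : Set F)) ≠ 0 := fun h0 => hqF (by
    have := congrArg Subtype.val h0
    simpa using this)
  let Cross : Place k E → Prop := fun v => ∃ hv : 0 ≤ v.ord sbar,
    h.Crossing (centre Cs v (hplace v hv))
  refine ⟨{
    comp := φ
    C := Cs
    dedekind := ‹_›
    fraction := ‹_›
    C_integral := hint
    comp_range := fun i => ?_
    sbar_mem := hsC
    comp_s := hs
    comp_const := fun i w => ?_
    exists_ker_le := ?_
    Cross := Cross
    ord_cross := ?_
    cross_same := ?_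
    separated := ?_
    principal := ?_ }, hφ, fun v => ⟨?_, ?_⟩⟩
  · ext x
    constructor
    · rintro ⟨a, rfl⟩
      exact (m.comp i a).2
    · intro hx
      obtain ⟨a, ha⟩ := m.comp_surjective i ⟨x, hx⟩
      exact ⟨a, by rw [hφ, ha]⟩
  · rw [hφ, AlgHom.commutes, hWC]
  · intro P hP hπ
    rw [hqA] at hπ
    obtain ⟨i, hi⟩ := m.exists_ker_le P hP hπ
    exact ⟨i, fun a ha => hi (RingHom.mem_ker.2 (Subtype.ext (RingHom.mem_ker.1 ha)))⟩
  · rintro v ⟨hv, hc⟩
    exact (notMem_centre.1 (hcross _ centre_isMaximal hc)).2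
  · rintro v ⟨hv, hc⟩ i j a hia
    refine hunit j v hv a fun hj => ?_
    rw [(m.crossing _ centre_isMaximal hc).1 j i] at hj
    exact ((notMem_centre (hC := hplace v hv) (x := m.comp i a)).2 hia) hj
  · intro i v hv hnc j hji
    haveI : (centre Cs v (hplace v hv)).IsMaximal := centre_isMaximal
    obtain ⟨hsep, -⟩ := m.smooth i _ centre_isMaximal (fun hc => hnc ⟨hv, hc⟩)
    set y := (centre Cs v (hplace v hv)).comap (m.comp i) with hy
    haveI hym : y.IsMaximal := Ideal.comap_isMaximal_of_surjective _ (m.comp_surjective i)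
    have hnle : ¬ RingHom.ker (m.comp j) ≤ y := fun hle => by
      have hmax : (y.map (m.comp j)).IsMaximal := by
        refine (Ideal.map_eq_top_or_isMaximal_of_surjective _ (m.comp_surjective j) hym).resolve_left
          fun htop => hym.ne_top ?_
        have := Ideal.comap_map_of_surjective _ (m.comp_surjective j) y
        rw [htop, Ideal.comap_top] at this
        exact top_le_iff.1 (this.le.trans (sup_le le_rfl hle))
      have heq : (y.map (m.comp j)).comap (m.comp j) = y := by
        rw [Ideal.comap_map_of_surjective _ (m.comp_surjective j) y, sup_eq_left]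
        exact hle
      exact hji (hsep j _ hmax heq).1
    obtain ⟨r, hr, hry⟩ := SetLike.not_le_iff_exists.1 hnle
    exact ⟨r, congrArg Subtype.val (RingHom.mem_ker.1 hr), (hunit i v hv r hry).1,
      (hunit i v hv r hry).2⟩
  · intro i v hv
    haveI : (centre Cs v (hplace v hv)).IsMaximal := centre_isMaximal
    by_cases hc : Cross v
    · obtain ⟨hsame, g, hgi, hgen, hker, hq⟩ := m.crossing _ centre_isMaximal hc.2
      have hy : ∀ l, (centre Cs v (hplace v hv)).comap (m.comp 0) =
          (centre Cs v (hplace v hv)).comap (m.comp l) := fun l => hsame 0 l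
      have htrans : ∀ a b, a ≠ b → φ b (g a) ≠ 0 ∧ v.ord (φ b (g a)) = 1 := by
        intro a b hab
        obtain ⟨π, hπ0, hπ⟩ := FF.exists_ord_eq v 1
        obtain ⟨⟨n, d⟩, hnd⟩ := IsLocalization.surj (nonZeroDivisors Cs) π
        haveI hpr : (centre Cs v (hplace v hv)).IsPrime := inferInstance
        obtain ⟨d', hd'C, hd'0, hd'v, hπd⟩ : ∃ d' ∈ Cs, d' ≠ 0 ∧ v.ord d' = 0 ∧ π * d' ∈ Cs := by
          obtain ⟨P, hP⟩ := FF.exists_eq_ofHeightOneSpectrum (R := Cs) (K := k) (F := E) v
            fun r => hplace v hv r r.2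
          have hle : P.valuation E π ≤ 1 := by
            rw [← FF.mem_ofHeightOneSpectrum_iff (K := k) (F := E) P π, ← hP, FF.mem_iff]
            exact Or.inr (by omega)
          obtain ⟨n', ⟨d', hd'⟩, hnd'⟩ := P.exists_primeCompl_mul_eq_of_integer π hle
          have hd'c : d' ∉ centre Cs v (hplace v hv) := by
            rw [notMem_centre]
            have hd0 : (d' : E) ≠ 0 := fun h0 => hd' (by
              have h1 : d' = 0 := Subtype.ext h0
              rw [h1]; exact zero_mem _)
            refine ⟨hd0, le_antisymm ?_ (FF.ord_nonneg_of_mem_placeRing v (hplace v hv d' d'.2))⟩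
            have hval : P.valuation E (algebraMap Cs E d') = 1 := le_antisymm (P.valuation_le_one d')
              (not_lt.1 fun h1 => hd' ((P.valuation_lt_one_iff_mem (K := E) d').1 h1))
            have hinv : (d' : E)⁻¹ ∈ v.toValuationSubring := by
              rw [hP, FF.mem_ofHeightOneSpectrum_iff, map_inv₀]
              exact le_of_eq (by rw [show (d' : E) = algebraMap Cs E d' from rfl, hval, inv_one])
            have := FF.ord_nonneg_of_mem_placeRing v hinv
            rw [Place.ord_inv] at this
            omega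
          refine ⟨d', d'.2, (notMem_centre.1 hd'c).1, (notMem_centre.1 hd'c).2, ?_⟩
          have h2 := n'.2
          rwa [show π * (d' : E) = (n' : E) from hnd']
        obtain ⟨a', ha'⟩ := m.comp_surjective b ⟨_, hπd⟩
        have hπd0 : π * d' ≠ 0 := mul_ne_zero hπ0 hd'0
        have hord : v.ord (π * d') = 1 := by rw [Place.ord_mul _ hπ0 hd'0, hπ, hd'v, add_zero]
        have hy' : a' ∈ (centre Cs v (hplace v hv)).comap (m.comp 0) := by
          rw [hy b, Ideal.mem_comap, ha', mem_centre]
          exact Or.inr (by show 0 < v.ord (π * d'); omega)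
        obtain ⟨u, hu, hua⟩ := exists_of_generatesAt (hgen a b hab) hy'
        obtain ⟨x, z, hxz⟩ := Ideal.mem_span_pair.1 hua
        rw [hy b] at hu
        obtain ⟨hu0, huv⟩ := hunit b v hv u hu
        have h1 := congrArg (φ b) hxz
        rw [map_add, map_mul, map_mul, map_mul, show φ b (g b) = 0 from
          congrArg Subtype.val (hgi b), mul_zero, add_zero,
          show φ b a' = π * d' from congrArg Subtype.val ha'] at h1
        have hg0 : φ b (g a) ≠ 0 := fun h0 => mul_ne_zero hu0 hπd0 (by rw [← h1, h0, mul_zero])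
        have hx0 : φ b x ≠ 0 := fun h0 => mul_ne_zero hu0 hπd0 (by rw [← h1, h0, zero_mul])
        refine ⟨hg0, ?_⟩
        have h2 := congrArg v.ord h1
        rw [Place.ord_mul _ hx0 hg0, Place.ord_mul _ hu0 hπd0, huv, hord] at h2
        have h3 := FF.ord_nonneg_of_mem_placeRing v (hplace v hv _ (m.comp b x).2)
        have h4 : g a ∈ (centre Cs v (hplace v hv)).comap (m.comp 0) := by
          rw [hy a, Ideal.mem_comap, hgi a]
          exact zero_mem _
        rw [hy b, Ideal.mem_comap, mem_centre] at h4
        rcases h4 with h4 | h4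
        · exact absurd h4 hg0
        · change 0 < v.ord (φ b (g a)) at h4
          change 0 ≤ v.ord (φ b x) at h3
          omega
      obtain ⟨u, hu, w, hw, huw⟩ := exists_of_associatedAt hq
      have hgne : g i ≠ 0 := fun h0 => by
        obtain ⟨j, hj⟩ : ∃ j, j ≠ i := exists_ne i
        exact (htrans i j hj.symm).1 (by rw [h0, map_zero])
      rw [hy i] at hu hw
      refine ⟨g i, hgne, congrArg Subtype.val (hgi i), fun a ha => ?_, ?_, fun _ j hji =>
        htrans i j hji.symm⟩
      · obtain ⟨u', hu', hua⟩ := exists_of_generatesAt (hker i)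
          (RingHom.mem_ker.2 (Subtype.ext ha : m.comp i a = 0))
        obtain ⟨b, hb⟩ := Ideal.mem_span_singleton'.1 hua
        rw [hy i] at hu'
        exact ⟨u', b, (hunit i v hv u' hu').1, (hunit i v hv u' hu').2, hb.symm⟩
      · -- `q` is `g i ^ e i` up to a factor which does not vanish on the component
        refine ⟨u, w * ∏ l ∈ Finset.univ.erase i, g l ^ BadQ.Two.mult q l, (hunit i v hv u hu).1,
          ?_, ?_⟩
        · rw [map_mul, map_prod]
          refine mul_ne_zero (hunit i v hv w hw).1 (Finset.prod_ne_zero_iff.2 fun l hl => ?_)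
          rw [map_pow]
          exact pow_ne_zero _ (htrans l i (Finset.ne_of_mem_erase hl)).1
        · rw [hqA, huw, mul_assoc w (∏ l ∈ Finset.univ.erase i, g l ^ BadQ.Two.mult q l) _,
            Finset.prod_erase_mul _ (fun l => g l ^ BadQ.Two.mult q l) (Finset.mem_univ i),
            Fin.prod_univ_three]
          simp [BadQ.Two.mult, mul_assoc]
    · obtain ⟨-, g, u₀, hgi, -, hker, hq⟩ := m.smooth i _ centre_isMaximal (fun h' => hc ⟨hv, h'⟩)
      obtain ⟨u, hu, w, hw, huw⟩ := exists_of_associatedAt hq
      have hgne : g ≠ 0 := by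
        intro h0
        rcases Nat.eq_zero_or_pos (BadQ.Two.mult q i) with he | he
        · have : i = 1 := by
            fin_cases i <;> simp_all [BadQ.Two.mult]
          subst this
          have hq1 : q - 1 = 0 := by simpa [BadQ.Two.mult] using he
          have := h.prime.two_le
          omega
        · rw [h0, zero_pow he.ne', mul_zero, mul_eq_zero] at huw
          exact huw.elim (fun h1 => hu (h1 ▸ zero_mem _)) hq0
      refine ⟨g, hgne, congrArg Subtype.val hgi, fun a ha => ?_,
        ⟨u, w, (hunit i v hv u hu).1, (hunit i v hv w hw).1, by rw [hqA, huw]⟩,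
        fun h' => absurd h' hc⟩
      obtain ⟨u', hu', hua⟩ := exists_of_generatesAt hker
        (RingHom.mem_ker.2 (Subtype.ext ha : m.comp i a = 0))
      obtain ⟨b, hb⟩ := Ideal.mem_span_singleton'.1 hua
      exact ⟨u', b, (hunit i v hv u' hu').1, (hunit i v hv u' hu').2, hb.symm⟩
  · rintro ⟨hv, hc⟩
    exact ⟨hv, _, centre_isMaximal, hc, fun x => mem_centre⟩
  · rintro ⟨hv, Q, hQ, hc, hQv⟩
    refine ⟨hv, ?_⟩
    have : Q = centre Cs v (hplace v hv) := Ideal.ext fun x => (hQv x).trans mem_centre.symm
    exact this ▸ hc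

end FLTAgent.TwoChart
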