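import Mathlib

/-!
# Roots on nilpotent thickenings and successive approximation

`exists_pow_mul_eq_one` and `eq_one_of_pow_eq_one_of_isNilpotent`: for `n` invertible, `n`-th
roots of unipotent elements exist and are unique near `1`. `mem_of_pow_mem_of_pow_le` finds
roots inside a subring containing a power of an ideal.
-/

set_option autoImplicit false

namespace FLTAgent.TwoChart

open Polynomial

section Nilpotent

variable {A : Type*} [CommRing A] {n : ℕ}

/-- An `n`-th root of `1` congruent to `1` modulo the nilradical is `1`. -/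
theorem eq_one_of_pow_eq_one_of_isNilpotent (hn : IsUnit (n : A)) {δ : A}
    (hδ : δ ^ n = 1) (hnil : IsNilpotent (δ - 1)) : δ = 1 := by
  have hP : aeval (1 : A) ((X : A[X]) ^ n - 1) = 0 := by simp
  have hP' : IsUnit (aeval (1 : A) (derivative ((X : A[X]) ^ n - 1))) := by
    simpa [derivative_X_pow] using hn
  have h := Polynomial.existsUnique_nilpotent_sub_and_aeval_eq_zero
    (P := (X : A[X]) ^ n - 1) (x := (1 : A)) (by rw [hP]; exact IsNilpotent.zero) hP'
  refine h.unique ⟨?_, ?_⟩ ⟨by simp, hP⟩
  · simpa [neg_sub] using hnil.neg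
  · simp [hδ]

/-- Units congruent to `1` modulo the nilradical have such an `n`-th root. -/
theorem exists_pow_mul_eq_one (hn : IsUnit (n : A)) {ε : A} (hε : IsNilpotent ε) :
    ∃ δ : A, IsNilpotent (δ - 1) ∧ δ ^ n * (1 + ε) = 1 := by
  have hP' : IsUnit (aeval (1 : A) (derivative (C (1 + ε) * (X : A[X]) ^ n - 1))) := by
    simpa [derivative_X_pow] using hε.isUnit_one_add.mul hn
  obtain ⟨r, ⟨hr, hr0⟩, -⟩ := Polynomial.existsUnique_nilpotent_sub_and_aeval_eq_zero
    (P := C (1 + ε) * (X : A[X]) ^ n - 1) (x := (1 : A)) (by simpa using hε) hP'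
  refine ⟨r, by simpa [neg_sub] using hr.neg, ?_⟩
  have : (1 + ε) * r ^ n - 1 = 0 := by simpa using hr0
  linear_combination this

end Nilpotent

/-- If a subring contains a power of an ideal `J`, an element of `1 + J` whose `n`-th power lies
in the subring lies in the subring (`n` invertible). -/
theorem mem_of_pow_mem_of_pow_le {A : Type*} [CommRing A] (S : Subring A) (J : Ideal A) {m : ℕ}
    (hJ : ((J ^ m : Ideal A) : Set A) ⊆ S) {n : ℕ} {ninv : A} (hninv : (n : A) * ninv = 1)
    (hninvS : ninv ∈ S) {w : A} (hw : w - 1 ∈ J) (hwn : w ^ n ∈ S) : w ∈ S := by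
  -- approximate `w` inside `S` modulo higher and higher powers of `J`
  have key : ∀ j : ℕ, ∃ a ∈ S, w - a ∈ J ^ (j + 1) ∧ a - 1 ∈ J := by
    intro j
    induction j with
    | zero => exact ⟨1, S.one_mem, by simpa using hw, by simp⟩
    | succ j ih =>
      obtain ⟨a, haS, hwa, ha1⟩ := ih
      refine ⟨a + ninv * (w ^ n - a ^ n), S.add_mem haS (S.mul_mem hninvS
        (S.sub_mem hwn (S.pow_mem haS n))), ?_, ?_⟩
      · have hfac := geom_sum₂_mul w a n
        have hsum : (∑ i ∈ Finset.range n, w ^ i * a ^ (n - 1 - i)) - (n : A) ∈ J := by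
          rw [← Ideal.Quotient.eq]
          simp only [map_sum, map_mul, map_pow, map_natCast]
          have hw1 : Ideal.Quotient.mk J w = 1 := by
            rw [← map_one (Ideal.Quotient.mk J), Ideal.Quotient.eq]; exact hw
          have ha1' : Ideal.Quotient.mk J a = 1 := by
            rw [← map_one (Ideal.Quotient.mk J), Ideal.Quotient.eq]; exact ha1
          simp [hw1, ha1']
        have : w - (a + ninv * (w ^ n - a ^ n)) =
            -(ninv * ((∑ i ∈ Finset.range n, w ^ i * a ^ (n - 1 - i)) - (n : A))) * (w - a) := by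
          rw [← hfac]
          linear_combination (-(w - a)) * hninv
        rw [this, pow_succ' J (j + 1)]
        exact Ideal.mul_mem_mul (J.neg_mem (J.mul_mem_left _ hsum)) hwa
      · have hmem : w ^ n - a ^ n ∈ J := by
          rw [← geom_sum₂_mul w a n]
          exact J.mul_mem_left _ (Ideal.pow_le_self (Nat.succ_ne_zero j) hwa)
        have : a + ninv * (w ^ n - a ^ n) - 1 = (a - 1) + ninv * (w ^ n - a ^ n) := by ring
        rw [this]
        exact J.add_mem ha1 (J.mul_mem_left _ hmem)
  obtain ⟨a, haS, hwa, -⟩ := key m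
  have : w - a ∈ S := hJ (Ideal.pow_le_pow_right (Nat.le_succ m) hwa)
  simpa using S.add_mem haS this

end FLTAgent.TwoChart
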